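import Fermat.Agent.LTG.Mult.TraceTwo

/-!
# Multiplicity: the newvector statement

`newLevelStatement`, with the trace of an automorphism (`Trace`) also after `U ^ 2` (`TraceTwo`);
`Final` feeds it to the comparison of systems.
-/

set_option autoImplicit false
open NumberField Filter
open scoped Classical

namespace Fermat.LTG.Mult

open Fermat.LT

variable {F : Type*} [Field F] [NumberField F] [IsTotallyComplex F]
variable {T : Finset (Place F)} {lam : Place F → ℝ} {φ : Fn F}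

omit [IsTotallyComplex F] in
/-- Pulling back a nonzero function gives a nonzero function. -/
lemma pull_ne_zero {S : Lev F} {Φ : Pt F S → ℂ} (h : Φ ≠ 0) : pull Φ ≠ 0 := fun e => h (by
  rw [← desc_pull Φ, e]
  rfl)

/-- A basis indexed by a type in the lowest universe. -/
lemma nonempty_vecBasis {Z : Set (Place F)} (h : IsAut T lam φ) (hne : φ ≠ 0)
    (hU : ∀ v, U0N (v.valuation F) (nlev lam v) ≤ stab v φ) (hTZ : ∀ v, v ∉ Z → v ∉ T)
    (S : Lev F) (N : Place F → ℕ) (hn : ∀ v, nlev lam v ≤ N v) (hNS : ∀ v, N v ≤ S.depth v) :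
    Nonempty (VecBasis S N Z lam) := by
  have hfin : {v | N v ≠ 0}.Finite := S.finite'.subset fun v hv => by
    have := hNS v
    simp only [Set.mem_ofPred_eq] at hv ⊢
    omega
  have := finite_box (n := nlev lam) hfin
  let _ := Fintype.ofFinite (Box (nlev lam) N)
  obtain ⟨hmem, hind, hspan⟩ := bvec_basis h hne hU hTZ S N hn hNS
  set e := Fintype.equivFin (Box (nlev lam) N)
  refine ⟨⟨Fin (Fintype.card (Box (nlev lam) N)), inferInstance,
    fun i => desc S (bvec φ (e.symm i).1),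
    fun i => (hmem _).1, hind.comp _ e.symm.injective, fun Z' hZ' Ψ hΨ => ?_⟩⟩
  obtain ⟨a, ha⟩ := hspan Z' hZ' Ψ hΨ
  exact ⟨fun i => a (e.symm i), ha.trans (funext fun p => (Equiv.sum_comp e.symm
    fun j => a j * desc S (bvec φ j.1) p).symm)⟩

/-- **The newvector statement.** `NewLevelStatement` holds: the eigenvalues of a cusp form have a
minimal level. -/
theorem newLevelStatement : NewLevelStatement F := by
  rintro S₀ Z lam hZ ⟨Φ, hΦ⟩
  set T₀ := S₀.places ∪ hZ.toFinset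
  have hT : ∀ v, v ∉ T₀ ↔ v ∉ S₀ ∧ v ∉ Z := fun v => by simp [T₀]
  have hE : IsEigFn S₀ Z lam Φ :=
    ⟨hΦ.invariant, hΦ.continuous, hΦ.bounded, hΦ.arch, hΦ.cuspidal, hΦ.hecke⟩
  have hP : IsAut T₀ lam (pull Φ) := isAut_pull hE fun v hv => (hT v).1 hv
  have hne : pull Φ ≠ 0 := pull_ne_zero fun e => by
    obtain ⟨p, hp⟩ := hΦ.nonzero
    exact hp (by rw [e]; rfl)
  obtain ⟨φ, hφ, hφne, hU⟩ := hP.exists_newvec hne
  have hTZ : ∀ v, v ∉ Z ∪ {v | v ∈ S₀} → v ∉ T₀ := fun v hv => by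
    rw [Set.mem_union, not_or] at hv
    exact (hT v).2 ⟨hv.2, hv.1⟩
  have hZ' : (Z ∪ {v | v ∈ S₀}).Finite := hZ.union S₀.finite
  refine ⟨nlev lam, fun v hv => Nat.le_zero.1 (nlev_le ⟨T₀, _, hP, hne, ?_⟩), ?_⟩
  · rw [U0N_zero, ← lev_of_not_mem hv]
    exact (isLevel_pull Φ).lev_le_stab v
  exact
    { eq_zero := fun v hv => hP.nlev_eq_zero hne (hTZ v hv)
      invariant := fun τ hbad v => nlev_mapPlace hP hne τ hbad v
      basis := fun S N hn hNS => nonempty_vecBasis hφ hφne hU hTZ S N hn hNS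
      trace := fun S N B τ hS hbad hN hn hNS =>
        trace_amap hφ hφne hU hTZ hZ' B τ hS hbad hN hn hNS
      trace_two := fun S N B τ hS hbad hN hn hNS w hwτ hwZ hw0 hw1 hlam u hu l hl =>
        trace_locAct hφ hφne hU hTZ hZ' B τ hS hbad hN hn hNS w hwτ hwZ hw0 hw1 hlam u hu l hl }

end Fermat.LTG.Mult
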