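import Fermat.Agent.LTG.AutAct
import Fermat.Agent.LT.BorelOrbits

/-!
# Multiplicity: the interface of the newvector theory

`n` is the minimal level of the eigenfunctions with the given eigenvalues; at any level `N ≥ n` the
eigenfunctions form a finite space on which a field automorphism fixing `n`, `N` and the eigenvalues
has nonzero trace, also after `U ^ 2` at a place of exact level one.
-/

set_option autoImplicit false
open NumberField Filter
open scoped Classical

namespace Fermat.LTG

open Fermat.LT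

variable {F : Type*} [Field F]

/-- `Γ₀(pⁿ)` in `GL₂(O_v)`. -/
def congU0 (v : Valuation F (WithZero (Multiplicative ℤ))) (n : ℕ) : Subgroup (GL (Fin 2) F) where
  carrier := {g | g ∈ intGL v ∧ v ((g : Matrix (Fin 2) (Fin 2) F) 1 0) ≤ WithZero.exp (-(n : ℤ))}
  one_mem' := ⟨(intGL v).one_mem, by simp⟩
  mul_mem' := by
    rintro a b ⟨ha, ha'⟩ ⟨hb, hb'⟩
    refine ⟨(intGL v).mul_mem ha hb, ?_⟩
    rw [Units.val_mul, Matrix.mul_apply, Fin.sum_univ_two]
    refine (v.map_add _ _).trans (max_le ?_ ?_) <;> rw [map_mul]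
    · exact (mul_le_of_le_one_right' (v_entry_le_one v hb 0 0)).trans ha'
    · exact (mul_le_of_le_one_left' (v_entry_le_one v ha 1 1)).trans hb'
  inv_mem' := by
    rintro a ⟨ha, ha'⟩
    refine ⟨(intGL v).inv_mem ha, ?_⟩
    have h : ((a⁻¹ : GL (Fin 2) F) : Matrix (Fin 2) (Fin 2) F) 1 0 *
        (a : Matrix (Fin 2) (Fin 2) F) 0 0
        + ((a⁻¹ : GL (Fin 2) F) : Matrix (Fin 2) (Fin 2) F) 1 1 *
            (a : Matrix (Fin 2) (Fin 2) F) 1 0 = 0 := by
      have := congrFun
        (congrFun (show (((a⁻¹ * a : GL (Fin 2) F)) : Matrix (Fin 2) (Fin 2) F) = 1 by simp) 1) 0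
      rw [Units.val_mul, Matrix.mul_apply, Fin.sum_univ_two] at this
      simpa using this
    have e : ((a⁻¹ : GL (Fin 2) F) : Matrix (Fin 2) (Fin 2) F) 1 0
        = -((a : Matrix (Fin 2) (Fin 2) F) 1 0) * ((a : Matrix (Fin 2) (Fin 2) F).det)⁻¹ := by
      rw [Matrix.coe_units_inv, Matrix.inv_def, Matrix.adjugate_fin_two, Ring.inverse_eq_inv']
      simp [mul_comm]
    rw [e, map_mul, Valuation.map_neg]
    refine (mul_le_of_le_one_right' (le_of_eq ?_)).trans ha'
    obtain ⟨g0, hg0⟩ := ha
    rw [map_inv₀, ← hg0]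
    have hu : IsUnit (g0 : Matrix (Fin 2) (Fin 2) v.integer).det :=
      (Matrix.isUnit_iff_isUnit_det _).1 g0.isUnit
    rw [inv_eq_one]
    have hint := Valuation.integer.integers v
    have h1 := hint.isUnit_iff_valuation_eq_one.1 hu
    refine Eq.trans (congrArg v ?_) h1
    exact (RingHom.map_det v.integer.subtype _).symm

/-- The level subgroup `Fˣ Γ₀(pⁿ)`. -/
def U0N (v : Valuation F (WithZero (Multiplicative ℤ))) (n : ℕ) : Subgroup (GL (Fin 2) F) :=
  withScalars (congU0 v n)

/-- `Fˣ Γ₀(pⁿ)` lies in `Fˣ GL₂(O)`. -/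
lemma U0N_le_U0 (v : Valuation F (WithZero (Multiplicative ℤ))) (n : ℕ) : U0N v n ≤ U0 v :=
  fun _ ⟨c, hc⟩ => ⟨c, hc.1⟩

/-- The principal level lies in the level group of smaller depth. -/
lemma UN_le_U0N {v : Valuation F (WithZero (Multiplicative ℤ))} {d n : ℕ} (h : n ≤ d) :
    UN v d ≤ U0N v n := fun g ⟨c, hc⟩ =>
  ⟨c, hc.1, by
    have := hc.2 1 0
    rw [Matrix.one_apply_ne (show (1 : Fin 2) ≠ 0 by decide), sub_zero] at this
    exact this.trans (WithZero.exp_le_exp.2 (by omega))⟩

variable [NumberField F]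

/-- Right invariance under `Fˣ Γ₀(p ^ N v)` at every place. -/
def IsU0Inv {S : Lev F} (N : Place F → ℕ) (Φ : Pt F S → ℂ) : Prop :=
  ∀ (p : Pt F S) (v : Place F) (g k : GL (Fin 2) F), p.1.1 v = (g : Vert S v) →
    k ∈ U0N (v.valuation F) (N v) → Φ (p.1.set v ((g * k : GL (Fin 2) F) : Vert S v), p.2) = Φ p

variable [IsTotallyComplex F]

/-- Eigenfunctions: as `IsForm` but possibly zero, the Hecke eigenvalues prescribed only outside
`S` and `Z`.  (Unlike `LT.IsEigFun`: no type at the level, only vanishing constant terms.) -/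
structure IsEigFn (S : Lev F) (Z : Set (Place F)) (lam : Place F → ℝ) (Φ : Pt F S → ℂ) : Prop where
  /-- The function is invariant under `GL₂(F)`. -/
  invariant : IsInvariant Φ
  /-- The function is continuous in the archimedean variables. -/
  continuous : ∀ ω : FinPt F S, Continuous fun x : InfinitePlace F → H3 => Φ (ω, x)
  /-- The function is bounded. -/
  bounded : ∃ C : ℝ, ∀ p, ‖Φ p‖ ≤ C
  /-- The function is an archimedean eigenfunction of parameter zero. -/
  arch : IsArchEigen Φ
  /-- The constant terms vanish. -/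
  cuspidal : HasZeroConst Φ
  /-- Outside `S` and `Z` the Hecke operator at `v` acts by `lam v`. -/
  hecke : ∀ v ∉ S, v ∉ Z → ∀ p, heckeT v Φ p = (lam v : ℂ) * Φ p

/-- Eigenfunctions of level `N` on the points of level `S`. -/
def IsVec (S : Lev F) (N : Place F → ℕ) (Z : Set (Place F)) (lam : Place F → ℝ) (Φ : Pt F S → ℂ) :
    Prop :=
  IsEigFn S Z lam Φ ∧ IsU0Inv N Φ

/-- A basis of the eigenfunctions of level `N`. -/
structure VecBasis (S : Lev F) (N : Place F → ℕ) (Z : Set (Place F)) (lam : Place F → ℝ) where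
  /-- The index type of the basis. -/
  ι : Type
  /-- There are finitely many indices. -/
  fintype : Fintype ι
  /-- The basis functions. -/
  f : ι → Pt F S → ℂ
  /-- Each is an eigenfunction of exponents `N`. -/
  mem : ∀ i, IsVec S N Z lam (f i)
  /-- The basis functions are linearly independent. -/
  indep : LinearIndependent ℂ f
  /-- They span the eigenfunctions of exponents `N`, whatever finite set is excepted. -/
  span : ∀ Z' : Set (Place F), Z'.Finite → ∀ Ψ, IsVec S N Z' lam Ψ →
    ∃ a : ι → ℂ, Ψ = fun p => ∑ i, a i * f i p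

attribute [instance] VecBasis.fintype

/-- The map `A` preserves the span of the basis and has nonzero trace there. -/
def VecBasis.TraceNe {S : Lev F} {N : Place F → ℕ} {Z : Set (Place F)} {lam : Place F → ℝ}
    (B : VecBasis S N Z lam) (A : (Pt F S → ℂ) → Pt F S → ℂ) : Prop :=
  ∃ M : B.ι → B.ι → ℂ, (∀ i, A (B.f i) = fun p => ∑ k, M i k * B.f k p) ∧ ∑ i, M i i ≠ 0

/-- `n` is the minimal level of the eigenvalues `lam`: the conclusions used by the comparison of
traces. -/
structure NewLevel (Z : Set (Place F)) (lam : Place F → ℝ) (n : Place F → ℕ) : Prop where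
  /-- The minimal exponents vanish outside `Z`. -/
  eq_zero : ∀ v ∉ Z, n v = 0
  /-- They are invariant under automorphisms fixing almost all eigenvalues. -/
  invariant : ∀ τ : F ≃+* F, {v | lam (mapPlace τ v) ≠ lam v}.Finite → ∀ v, n (mapPlace τ v) = n v
  /-- Above them every exponent inside the level has a finite basis. -/
  basis : ∀ (S : Lev F) (N : Place F → ℕ), (∀ v, n v ≤ N v) → (∀ v, N v ≤ S.depth v) →
    Nonempty (VecBasis S N Z lam)
  /-- An automorphism preserving exponents and almost all eigenvalues has nonzero trace. -/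
  trace : ∀ (S : Lev F) (N : Place F → ℕ) (B : VecBasis S N Z lam) (τ : F ≃+* F) (hS : Stable τ S),
    {v | lam (mapPlace τ v) ≠ lam v}.Finite → (∀ v, N (mapPlace τ v) = N v) →
    (∀ v, n v ≤ N v) → (∀ v, N v ≤ S.depth v) →
    B.TraceNe (fun Φ p => Φ (Pt.amap hS p))
  /-- So has its composite with the operator of `diag (u, 1)`, `ord u = 2`, at a fixed good place
  `w` of exponent one with `lam w ^ 2 ≠ 2 N w`. -/
  trace_two : ∀ (S : Lev F) (N : Place F → ℕ) (B : VecBasis S N Z lam) (τ : F ≃+* F)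
    (hS : Stable τ S),
    {v | lam (mapPlace τ v) ≠ lam v}.Finite → (∀ v, N (mapPlace τ v) = N v) →
    (∀ v, n v ≤ N v) → (∀ v, N v ≤ S.depth v) →
    ∀ w : Place F, mapPlace τ w = w → w ∉ Z → n w = 0 → N w = 1 →
      (lam w) ^ 2 ≠ 2 * (pnorm w : ℝ) →
      ∀ (u : Fˣ), w.valuation F (u : F) = WithZero.exp (-2 : ℤ) → ∀ l : LKer S w,
        (∀ a b : GL (Fin 2) F, l (a : Vert S w) (b : Vert S w) =
          if ∃ k₁ ∈ U0N (w.valuation F) 1, ∃ k₂ ∈ U0N (w.valuation F) 1,
            a⁻¹ * b = k₁ * upMat u 0 * k₂ then 1 else 0) →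
        B.TraceNe (fun Φ p => locAct w l Φ (Pt.amap hS p))

variable (F) in
/-- The multiplicity statement: eigenvalues admitting a cusp form have a minimal level, zero off the
level of that form. -/
def NewLevelStatement : Prop :=
  ∀ (S₀ : Lev F) (Z : Set (Place F)) (lam : Place F → ℝ), Z.Finite →
    (∃ Φ, IsForm S₀ Z lam Φ) →
      ∃ n, (∀ v ∉ S₀, n v = 0) ∧ NewLevel (Z ∪ {v | v ∈ S₀}) lam n

end Fermat.LTG
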