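import Fermat.Agent.LTG.Mult.Statement
import Fermat.Agent.LT.HypLocal

/-!
# Multiplicity: functions on the restricted product

Functions on `G(𝔸)` are functions of a restricted family of rational matrices and of one point of
`H3` per infinite place, smooth in the finite variables.
-/

set_option autoImplicit false
open NumberField Filter
open scoped Classical

namespace Fermat.LTG.Mult

open Fermat.LT

variable (F : Type*) [Field F] [NumberField F]

/-- Restricted families of matrices. -/
def gaSub : Subgroup (Place F → GL (Fin 2) F) where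
  carrier := {g | ∀ᶠ v in cofinite, g v ∈ U0 (v.valuation F)}
  one_mem' := by
    refine Set.mem_ofPred_eq ▸ Eventually.of_forall fun v => ?_
    exact (U0 (v.valuation F)).one_mem
  mul_mem' {a b} ha hb := by
    rw [Set.mem_ofPred_eq] at ha hb ⊢
    filter_upwards [ha, hb] with v h1 h2
    exact (U0 (v.valuation F)).mul_mem h1 h2
  inv_mem' {a} ha := by
    rw [Set.mem_ofPred_eq] at ha ⊢
    filter_upwards [ha] with v h1
    exact (U0 (v.valuation F)).inv_mem h1

/-- The finite adelic points of `GL₂` in the lattice model. -/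
abbrev GA : Type _ := ↥(gaSub F)

/-- The archimedean points. -/
abbrev AX : Type _ := InfinitePlace F → H3

/-- Functions of an adelic point. -/
abbrev Fn : Type _ := GA F → AX F → ℂ

variable {F}

/-- Families are equal if their components are. -/
lemma GA.ext' {g h : GA F} (H : ∀ v, g.1 v = h.1 v) : g = h := Subtype.ext (funext H)

/-- The components of the identity. -/
@[simp] lemma GA.one_apply (v : Place F) : (1 : GA F).1 v = 1 := rfl

/-- Multiplication is componentwise. -/
@[simp] lemma GA.mul_apply (g h : GA F) (v : Place F) : (g * h).1 v = g.1 v * h.1 v := rfl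

/-- Inversion is componentwise. -/
@[simp] lemma GA.inv_apply (g : GA F) (v : Place F) : (g⁻¹).1 v = (g.1 v)⁻¹ := rfl

/-- A rational matrix is integral at almost all places. -/
lemma eventually_mem_U0 (γ : GL (Fin 2) F) :
    ∀ᶠ v : Place F in cofinite, γ ∈ U0 (v.valuation F) := by
  filter_upwards [eventually_mem_intGL γ] with v hv
  exact le_withScalars _ hv

/-- The diagonal embedding. -/
noncomputable def dgl : GL (Fin 2) F →* GA F where
  toFun γ := ⟨fun _ => γ, eventually_mem_U0 γ⟩
  map_one' := rfl
  map_mul' _ _ := rfl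

/-- The components of a diagonal family. -/
@[simp] lemma dgl_apply (γ : GL (Fin 2) F) (v : Place F) : (dgl γ).1 v = γ := rfl

/-- The embedding at one place. -/
noncomputable def sgl (v : Place F) : GL (Fin 2) F →* GA F where
  toFun h := ⟨Pi.mulSingle v h, by
    filter_upwards [(Set.finite_singleton v).compl_mem_cofinite] with u hu
    rw [Pi.mulSingle_eq_of_ne (by simpa using hu)]
    exact (U0 _).one_mem⟩
  map_one' := Subtype.ext (Pi.mulSingle_one v)
  map_mul' a b := Subtype.ext (Pi.mulSingle_mul (f := fun _ : Place F => GL (Fin 2) F) v a b)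

/-- A family at one place has its matrix there. -/
@[simp] lemma sgl_same (v : Place F) (h : GL (Fin 2) F) : (sgl v h).1 v = h :=
  Pi.mulSingle_eq_same (M := fun _ => GL (Fin 2) F) v h

/-- A family at one place is trivial elsewhere. -/
lemma sgl_ne {v u : Place F} (hu : u ≠ v) (h : GL (Fin 2) F) : (sgl v h).1 u = 1 :=
  Pi.mulSingle_eq_of_ne (M := fun _ => GL (Fin 2) F) hu h

/-- A local element passes through an adelic one by conjugation. -/
lemma sgl_conj (g : GA F) (v : Place F) (h : GL (Fin 2) F) :
    sgl v h * g = g * sgl v ((g.1 v)⁻¹ * h * g.1 v) := by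
  refine GA.ext' fun u => ?_
  by_cases hu : u = v
  · subst hu; simp [mul_assoc]
  · simp [sgl_ne hu]

/-- A family trivial at `v` commutes with the families at `v`. -/
lemma commute_sgl {g : GA F} {v : Place F} (hg : g.1 v = 1) (h : GL (Fin 2) F) :
    sgl v h * g = g * sgl v h := by
  rw [sgl_conj, hg, inv_one, one_mul, mul_one]

/-- The adele with its component at `v` replaced by `h`. -/
noncomputable def upd (g : GA F) (v : Place F) (h : GL (Fin 2) F) :
    GA F := g * sgl v ((g.1 v)⁻¹ * h)

/-- The new component of an updated family. -/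
@[simp] lemma upd_same (g : GA F) (v : Place F) (h : GL (Fin 2) F) : (upd g v h).1 v = h := by
  simp [upd]

/-- The other components of an updated family are kept. -/
lemma upd_ne (g : GA F) {v u : Place F} (hu : u ≠ v) (h : GL (Fin 2) F) :
    (upd g v h).1 u = g.1 u := by
  simp [upd, sgl_ne hu]

/-- The action on the archimedean points. -/
noncomputable def act (γ : GL (Fin 2) F) (x : AX F) : AX F := fun w => atInf w γ • x w

omit [NumberField F] in
/-- The action at infinity is multiplicative. -/
lemma act_mul (γ δ : GL (Fin 2) F) (x : AX F) : act (γ * δ) x = act γ (act δ x) :=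
  funext fun w => by simp [act, mul_smul]

omit [NumberField F] in
/-- The identity acts trivially. -/
lemma act_one (x : AX F) : act 1 x = x := funext fun w => by simp [act]

/-- Right translation. -/
noncomputable def R (h : GA F) : Fn F →ₗ[ℂ] Fn F where
  toFun Ψ := fun g x => Ψ (g * h) x
  map_add' _ _ := rfl
  map_smul' _ _ := rfl

/-- Right translation, written out. -/
@[simp] lemma R_apply (h : GA F) (Ψ : Fn F) (g : GA F) (x : AX F) : R h Ψ g x = Ψ (g * h) x := rfl

/-- Translation by the identity. -/
lemma R_one (Ψ : Fn F) : R 1 Ψ = Ψ := by funext g x; simp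

/-- Translations compose. -/
lemma R_mul (a b : GA F) (Ψ : Fn F) : R (a * b) Ψ = R a (R b Ψ) := by funext g x; simp [mul_assoc]

/-- Translation by the inverse undoes a translation. -/
lemma R_inv_R (a : GA F) (Ψ : Fn F) : R a⁻¹ (R a Ψ) = Ψ := by rw [← R_mul, inv_mul_cancel, R_one]

/-- A translate of a nonzero function is nonzero. -/
lemma R_ne_zero (a : GA F) {Ψ : Fn F} (h : Ψ ≠ 0) : R a Ψ ≠ 0 := fun e =>
  h (by rw [← R_inv_R a Ψ, e, map_zero])

/-- The stabiliser at one place. -/
noncomputable def stab (v : Place F) (Ψ : Fn F) : Subgroup (GL (Fin 2) F) where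
  carrier := {h | R (sgl v h) Ψ = Ψ}
  one_mem' := by rw [Set.mem_ofPred_eq, map_one, R_one]
  mul_mem' {a b} (ha : R (sgl v a) Ψ = Ψ) (hb : R (sgl v b) Ψ = Ψ) := by
    change R (sgl v (a * b)) Ψ = Ψ
    rw [map_mul, R_mul, hb, ha]
  inv_mem' {a} (ha : R (sgl v a) Ψ = Ψ) := by
    change R (sgl v a⁻¹) Ψ = Ψ
    conv_lhs => rw [← ha, ← R_mul, ← map_mul, inv_mul_cancel, map_one, R_one]

/-- Membership in the stabiliser at a place. -/
lemma mem_stab {v : Place F} {Ψ : Fn F} {h : GL (Fin 2) F} : h ∈ stab v Ψ ↔ R (sgl v h) Ψ = Ψ :=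
  Iff.rfl

/-- A stabilising matrix does not change the values. -/
lemma stab_apply {v : Place F} {Ψ : Fn F} {h : GL (Fin 2) F} (hh : h ∈ stab v Ψ)
    (g : GA F) (x : AX F) : Ψ (g * sgl v h) x = Ψ g x := congrFun (congrFun hh g) x

/-- A matrix whose conjugate by `k` fixes `Ψ` fixes the translate by `k`. -/
lemma mem_stab_R {v : Place F} {Ψ : Fn F} {k : GA F} {h : GL (Fin 2) F}
    (hh : (k.1 v)⁻¹ * h * k.1 v ∈ stab v Ψ) : h ∈ stab v (R k Ψ) := by
  rw [mem_stab, ← R_mul, sgl_conj, R_mul, mem_stab.1 hh]

/-- A translation away from `v` keeps the stabiliser at `v`. -/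
lemma stab_le_R {v : Place F} {Ψ : Fn F} {k : GA F} (hk : k.1 v = 1) :
    stab v Ψ ≤ stab v (R k Ψ) := fun h hh => mem_stab_R (by simpa [hk] using hh)

/-- A matrix fixing the summands fixes the sum. -/
lemma mem_stab_sum {ι : Type*} (s : Finset ι) {v : Place F} {f : ι → Fn F} {h : GL (Fin 2) F}
    (hh : ∀ i ∈ s, h ∈ stab v (f i)) : h ∈ stab v (∑ i ∈ s, f i) := by
  rw [mem_stab, map_sum]
  exact Finset.sum_congr rfl hh

/-- A matrix fixing a function fixes its multiples. -/
lemma mem_stab_smul {v : Place F} {Ψ : Fn F} {h : GL (Fin 2) F} (c : ℂ) (hh : h ∈ stab v Ψ) :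
    h ∈ stab v (c • Ψ) := by rw [mem_stab, map_smul, mem_stab.1 hh]

/-- A matrix fixing two functions fixes their difference. -/
lemma mem_stab_sub {v : Place F} {Ψ Φ : Fn F} {h : GL (Fin 2) F} (h1 : h ∈ stab v Ψ)
    (h2 : h ∈ stab v Φ) : h ∈ stab v (Ψ - Φ) := by
  rw [mem_stab, map_sub, mem_stab.1 h1, mem_stab.1 h2]

/-- `Ψ` has level `S`: right translation by the level fixes it. -/
def IsLevel (S : Lev F) (Ψ : Fn F) : Prop :=
  ∀ (g k : GA F) (x : AX F), (∀ v, k.1 v ∈ lev S v) → Ψ (g * k) x = Ψ g x

/-- A deeper level is still a level. -/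
lemma IsLevel.mono {S S' : Lev F} {Ψ : Fn F} (h : IsLevel S Ψ) (hS : ∀ v, S.depth v ≤ S'.depth v) :
    IsLevel S' Ψ := fun g k x hk => h g k x fun v => lev_anti (hS v) (hk v)

/-- The level of a smooth function fixes it on the right. -/
lemma IsLevel.lev_le_stab {S : Lev F} {Ψ : Fn F} (h : IsLevel S Ψ) (v : Place F) :
    lev S v ≤ stab v Ψ := fun k hk => by
  funext g x
  refine h g (sgl v k) x fun u => ?_
  by_cases hu : u = v
  · subst hu; simpa using hk
  · rw [sgl_ne hu]; exact (lev S u).one_mem

/-- Restriction of a family to a finite set. -/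
noncomputable def tgl (T : Finset (Place F)) (f : Place F → GL (Fin 2) F) : GA F :=
  ⟨fun v => if v ∈ T then f v else 1, by
    filter_upwards [T.finite_toSet.compl_mem_cofinite] with v hv
    rw [if_neg (by simpa using hv)]
    exact (U0 _).one_mem⟩

/-- The components of a family supported on a finite set. -/
@[simp] lemma tgl_apply (T : Finset (Place F)) (f : Place F → GL (Fin 2) F) (v : Place F) :
    (tgl T f).1 v = if v ∈ T then f v else 1 := rfl

/-- Adding a place multiplies by the family at that place. -/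
lemma tgl_insert {T : Finset (Place F)} {u : Place F} (hu : u ∉ T) (f : Place F → GL (Fin 2) F) :
    tgl (insert u T) f = tgl T f * sgl u (f u) := by
  refine GA.ext' fun v => ?_
  by_cases hv : v = u
  · subst hv; simp [hu]
  · simp [sgl_ne hv, hv]

/-- The family supported nowhere is the identity. -/
lemma tgl_empty (f : Place F → GL (Fin 2) F) : tgl (∅ : Finset (Place F)) f = 1 :=
  GA.ext' fun v => by simp

/-- **Invariance place by place.** A function with a level is unchanged by right translation by an
adele fixing it at every place. -/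
theorem IsLevel.mul_eq {S : Lev F} {Ψ : Fn F} (h : IsLevel S Ψ) (g : GA F) {k : GA F} (x : AX F)
    (hk : ∀ v, k.1 v ∈ stab v Ψ) : Ψ (g * k) x = Ψ g x := by
  set B := (eventually_cofinite.1 k.2).toFinset ∪ S.places with hB
  set k' := (tgl B k.1)⁻¹ * k with hk'
  have hrest : ∀ v, k'.1 v ∈ lev S v := fun v => by
    by_cases hv : v ∈ B
    · simp [hk', hv, (lev S v).one_mem]
    · simp only [hB, Finset.mem_union, not_or, Set.Finite.mem_toFinset, Set.mem_ofPred_eq, not_not,
        Lev.mem_places] at hv
      rw [lev_of_not_mem hv.2]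
      simp [hk', hB, hv.1, hv.2]
  rw [show k = tgl B k.1 * k' by rw [hk', mul_inv_cancel_left], ← mul_assoc, h _ _ _ hrest]
  clear_value B
  clear hrest hk' k' hB
  induction B using Finset.induction_on generalizing g with
  | empty => rw [tgl_empty, mul_one]
  | insert u T hu ih => rw [tgl_insert hu, ← mul_assoc, stab_apply (hk u), ih]

/-- A function of level `S` fixed by the groups of `S'` at every place has level `S'`. -/
lemma IsLevel.of_stab {S S' : Lev F} {Ψ : Fn F} (h : IsLevel S Ψ)
    (hs : ∀ v, lev S' v ≤ stab v Ψ) :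
    IsLevel S' Ψ := fun g _ x hk => h.mul_eq g x fun v => hs v (hk v)

/-! ### points of a level -/

/-- The point of the coset space at level `S` of an adele. -/
noncomputable def toPt (S : Lev F) (g : GA F) : FinPt F S :=
  ⟨fun v => (g.1 v : Vert S v), by
    filter_upwards [g.2, S.eventually_notMem] with v hg hv
    rw [QuotientGroup.eq, lev_of_not_mem hv, mul_one]
    exact (U0 _).inv_mem hg⟩

/-- Two families give the same point exactly when they agree modulo the level. -/
lemma toPt_eq_iff {S : Lev F} {g h : GA F} :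
    toPt S g = toPt S h ↔ ∀ v, (g.1 v)⁻¹ * h.1 v ∈ lev S v := by
  constructor
  · intro e v
    exact QuotientGroup.eq.1 (congrFun (congrArg Subtype.val e) v)
  · intro H
    exact Subtype.ext (funext fun v => QuotientGroup.eq.2 (H v))

/-- The chosen representative adele of a finite point. -/
noncomputable def sec {S : Lev F} (ω : FinPt F S) : GA F :=
  ⟨fun v => (ω.1 v).out, by
    filter_upwards [ω.2, S.eventually_notMem] with v hω hv
    rw [hω]
    obtain ⟨k, hk⟩ := QuotientGroup.mk_out_eq_mul (lev S v) (1 : GL (Fin 2) F)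
    rw [hk, one_mul, ← lev_of_not_mem hv]
    exact k.2⟩

/-- The chosen representative maps back to its point. -/
@[simp] lemma toPt_sec {S : Lev F} (ω : FinPt F S) : toPt S (sec ω) = ω :=
  Subtype.ext (funext fun v => QuotientGroup.out_eq' (ω.1 v))

/-- A function of a given level is determined by its values at the chosen sections. -/
lemma IsLevel.sec_toPt {S : Lev F} {Ψ : Fn F} (h : IsLevel S Ψ) (g : GA F) (x : AX F) :
    Ψ (sec (toPt S g)) x = Ψ g x := by
  have e : ∀ v, ((g⁻¹ * sec (toPt S g)).1 v) ∈ lev S v :=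
    toPt_eq_iff.1 (toPt_sec (toPt S g)).symm
  conv_rhs => rw [← h g _ x e, mul_inv_cancel_left]

/-- Points are equivariant for rational matrices. -/
lemma toPt_dgl_mul (S : Lev F) (γ : GL (Fin 2) F) (g : GA F) :
    toPt S (dgl γ * g) = γ • toPt S g := Subtype.ext (funext fun _ => rfl)

/-- Pull back from points. -/
noncomputable def pull {S : Lev F} (Φ : Pt F S → ℂ) : Fn F := fun g x => Φ (toPt S g, x)

/-- Push down to points. -/
noncomputable def desc (S : Lev F) (Ψ : Fn F) : Pt F S → ℂ := fun p => Ψ (sec p.1) p.2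

/-- Descending a pulled back function gives it back. -/
@[simp] lemma desc_pull {S : Lev F} (Φ : Pt F S → ℂ) : desc S (pull Φ) = Φ := by
  funext p; simp [desc, pull]

/-- A function pulled back from points has that level. -/
lemma isLevel_pull {S : Lev F} (Φ : Pt F S → ℂ) : IsLevel S (pull Φ) := fun g k x hk => by
  change Φ (toPt S (g * k), x) = Φ (toPt S g, x)
  rw [show toPt S (g * k) = toPt S g from toPt_eq_iff.2 fun v => by
    rw [GA.mul_apply, mul_inv_rev, mul_assoc, inv_mul_cancel, mul_one]
    exact (lev S v).inv_mem (hk v)]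

/-- Replacing a component sets the component of the point. -/
lemma toPt_upd (S : Lev F) (g : GA F) (v : Place F) (h : GL (Fin 2) F) :
    toPt S (upd g v h) = (toPt S g).set v (h : Vert S v) := by
  refine Subtype.ext (funext fun u => ?_)
  by_cases hu : u = v
  · subst hu
    rw [FinPt.set_self]
    change ((upd g u h).1 u : Vert S u) = _
    rw [upd_same]
  · rw [FinPt.set_of_ne _ hu]
    change ((upd g v h).1 u : Vert S u) = _
    rw [upd_ne g hu]
    rfl

/-- Multiplying at one place updates that component. -/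
lemma mul_sgl_eq_upd (g : GA F) (v : Place F) (h : GL (Fin 2) F) :
    g * sgl v h = upd g v (g.1 v * h) := by simp [upd]

/-! ### levels -/

/-- A level dominating two. -/
noncomputable def levSup (S S' : Lev F) : Lev F :=
  ⟨fun v => max (S.depth v) (S'.depth v), (S.finite'.union S'.finite').subset fun v hv => by
    by_contra h
    simp only [Set.mem_union, Set.mem_ofPred_eq, not_or, not_not] at h
    exact hv (by rw [h.1, h.2]; rfl)⟩

/-- Conjugates of deep elements at a place are deep. -/
lemma exists_conj_UN (v : Place F) (h : GL (Fin 2) F) (n : ℕ) :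
    ∃ m : ℕ, ∀ k ∈ UN (v.valuation F) m, h⁻¹ * k * h ∈ UN (v.valuation F) n := by
  obtain ⟨m, hm⟩ := exists_entry_bound (v.valuation F) h
  refine ⟨2 * m + n, fun k ⟨c, hc⟩ => ⟨c, ?_⟩⟩
  rw [show scal c * (h⁻¹ * k * h) = h⁻¹ * (scal c * k) * h by
    simp only [← mul_assoc, scal_comm c h⁻¹]]
  exact conj_mem_congN (v.valuation F) hm (fun i j => hc.2 i j)
    fun i j => ((congN _ _).inv_mem hc).2 i j

/-- A level conjugated into another by a family. -/
lemma exists_conj_lev (S : Lev F) (h : GA F) (B : Finset (Place F))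
    (hB : ∀ v ∉ B, h.1 v ∈ U0 (v.valuation F)) :
    ∃ S' : Lev F, (∀ v ∉ B, S'.depth v = S.depth v) ∧ (∀ v, S.depth v ≤ S'.depth v) ∧
      ∀ v, ∀ k ∈ lev S' v, (h.1 v)⁻¹ * k * h.1 v ∈ lev S v := by
  choose m hm using fun v : Place F => exists_conj_UN v (h.1 v) (S.depth v)
  refine ⟨⟨fun v => if v ∈ B then max (m v) (S.depth v) else S.depth v,
    (B.finite_toSet.union S.finite').subset fun v hv => ?_⟩, fun v hv => if_neg hv, fun v => ?_,
    fun v k hk => ?_⟩
  · by_cases h' : v ∈ B
    · exact Or.inl h'
    · exact Or.inr (by simpa [h'] using hv)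
  · change S.depth v ≤ if v ∈ B then max (m v) (S.depth v) else S.depth v
    split_ifs <;> omega
  · by_cases hv : v ∈ B
    · refine hm v k (UN_anti (v.valuation F) ?_ hk)
      simp [hv]
    · refine conj_UN_mem _ (hB v hv) ?_
      simpa [lev, hv] using hk

/-- Right translation conjugates levels. -/
lemma IsLevel.R {S S' : Lev F} {Ψ : Fn F} {h : GA F} (hΨ : IsLevel S Ψ)
    (hh : ∀ v, ∀ k ∈ lev S' v, (h.1 v)⁻¹ * k * h.1 v ∈ lev S v) :
    IsLevel S' (Mult.R h Ψ) := fun g k x hk => by
  change Ψ (g * k * h) x = Ψ (g * h) x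
  rw [show g * k * h = g * h * (h⁻¹ * k * h) by group]
  exact hΨ _ _ x fun v => hh v _ (hk v)

end Fermat.LTG.Mult
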