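import Fermat.Agent.LTG.Mult.Adele
import Fermat.Agent.LT.Mult.Arch

/-!
# Multiplicity: the archimedean coefficient of one function

The argument of the level one theory for a single periodic function of the archimedean variables.
-/

set_option autoImplicit false
open NumberField MeasureTheory Filter
open scoped Classical Real Topology

namespace Fermat.LTG.Mult

open Fermat.LT
open Fermat.LT.Mult

variable {F : Type*} [Field F] [NumberField F]

/-- The restriction to a horosphere. -/
noncomputable def sl (f : AX F → ℂ) (t : InfinitePlace F → ℝ) : (InfinitePlace F → ℂ) → ℂ :=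
  fun z => f (pnt z t)

/-- Eigenfunctions of the spherical operators with parameter zero. -/
def ArchEig (f : AX F → ℂ) : Prop :=
  ∀ (w : InfinitePlace F) (k : ℝ → ℝ), Continuous k → HasCompactSupport k → ∀ x : AX F,
    hIntegral (fun y => (k (coshd (x w) y) : ℂ) * f (Function.update x w y)) = hhat0 k * f x

variable [IsTotallyComplex F]

/-- The coefficient at the character `1`. -/
noncomputable def wh (f : AX F → ℂ) (t : InfinitePlace F → ℝ) :
    ℂ := mean fun z => sl f t z * chi (-z)

/-- Continuous with one period lattice. -/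
structure IsNice (f : AX F → ℂ) : Prop where
  /-- The function is continuous. -/
  continuous : Continuous f
  /-- Some `M ≠ 0` gives periods of every slice at positive heights and of its twist. -/
  period : ∃ M : ℕ, M ≠ 0 ∧ ∀ t : InfinitePlace F → ℝ, Pos t →
    Per M (sl f t) ∧ Per M fun z => sl f t z * chi (-z)

/-- A continuous function with a common period is nice. -/
lemma isNice_of_per {f : AX F → ℂ} (hc : Continuous f) {M : ℕ} (hM : M ≠ 0)
    (hp : ∀ t : InfinitePlace F → ℝ, Pos t → Per M (sl f t)) : IsNice f := by
  refine ⟨hc, M, hM, fun t ht => ⟨hp t ht, (hp t ht).mul fun z l => ?_⟩⟩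
  show chi _ = chi _
  rw [neg_add, chi_add, show (M : F) * (l : F) = (((M : 𝓞 F) * l : 𝓞 F) : F) by push_cast; rfl,
    show chi (-emb (((M : 𝓞 F) * l : 𝓞 F) : F)) = 1 from chiF_int _, mul_one]

omit [IsTotallyComplex F] in
/-- The restriction to a horosphere is periodic. -/
lemma IsNice.isPer_sl {f : AX F → ℂ} (hf : IsNice f) {t : InfinitePlace F → ℝ} (ht : Pos t) :
    IsPer (sl f t) := by
  obtain ⟨M, hM, h⟩ := hf.period
  exact ⟨hf.continuous.comp (continuous_pnt ht), M, hM, (h t ht).1⟩

/-- The integrand of the coefficient at a horosphere is periodic. -/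
lemma IsNice.isPer_wh {f : AX F → ℂ} (hf : IsNice f) {t : InfinitePlace F → ℝ} (ht : Pos t) :
    IsPer fun z => sl f t z * chi (-z) :=
  (hf.isPer_sl ht).mul isPer_chi_neg

omit [IsTotallyComplex F] in
/-- Horosphere restrictions are measurable in all variables. -/
lemma measurable_sl {f : AX F → ℂ} (hf : IsNice f) {α : Type*} [MeasurableSpace α]
    {a : α → InfinitePlace F → ℂ} {b : α → InfinitePlace F → ℝ} (ha : Measurable a)
    (hb : Measurable b) :
    Measurable fun r => sl f (b r) (a r) :=
  hf.continuous.measurable.comp (measurable_pnt ha hb)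

/-- **The integral equation.** The coefficient of a bounded eigenfunction satisfies, in each
archimedean variable, the equation obtained by testing against `exp (-λ cosh d)`. -/
theorem W_gint {f : AX F → ℂ} (hf : IsNice f) {C : ℝ} (hC : ∀ p, ‖f p‖ ≤ C) (ha : ArchEig f)
    (w : InfinitePlace F) {t : InfinitePlace F → ℝ} (ht : Pos t) {lam : ℝ} (hl : 0 < lam) :
    (hExp lam : ℂ) * wh f t
      = ((2 * π * t w / lam : ℝ) : ℂ) * gint lam (t w) fun s => wh f (Function.update t w s) := by
  obtain ⟨M, hM, hper⟩ := hf.period
  exact Wh_gint_gen hf.continuous (fun t ht => hf.isPer_wh ht) hM (fun t ht =>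
    (hper t ht).2) hC ha w ht hl

/-- The coefficient factors off its dependence on one height. -/
theorem W_update {f : AX F → ℂ} (hf : IsNice f) {C : ℝ} (hC : ∀ p, ‖f p‖ ≤ C) (ha : ArchEig f)
    (w : InfinitePlace F) {t : InfinitePlace F → ℝ} (ht : Pos t) :
    wh f t = rho (t w) * wh f (Function.update t w 1) :=
  eq_rho_mul_of_gint w (fun ht _ hl => W_gint hf hC ha w ht hl) ht

/-- **`W(t)` is a fixed multiple of `W(1)`.** -/
theorem wh_eq_rho_mul {f : AX F → ℂ} (hf : IsNice f) {C : ℝ} (hC : ∀ p, ‖f p‖ ≤ C)
    (ha : ArchEig f) {t : InfinitePlace F → ℝ} (ht : Pos t) :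
    wh f t = (∏ w, rho (t w)) * wh f fun _ => 1 := by
  suffices h : ∀ P : Finset (InfinitePlace F),
      wh f t = (∏ w ∈ P, rho (t w)) * wh f (fun w => if w ∈ P then 1 else t w) by
    simpa using h Finset.univ
  intro P
  induction P using Finset.induction_on with
  | empty => simp
  | insert u P hu ih =>
    have hp : Pos fun w => if w ∈ P then (1 : ℝ) else t w := fun w => by
      change (0 : ℝ) < if w ∈ P then 1 else t w
      split
      · exact one_pos
      · exact ht w
    rw [ih, W_update hf hC ha u hp, Finset.prod_insert hu]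
    have e : Function.update (fun w => if w ∈ P then (1 : ℝ) else t w) u 1
        = fun w => if w ∈ insert u P then (1 : ℝ) else t w := by
      funext w
      rcases eq_or_ne w u with rfl | hw
      · simp
      · simp [hw]
    rw [e]
    simp only [hu, if_false]
    ring

end Fermat.LTG.Mult
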