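import Fermat.Agent.LTG.Mult.Coef
import Fermat.Agent.LTG.SphKer

/-!
# Multiplicity: eigenfunctions on the restricted product and on points

`IsAut` is the notion on the restricted product; `isAut_pull` and `IsAut.isEigFn` pass from points
and back.
-/

set_option autoImplicit false
set_option linter.unusedSectionVars false
open NumberField MeasureTheory Filter
open scoped Classical

namespace Fermat.LTG.Mult

open Fermat.LT
open Fermat.LT.Mult (mean Pos)

variable {F : Type*} [Field F] [NumberField F]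

/-- The Hecke operator at a place. -/
noncomputable def Tv (v : Place F) : Fn F →ₗ[ℂ] Fn F :=
  (∑ r ∈ breps v (-1) 1, R (sgl v (upMat (unif v) r))) + R (sgl v (tor (unif v)⁻¹))

/-- The Hecke operator as a sum of translations. -/
lemma Tv_eq (v : Place F) (Ψ : Fn F) :
    Tv v Ψ = (∑ r ∈ breps v (-1) 1, R (sgl v (upMat (unif v) r)) Ψ) +
      R (sgl v (tor (unif v)⁻¹)) Ψ := by
  simp [Tv, LinearMap.sum_apply]

/-- The Hecke operator, written out. -/
lemma Tv_apply (v : Place F) (Ψ : Fn F) (g : GA F) (x : AX F) :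
    Tv v Ψ g x = (∑ r ∈ breps v (-1) 1, Ψ (g * sgl v (upMat (unif v) r)) x)
      + Ψ (g * sgl v (tor (unif v)⁻¹)) x := by
  simp [Tv_eq, Finset.sum_apply]

/-- The Hecke operator commutes with translations away from its place. -/
lemma Tv_R {v : Place F} {h : GA F} (hh : h.1 v = 1) (Ψ : Fn F) : Tv v (R h Ψ) = R h (Tv v Ψ) := by
  simp only [Tv_eq, map_add, map_sum, ← R_mul, commute_sgl hh]

/-- Sums of bounded archimedean eigenfunctions are eigenfunctions. -/
lemma ArchEig.add {f f' : AX F → ℂ} (hc : Continuous f) (hc' : Continuous f') {C C' : ℝ}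
    (hC : ∀ x, ‖f x‖ ≤ C) (hC' : ∀ x, ‖f' x‖ ≤ C') (h : ArchEig f) (h' : ArchEig f') :
    ArchEig (f + f') := by
  intro w k hk hs x
  set K := AKer.ofRadial k hk hs with hK
  have hint : ∀ (φ : AX F → ℂ) (C : ℝ), Continuous φ → (∀ x, ‖φ x‖ ≤ C) →
      Integrable (fun y => (k (coshd (x w) y) : ℂ) * φ (Function.update x w y)) hmeas ∧
        hIntegral (fun y => (k (coshd (x w) y) : ℂ) * φ (Function.update x w y))
          = ∫ y, (k (coshd (x w) y) : ℂ) * φ (Function.update x w y) ∂hmeas := by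
    intro φ C hφ hb
    have hm : AEStronglyMeasurable (fun y => φ (Function.update x w y)) hmeas :=
      (hφ.comp (continuous_const.update w continuous_id)).aestronglyMeasurable
    exact ⟨(K.integrable (x w)).mul_bdd hm (Eventually.of_forall fun y => hb _),
      hIntegral_eq_integral ((K.continuous_right (x w)).aestronglyMeasurable.mul hm)⟩
  obtain ⟨i1, e1⟩ := hint f C hc hC
  obtain ⟨i2, e2⟩ := hint f' C' hc' hC'
  obtain ⟨-, e3⟩ := hint (f + f') (C + C') (hc.add hc') fun x =>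
    (norm_add_le _ _).trans (add_le_add (hC x) (hC' x))
  have h1 := h w k hk hs x
  have h2 := h' w k hk hs x
  rw [e1] at h1
  rw [e2] at h2
  rw [e3, Pi.add_apply, mul_add, ← h1, ← h2, ← integral_add i1 i2]
  exact integral_congr_ae (Eventually.of_forall fun y => mul_add _ _ _)

/-- Multiples of archimedean eigenfunctions are eigenfunctions. -/
lemma ArchEig.smul {f : AX F → ℂ} (c : ℂ) (h : ArchEig f) : ArchEig (c • f) := by
  intro w k hk hs x
  have h1 := h w k hk hs x
  simp only [hIntegral, Pi.smul_apply, smul_eq_mul] at h1 ⊢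
  calc _ = ∫ p in (Set.univ : Set ℂ) ×ˢ Set.Ioi (0 : ℝ), c * (((p.2 ^ 3)⁻¹ : ℝ) •
        ((k (coshd (x w) (H3.mk p.1 p.2)) : ℂ) * f (Function.update x w (H3.mk p.1 p.2)))) :=
        integral_congr_ae (Eventually.of_forall fun p => by simp only [Complex.real_smul]; ring)
    _ = c * _ := integral_const_mul c _
    _ = _ := by rw [h1]; ring

variable [IsTotallyComplex F]

/-- An eigenfunction, exceptional only at `T`. -/
structure IsAut (T : Finset (Place F)) (lam : Place F → ℝ) (Ψ : Fn F) : Prop where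
  /-- The function is invariant, continuous at infinity and smooth. -/
  bas : IsBas Ψ
  /-- The function has a level supported in `T`. -/
  level : ∃ S : Lev F, (∀ v ∉ T, v ∉ S) ∧ IsLevel S Ψ
  /-- The function is bounded. -/
  bounded : ∃ C : ℝ, ∀ g x, ‖Ψ g x‖ ≤ C
  /-- The function is an archimedean eigenfunction of parameter zero. -/
  arch : ∀ g, ArchEig (Ψ g)
  /-- The constant terms vanish. -/
  cuspidal : ∀ g (t : InfinitePlace F → ℝ), Pos t → mean (sl (Ψ g) t) = 0
  /-- Outside `T` the Hecke operator at `v` acts by `lam v`. -/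
  hecke : ∀ v ∉ T, Tv v Ψ = (lam v : ℂ) • Ψ

variable {T : Finset (Place F)} {lam : Place F → ℝ} {Ψ Φ : Fn F}

/-- Zero is an automorphic eigenfunction. -/
lemma IsAut.zero : IsAut T lam (0 : Fn F) := by
  refine ⟨IsBas.zero, ⟨Lev.base, fun v _ => Lev.notMem_iff.2 rfl, fun _ _ _ _ => rfl⟩,
    ⟨0, fun _ _ => by simp⟩, fun g w k _ _ x => by simp [hIntegral], fun g t _ => ?_,
    fun v _ => by simp⟩
  exact Fermat.LT.Mult.mean_zero

/-- An eigenfunction outside `T` is one outside a larger set. -/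
lemma IsAut.mono {T' : Finset (Place F)} (h : IsAut T lam Ψ) (hT : T ⊆ T') : IsAut T' lam Ψ := by
  obtain ⟨S, hS, hS'⟩ := h.level
  exact ⟨h.bas, ⟨S, fun v hv => hS v fun e => hv (hT e), hS'⟩, h.bounded, h.arch, h.cuspidal,
    fun v hv => h.hecke v fun e => hv (hT e)⟩

/-- Sums of automorphic eigenfunctions are eigenfunctions. -/
lemma IsAut.add (h : IsAut T lam Ψ) (h' : IsAut T lam Φ) : IsAut T lam (Ψ + Φ) := by
  obtain ⟨S, hS, hS1⟩ := h.level
  obtain ⟨S', hS', hS1'⟩ := h'.level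
  obtain ⟨C, hC⟩ := h.bounded
  obtain ⟨C', hC'⟩ := h'.bounded
  refine ⟨h.bas.add h'.bas, ⟨levSup S S', fun v hv => ?_, fun g k x hk => ?_⟩,
    ⟨C + C', fun g x => (norm_add_le _ _).trans (add_le_add (hC g x) (hC' g x))⟩,
    fun g => ArchEig.add (h.bas.continuous g) (h'.bas.continuous g) (hC g) (hC' g)
      (h.arch g) (h'.arch g),
    fun g t ht => ?_, fun v hv => by rw [map_add, h.hecke v hv, h'.hecke v hv, smul_add]⟩
  · have e := Lev.notMem_iff.1 (hS v hv)
    have e' := Lev.notMem_iff.1 (hS' v hv)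
    rw [Lev.notMem_iff]
    change max _ _ = 0
    omega
  · change Ψ _ _ + Φ _ _ = Ψ g x + Φ g x
    rw [hS1.mono (fun v => le_max_left _ _) g k x hk,
      hS1'.mono (fun v => le_max_right _ _) g k x hk]
  · rw [show sl ((Ψ + Φ) g) t = fun z => sl (Ψ g) t z + sl (Φ g) t z from rfl,
      Fermat.LT.Mult.mean_add ((h.bas.isNice g).isPer_sl ht) ((h'.bas.isNice g).isPer_sl ht),
      h.cuspidal g t ht, h'.cuspidal g t ht, add_zero]

/-- Multiples of automorphic eigenfunctions are eigenfunctions. -/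
lemma IsAut.smul (c : ℂ) (h : IsAut T lam Ψ) : IsAut T lam (c • Ψ) := by
  obtain ⟨S, hS, hS1⟩ := h.level
  obtain ⟨C, hC⟩ := h.bounded
  refine ⟨h.bas.smul c, ⟨S, hS, fun g k x hk => by simp [hS1 g k x hk]⟩, ⟨‖c‖ * C, fun g x => ?_⟩,
    fun g => (h.arch g).smul c, fun g t ht => ?_, fun v hv => by
      rw [map_smul, h.hecke v hv, smul_comm]⟩
  · simp only [Pi.smul_apply, smul_eq_mul, norm_mul]
    exact mul_le_mul_of_nonneg_left (hC g x) (norm_nonneg _)
  · rw [show sl ((c • Ψ) g) t = fun z => c * sl (Ψ g) t z from rfl,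
      Fermat.LT.Mult.mean_const_mul c ((h.bas.isNice g).isPer_sl ht), h.cuspidal g t ht, mul_zero]

/-- The space of eigenfunctions. -/
def aut (T : Finset (Place F)) (lam : Place F → ℝ) : Submodule ℂ (Fn F) where
  carrier := {Ψ | IsAut T lam Ψ}
  add_mem' := IsAut.add
  zero_mem' := IsAut.zero
  smul_mem' c _ h := IsAut.smul c h

/-- The difference of two eigenfunctions is one. -/
lemma IsAut.sub (h : IsAut T lam Ψ) (h' : IsAut T lam Φ) : IsAut T lam (Ψ - Φ) :=
  (aut T lam).sub_mem h h'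

/-- A sum of eigenfunctions is one. -/
lemma IsAut.sum {ι : Type*} (s : Finset ι) {f : ι → Fn F} (h : ∀ i ∈ s, IsAut T lam (f i)) :
    IsAut T lam (∑ i ∈ s, f i) := (aut T lam).sum_mem h

/-- Translations at exceptional places. -/
lemma IsAut.R (h : IsAut T lam Ψ) {k : GA F} (hk : ∀ v ∉ T, k.1 v = 1) : IsAut T lam (R k Ψ) := by
  obtain ⟨S, hS, hS1⟩ := h.level
  obtain ⟨C, hC⟩ := h.bounded
  obtain ⟨S', hS', -, hS''⟩ := exists_conj_lev S k T fun v hv => by
    rw [hk v hv]; exact (U0 _).one_mem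
  refine ⟨h.bas.R k, ⟨S', fun v hv => ?_, hS1.R hS''⟩, ⟨C, fun g x => hC _ x⟩, fun g => h.arch _,
    fun g t ht => h.cuspidal _ t ht, fun v hv => by rw [Tv_R (hk v hv), h.hecke v hv, map_smul]⟩
  rw [Lev.notMem_iff, hS' v hv]
  exact Lev.notMem_iff.1 (hS v hv)

/-- A translate at a place of `T` of an eigenfunction is one. -/
lemma IsAut.R_sgl (h : IsAut T lam Ψ) {v : Place F} (hv : v ∈ T) (k : GL (Fin 2) F) :
    IsAut T lam (Mult.R (sgl v k) Ψ) :=
  h.R fun _ hu => sgl_ne (fun e => hu (by rw [e]; exact hv)) k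

/-- Off the exceptional set an eigenfunction is fixed by `U0`. -/
lemma IsAut.U0_le_stab (h : IsAut T lam Ψ) {v : Place F} (hv : v ∉ T) :
    U0 (v.valuation F) ≤ stab v Ψ := by
  obtain ⟨S, hS, hS1⟩ := h.level
  rw [← lev_of_not_mem (hS v hv)]
  exact hS1.lev_le_stab v

/-- An eigenfunction has a level trivial outside `T`. -/
lemma IsAut.exists_level (h : IsAut T lam Ψ) : ∃ S : Lev F, (∀ v ∉ T, v ∉ S) ∧ IsLevel S Ψ ∧
    ∀ v, UN (v.valuation F) (S.depth v) ≤ stab v Ψ := by
  obtain ⟨S, hS, hS1⟩ := h.level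
  exact ⟨S, hS, hS1, hS1.lev_le_stab⟩

/-! ### points -/

/-- Outside the level the Hecke operator on points is `Tv`. -/
lemma heckeT_desc {S : Lev F} {v : Place F} (hv : v ∉ S) {Ψ : Fn F} (hΨ : IsLevel S Ψ) (g : GA F)
    (x : AX F) : heckeT v (desc S Ψ) (toPt S g, x) = Tv v Ψ g x := by
  set ω := toPt S g with hω
  have hx : ω.1 v = (g.1 v : Vert S v) := rfl
  set y : GL (Fin 2) F → Vert S v := fun h => ((g.1 v * h : GL (Fin 2) F) : Vert S v) with hy
  have hval : ∀ h, desc S Ψ (ω.set v (y h), x) = Ψ (g * sgl v h) x := fun h => by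
    rw [desc, hy, hω, ← toPt_upd, hΨ.sec_toPt, mul_sgl_eq_upd]
  have hπ := val_unif v
  have hstep : ∀ h : GL (Fin 2) F, IsStep (v.valuation F) h → Adj v (ω.1 v) (y h) := fun h hh =>
    ⟨g.1 v, g.1 v * h, hx, rfl, by rwa [inv_mul_cancel_left]⟩
  have h1 : ∀ r ∈ breps v (-1) 1, IsStep (v.valuation F) (upMat (unif v) r) := fun r hr => by
    refine ⟨1, fun i j => ?_, by simp [scal, Matrix.det_fin_two_of, hπ]⟩
    have := breps_le v hr
    fin_cases i <;> fin_cases j <;> simp [scal, hπ, ← WithZero.exp_zero, -WithZero.exp_neg]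
    · simpa using this
  have h2 : IsStep (v.valuation F) (tor (unif v)⁻¹) := by
    refine ⟨unif v, fun i j => ?_, ?_⟩
    · rw [scal_mul_tor_inv]
      fin_cases i <;> fin_cases j <;> simp [hπ, -WithZero.exp_neg]
      rw [← WithZero.exp_zero, WithZero.exp_le_exp]; omega
    · rw [scal_mul_tor_inv, Matrix.det_fin_two_of]
      simp [hπ]
  -- the translates are distinct
  have hinj : Set.InjOn (fun r => y (upMat (unif v) r)) (breps v (-1) 1 : Set F) := by
    intro r hr r' hr' e
    simp only [hy, QuotientGroup.eq, mul_inv_rev, mul_assoc, inv_mul_cancel_left, lev_of_not_mem hv,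
      upMat_inv, upMat_mul, inv_mul_cancel] at e
    have h := (of_upMat_mem_U0 v e).2
    rw [neg_mul, ← sub_eq_add_neg, ← mul_sub, map_mul, Units.val_inv_eq_inv_val, map_inv₀, hπ] at h
    obtain ⟨r₀, -, hu⟩ := breps_unique v (-1) 1 (breps_le v hr)
    have hd : v.valuation F (r' - r) ≤ WithZero.exp (-1 : ℤ) := by
      rwa [inv_mul_le_iff₀ (zero_lt_iff.2 WithZero.exp_ne_zero), mul_one] at h
    rw [hu r ⟨hr, by simp⟩, hu r' ⟨hr', by rw [Valuation.map_sub_swap]; exact hd⟩]
  have hne : y (tor (unif v)⁻¹) ∉ (breps v (-1) 1).image fun r => y (upMat (unif v) r) := by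
    intro h
    obtain ⟨r, -, e⟩ := Finset.mem_image.1 h
    simp only [hy, QuotientGroup.eq, mul_inv_rev, mul_assoc, inv_mul_cancel_left, lev_of_not_mem hv,
      upMat_inv, upMat_mul, tor_apply] at e
    have h := (of_upMat_mem_U0 v e).1
    simp [hπ] at h
    rw [← WithZero.exp_add, ← WithZero.exp_zero, WithZero.exp_inj] at h
    omega
  set s := insert (y (tor (unif v)⁻¹)) ((breps v (-1) 1).image fun r =>
    y (upMat (unif v) r)) with hs
  -- they are all the neighbours
  have hset : {z : Vert S v | Adj v (ω.1 v) z} = (s : Set (Vert S v)) := by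
    obtain ⟨Tr, hTr⟩ := exists_vtree hv
    have hA : {z : Vert S v | Adj v (ω.1 v) z} = {z | Tr.dist (ω.1 v) z = 1} := by
      ext z
      rw [hTr]
      constructor
      · rintro ⟨a, b, ha, hb, hs⟩
        change vd _ _ = 1
        rw [ha, hb, vd_mk]; exact (isStep_iff_lvl _ _).1 hs
      · intro h
        exact ⟨(ω.1 v).out, z.out, (QuotientGroup.out_eq' _).symm, (QuotientGroup.out_eq' _).symm,
          (isStep_iff_lvl _ _).2 h⟩
    have hfin : {z : Vert S v | Adj v (ω.1 v) z}.Finite := hA ▸ Tr.nbr_finite _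
    refine (Set.eq_of_subset_of_ncard_le (fun z hz => ?_) (le_of_eq ?_) hfin).symm
    · rcases Finset.mem_insert.1 (Finset.mem_coe.1 hz) with rfl | h
      · exact hstep _ h2
      · obtain ⟨r, hr, rfl⟩ := Finset.mem_image.1 h
        exact hstep _ (h1 r hr)
    · rw [hA, Tr.nbr_card, Set.ncard_coe_finset, hs, Finset.card_insert_of_notMem hne,
        Finset.card_image_of_injOn hinj, card_breps, pow_one]
  rw [heckeT]
  change ∑ᶠ z ∈ {z : Vert S v | Adj v (ω.1 v) z}, desc S Ψ (ω.set v z, x) = _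
  rw [hset, finsum_mem_coe_finset, hs, Finset.sum_insert hne, Finset.sum_image hinj, Tv_apply, hval,
    add_comm]
  exact congrArg (· + _) (Finset.sum_congr rfl fun r _ => hval _)

/-- Multiplying at one place changes that coordinate of the point. -/
lemma toPt_mul_sgl (S : Lev F) (g : GA F) (v : Place F) (h : GL (Fin 2) F) :
    toPt S (g * sgl v h) = (toPt S g).set v ((g.1 v * h : GL (Fin 2) F) : Vert S v) := by
  rw [mul_sgl_eq_upd, toPt_upd]

/-- An eigenfunction on points, pulled back. -/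
theorem isAut_pull {S : Lev F} {Z : Set (Place F)} {lam : Place F → ℝ} {Φ : Pt F S → ℂ}
    (hΦ : IsEigFn S Z lam Φ) (hT : ∀ v ∉ T, v ∉ S ∧ v ∉ Z) : IsAut T lam (pull Φ) := by
  obtain ⟨C, hC⟩ := hΦ.bounded
  refine ⟨⟨fun γ g x => ?_, fun g => hΦ.continuous _, S, isLevel_pull Φ⟩,
    ⟨S, fun v hv => (hT v hv).1, isLevel_pull Φ⟩, ⟨C, fun g x => hC _⟩,
    fun g w k hk hs x => hΦ.arch w k hk hs (toPt S g, x), fun g t ht => hΦ.cuspidal (toPt S g) t ht,
    fun v hv => ?_⟩
  · change Φ (toPt S (dgl γ * g), act γ x) = Φ (toPt S g, x)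
    rw [toPt_dgl_mul]
    exact isInvariant_iff.1 hΦ.invariant γ (toPt S g, x)
  · funext g x
    rw [← heckeT_desc (hT v hv).1 (isLevel_pull Φ) g x, desc_pull,
      hΦ.hecke v (hT v hv).1 (hT v hv).2]
    rfl

/-- An eigenfunction pushed down to points. -/
theorem IsAut.isEigFn (h : IsAut T lam Ψ) {S : Lev F} (hS : IsLevel S Ψ) {Z : Set (Place F)}
    (hT : ∀ v ∉ S, v ∉ Z → v ∉ T) : IsEigFn S Z lam (desc S Ψ) := by
  obtain ⟨C, hC⟩ := h.bounded
  refine ⟨isInvariant_iff.2 fun γ p => ?_, fun ω => h.bas.continuous (sec ω), ⟨C, fun p => hC _ _⟩,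
    fun w k hk hs p => h.arch (sec p.1) w k hk hs p.2, fun ω t ht => h.cuspidal (sec ω) t ht,
      fun v hv hv' p => ?_⟩
  · change Ψ (sec (γ • p.1)) (act γ p.2) = Ψ (sec p.1) p.2
    conv_lhs => rw [← toPt_sec p.1, ← toPt_dgl_mul, hS.sec_toPt, h.bas.invariant]
  · conv_lhs => rw [show p = (toPt S (sec p.1), p.2) by rw [toPt_sec]]
    rw [heckeT_desc hv hS, h.hecke v (hT v hv hv')]
    rfl

end Fermat.LTG.Mult
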