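import Fermat.Agent.LTG.Mult.Joint

/-!
# Multiplicity: the eigenfunctions of a level

`bvec_basis`: the functions `bvec φ j`, `j` in the box, are a basis of the eigenfunctions of a
level.
-/

set_option autoImplicit false
open NumberField Filter
open scoped Classical

namespace Fermat.LTG.Mult

open Fermat.LT

variable {F : Type*} [Field F] [NumberField F] [IsTotallyComplex F]

/-- The torus family with given valuations. -/
noncomputable def shiftPt (s : Place F → ℤ) : GA F := (stdPt fun _ => 0)⁻¹ * stdPt s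

/-- The components of a shift. -/
lemma shiftPt_apply {s : Place F → ℤ} (hs : Adm s) (v : Place F) :
    (shiftPt s).1 v = tor (unif v ^ s v) := by
  rw [shiftPt, GA.mul_apply, GA.inv_apply, stdPt_apply hs, stdPt_apply adm_zero, zpow_zero, mul_one,
    ← map_inv, ← map_mul, inv_mul_cancel_left]

/-- A shift adds to the shells of a standard point. -/
lemma stdPt_mul_shiftPt {r s : Place F → ℤ} (hr : Adm r) (hs : Adm s) :
    stdPt r * shiftPt s = stdPt (r + s) := by
  have h : Adm (r + s) := by
    filter_upwards [hr, hs] with v h1 h2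
    simp [h1, h2]
  refine GA.ext' fun v => ?_
  rw [GA.mul_apply, stdPt_apply hr, shiftPt_apply hs, stdPt_apply h, ← map_mul,
    mul_assoc, ← zpow_add]
  rfl

/-- Exponents with `j v ≤ N v - n v` at every place. -/
abbrev Box (n N : Place F → ℕ) : Type _ := {j : Place F → ℕ // ∀ v, j v ≤ N v - n v}

omit [NumberField F] [IsTotallyComplex F] in
/-- The shells in a box form a finite set. -/
lemma finite_box {n N : Place F → ℕ} (hN : {v | N v ≠ 0}.Finite) : Finite (Box n N) := by
  have : Finite {v : Place F // N v ≠ 0} := hN.to_subtype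
  refine Finite.of_injective (fun (j : Box n N) (v : {v : Place F // N v ≠ 0}) =>
    (⟨j.1 v.1, Nat.lt_succ_of_le ((j.2 v.1).trans (Nat.sub_le _ _))⟩ : Fin (N v.1 + 1)))
      fun i j e => ?_
  refine Subtype.ext (funext fun v => ?_)
  by_cases hv : N v = 0
  · have hi := i.2 v
    have hj := j.2 v
    omega
  · exact congrArg Fin.val (congrFun e ⟨v, hv⟩)

omit [NumberField F] [IsTotallyComplex F] in
/-- The exponents of a shell in a box are admissible. -/
lemma adm_of_box {n N : Place F → ℕ} (hN : {v | N v ≠ 0}.Finite) (j : Box n N) :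
    Adm fun v => (j.1 v : ℤ) := by
  filter_upwards [hN.compl_mem_cofinite] with v hv
  have h := j.2 v
  have h' : N v = 0 := by simpa using hv
  omega

/-- The right translate of `φ` by the shift with exponents `-j`. -/
noncomputable def bvec (φ : Fn F) (j : Place F → ℕ) : Fn F := R (shiftPt fun v => -(j v : ℤ)) φ

variable {T : Finset (Place F)} {lam : Place F → ℝ} {φ Ψ : Fn F}

/-- **Vanishing at the box.** An eigenfunction of level `N` on `T` whose coefficients vanish at the
standard points with shells up to `N - nlev` is zero. -/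
theorem eq_zero_of_stdPt (h : IsAut T lam Ψ) (N : Place F → ℕ)
    (hU : ∀ v ∈ T, U0N (v.valuation F) (N v) ≤ stab v Ψ)
    (hW : ∀ s : Place F → ℕ, (∀ v ∉ T, s v = 0) → (∀ v ∈ T, (s v : ℤ) ≤ (N v : ℤ) - nlev lam v) →
      W0 Ψ (stdPt fun v => (s v : ℤ)) = 0) : Ψ = 0 := by
  refine box_eq_zero (nlev lam) (fun T' Φ m v => nlev_min T' Φ m v) T subset_rfl N Ψ h hU
    fun g hg hbox => ?_
  choose a ha using hg.1
  by_cases hneg : ∃ v, ∃ hv : v ∈ T, sh v (a v hv) < 0
  · obtain ⟨v, hv, hlt⟩ := hneg
    exact W0_eq_zero_of_nball h.bas ((nball_zero_le_U0N v _).trans (hU v hv)) (ha v hv) hlt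
  push Not at hneg
  set s : Place F → ℕ := fun v => if hv : v ∈ T then (sh v (a v hv)).toNat else 0
  have hs : ∀ v ∉ T, s v = 0 := fun v hv => by simp [s, hv]
  have hs' : ∀ v (hv : v ∈ T), (s v : ℤ) = sh v (a v hv) := fun v hv => by
    simp only [s, hv, dite_true]
    exact Int.toNat_of_nonneg (hneg v hv)
  have hadm : Adm fun v => (s v : ℤ) := by
    filter_upwards [T.finite_toSet.compl_mem_cofinite] with v hv
    simp [hs v (by simpa using hv)]
  rw [← hW s hs fun v hv => by rw [hs' v hv]; exact hbox v hv _ (ha v hv)]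
  refine W0_eq_of_shell h (fun v hv => (tUnits_le_U0N v _).trans (hU v hv))
    (std_stdPt hadm fun v hv => by simp [hs v hv]) hg fun v hv b b' hb hb' => ?_
  rw [sh_stdPt hadm hb, hs' v hv, tor_injective (hb'.symm.trans (ha v hv))]

/-- Negative shells are empty. -/
lemma W0_stdPt_neg (h : IsAut T lam φ) (hU : ∀ v, U0N (v.valuation F) (nlev lam v) ≤ stab v φ)
    {r : Place F → ℤ} (hr : Adm r) {v : Place F} (hv : r v < 0) : W0 φ (stdPt r) = 0 :=
  W0_eq_zero_of_nball h.bas ((nball_zero_le_U0N v _).trans (hU v)) (stdPt_apply hr v)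
    (by rw [sh_mul_unif, sh_dl, zero_add]; exact hv)

/-- A nonzero eigenfunction of the given level has nonzero coefficient at the standard point. -/
lemma W0_stdPt_zero_ne (h : IsAut T lam φ) (hne : φ ≠ 0)
    (hU : ∀ v, U0N (v.valuation F) (nlev lam v) ≤ stab v φ) :
    W0 φ (stdPt fun _ => 0) ≠ 0 := fun h0 => by
  refine hne (eq_zero_of_stdPt h (nlev lam) (fun v _ => hU v) fun s hs hs' => ?_)
  have : (fun v => (s v : ℤ)) = fun _ => (0 : ℤ) := funext fun v => by
    by_cases hv : v ∈ T
    · have := hs' v hv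
      omega
    · simp [hs v hv]
  rw [this]
  exact h0

/-- Every eigenfunction of the basis is fixed by the level group. -/
lemma U0N_le_stab_bvec (hU : ∀ v, U0N (v.valuation F) (nlev lam v) ≤ stab v φ) {N : Place F → ℕ}
    (hN : {v | N v ≠ 0}.Finite) (hn : ∀ v, nlev lam v ≤ N v) (j : Box (nlev lam) N) (v : Place F) :
    U0N (v.valuation F) (N v) ≤ stab v (bvec φ j.1) := fun k hk => by
  have hadm : Adm fun u => -(j.1 u : ℤ) := by
    filter_upwards [adm_of_box hN j] with u hu
    rw [hu, neg_zero]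
  refine mem_stab_R (hU v ?_)
  rw [shiftPt_apply hadm]
  refine conj_tor_U0N v (N := N v) (j := j.1 v) (by have := j.2 v; have := hn v; omega) ?_ hk
  rw [val_unif_zpow, neg_neg]

/-- The shifted functions are eigenfunctions outside the level. -/
lemma isAut_bvec (h : IsAut T lam φ) {S : Lev F} {N : Place F → ℕ} (hNS : ∀ v, N v ≤ S.depth v)
    (j : Box (nlev lam) N) : IsAut (T ∪ S.places) lam (bvec φ j.1) := by
  have hN : {v | N v ≠ 0}.Finite := S.finite'.subset fun v hv => by
    have := hNS v
    simp only [Set.mem_ofPred_eq] at hv ⊢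
    omega
  have hadm : Adm fun u => -(j.1 u : ℤ) := by
    filter_upwards [adm_of_box hN j] with u hu
    rw [hu, neg_zero]
  refine (h.mono Finset.subset_union_left).R fun v hv => ?_
  simp only [Finset.mem_union, not_or, Lev.mem_places, Lev.notMem_iff] at hv
  have := hNS v
  have := j.2 v
  rw [shiftPt_apply hadm, show (j.1 v : ℤ) = 0 by omega, neg_zero, zpow_zero, map_one]

/-! ### descending -/

/-- Invariance under the groups `U0N` gives a level. -/
lemma isLevel_of_U0N (h : IsAut T lam Ψ) {S : Lev F} {N : Place F → ℕ} (hNS : ∀ v, N v ≤ S.depth v)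
    (hU : ∀ v, U0N (v.valuation F) (N v) ≤ stab v Ψ) : IsLevel S Ψ := by
  obtain ⟨S', -, hS', -⟩ := h.exists_level
  exact hS'.of_stab fun v => (UN_le_U0N (hNS v)).trans (hU v)

/-- Pushing down to points keeps invariance under the level group. -/
lemma isU0Inv_desc {S : Lev F} (hS : IsLevel S Ψ) {N : Place F → ℕ}
    (hU : ∀ v, U0N (v.valuation F) (N v) ≤ stab v Ψ) : IsU0Inv N (desc S Ψ) := by
  intro p v g k hg hk
  set G := sec p.1
  have hl : (G.1 v)⁻¹ * g ∈ lev S v := by
    refine QuotientGroup.eq.1 ?_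
    rw [← hg]
    exact congrFun (congrArg Subtype.val (toPt_sec p.1)) v
  have e : p.1.set v ((g * k : GL (Fin 2) F) : Vert S v) =
      toPt S (G * sgl v ((G.1 v)⁻¹ * g * k)) := by
    rw [toPt_mul_sgl, toPt_sec, mul_assoc, mul_inv_cancel_left]
  change Ψ (sec _) p.2 = Ψ (sec p.1) p.2
  rw [e, hS.sec_toPt, stab_apply ((stab v Ψ).mul_mem (hS.lev_le_stab v hl) (hU v hk))]

/-- Pulling back from points keeps invariance under the level group. -/
lemma U0N_le_stab_pull {S : Lev F} {N : Place F → ℕ} {Φ : Pt F S → ℂ} (hΦ : IsU0Inv N Φ)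
    (v : Place F) :
    U0N (v.valuation F) (N v) ≤ stab v (pull Φ) := fun k hk => by
  funext g x
  change Φ (toPt S (g * sgl v k), x) = Φ (toPt S g, x)
  rw [toPt_mul_sgl]
  exact hΦ (toPt S g, x) v (g.1 v) k rfl hk

/-! ### independence and spanning -/

/-- The coefficients of a shifted function are shifted. -/
lemma W0_bvec {N : Place F → ℕ} (hN : {v | N v ≠ 0}.Finite) (j s : Box (nlev lam) N) :
    W0 (bvec φ j.1) (stdPt fun v => (s.1 v : ℤ))
      = W0 φ (stdPt fun v => (s.1 v : ℤ) - (j.1 v : ℤ)) := by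
  have hadm : Adm fun u => -(j.1 u : ℤ) := by
    filter_upwards [adm_of_box hN j] with u hu
    rw [hu, neg_zero]
  rw [bvec, W0_R, stdPt_mul_shiftPt (adm_of_box hN s) hadm]
  rfl

/-- The coefficients in the box are free. -/
theorem box_bijective (h : IsAut T lam φ) (hne : φ ≠ 0)
    (hU : ∀ v, U0N (v.valuation F) (nlev lam v) ≤ stab v φ) {N : Place F → ℕ}
    (hN : {v | N v ≠ 0}.Finite) [Fintype (Box (nlev lam) N)] :
    Function.Bijective fun (a : Box (nlev lam) N → ℂ) (s : Box (nlev lam) N) =>
      ∑ j, a j * W0 (bvec φ j.1) (stdPt fun v => (s.1 v : ℤ)) := by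
  let L : (Box (nlev lam) N → ℂ) →ₗ[ℂ] (Box (nlev lam) N → ℂ) :=
    { toFun := fun a s => ∑ j, a j * W0 (bvec φ j.1) (stdPt fun v => (s.1 v : ℤ))
      map_add' := fun a b => by funext s; simp [add_mul, Finset.sum_add_distrib]
      map_smul' := fun c a => by funext s; simp [Finset.mul_sum, mul_assoc] }
  have hinj : Function.Injective L := by
    rw [injective_iff_map_eq_zero]
    intro a ha
    by_contra hne'
    -- a minimal point `j₀` with nonzero coefficient
    obtain ⟨j₀, hj₀, hmin⟩ : ∃ j₀, a j₀ ≠ 0 ∧ ∀ j, a j ≠ 0 → (∀ v, j.1 v ≤ j₀.1 v) → j = j₀ := by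
      obtain ⟨j₁, hj₁⟩ : ∃ j, a j ≠ 0 := by
        by_contra hh
        push Not at hh
        exact hne' (funext hh)
      obtain ⟨j₀, hj₀, hmin⟩ := Finset.exists_minimal (s := Finset.univ.filter fun j => a j ≠ 0)
        ⟨j₁, by simpa using hj₁⟩
      refine ⟨j₀, (Finset.mem_filter.1 hj₀).2, fun j hj hle => ?_⟩
      exact le_antisymm hle (hmin (by simpa using hj) hle)
    -- at the standard point of `j₀` only its own term survives
    have e := congrFun ha j₀
    change ∑ j, a j * W0 (bvec φ j.1) (stdPt fun v => (j₀.1 v : ℤ)) = 0 at e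
    rw [Finset.sum_eq_single j₀] at e
    · rw [W0_bvec hN, show (fun v => (j₀.1 v : ℤ) - (j₀.1 v : ℤ)) = fun _ => (0 : ℤ) from
        funext fun v => sub_self _] at e
      exact (mul_ne_zero hj₀ (W0_stdPt_zero_ne h hne hU)) e
    · intro j _ hj
      by_cases haj : a j = 0
      · rw [haj, zero_mul]
      · obtain ⟨v, hv⟩ : ∃ v, j₀.1 v < j.1 v := by
          by_contra hh
          push Not at hh
          exact hj (hmin j haj hh)
        rw [W0_bvec hN, W0_stdPt_neg h hU ?_ (v := v) (by omega), mul_zero]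
        filter_upwards [adm_of_box hN j₀, adm_of_box hN j] with u h1 h2
        omega
    · intro hh; exact absurd (Finset.mem_univ _) hh
  -- an injective endomorphism in finite dimension is bijective
  exact ⟨hinj, LinearMap.injective_iff_surjective.1 hinj⟩

/-- **The eigenfunctions of level `N`**: `bvec φ j`, `j` in the box, form a basis. -/
theorem bvec_basis {Z : Set (Place F)} (h : IsAut T lam φ) (hne : φ ≠ 0)
    (hU : ∀ v, U0N (v.valuation F) (nlev lam v) ≤ stab v φ) (hTZ : ∀ v, v ∉ Z → v ∉ T)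
    (S : Lev F) (N : Place F → ℕ) (hn : ∀ v, nlev lam v ≤ N v) (hNS : ∀ v, N v ≤ S.depth v)
    [Fintype (Box (nlev lam) N)] :
    (∀ j : Box (nlev lam) N, IsVec S N Z lam (desc S (bvec φ j.1)) ∧ IsLevel S (bvec φ j.1)) ∧
    LinearIndependent ℂ (fun j : Box (nlev lam) N => desc S (bvec φ j.1)) ∧
    ∀ Z' : Set (Place F), Z'.Finite → ∀ Φ, IsVec S N Z' lam Φ →
      ∃ a : Box (nlev lam) N → ℂ, Φ = fun p => ∑ j, a j * desc S (bvec φ j.1) p := by
  have hN : {v | N v ≠ 0}.Finite := S.finite'.subset fun v hv => by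
    have := hNS v
    simp only [Set.mem_ofPred_eq] at hv ⊢
    omega
  have hst := fun j => U0N_le_stab_bvec hU hN hn (φ := φ) (lam := lam) j
  have hA := fun j => isAut_bvec h hNS j
  have hL := fun j => isLevel_of_U0N (hA j) hNS (hst j)
  have hbij := box_bijective h hne hU hN
  refine ⟨fun j =>
    ⟨⟨(hA j).isEigFn (hL j) fun v hv hv' => ?_, isU0Inv_desc (hL j) (hst j)⟩, hL j⟩, ?_,
    fun Z' hZ' Φ hΦ => ?_⟩
  · simp [hTZ v hv', hv]
  · rw [Fintype.linearIndependent_iff]
    intro a ha
    have hz : (∑ j, a j • bvec φ j.1) = 0 := by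
      funext g x
      have := congrFun ha (toPt S g, x)
      simp only [Finset.sum_apply, Pi.smul_apply, Pi.zero_apply, smul_eq_mul, desc] at this ⊢
      rw [← this]
      exact Finset.sum_congr rfl fun j _ => by rw [(hL j).sec_toPt]
    -- independence from the standard coefficients
    have h0 : (fun s : Box (nlev lam) N => ∑ j, a j * W0 (bvec φ j.1) (stdPt fun v => (s.1 v : ℤ)))
        = fun s : Box (nlev lam) N => ∑ j, (0 : Box (nlev lam) N → ℂ) j
            * W0 (bvec φ j.1) (stdPt fun v => (s.1 v : ℤ)) := by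
      funext s
      simp only [Pi.zero_apply, zero_mul, Finset.sum_const_zero]
      rw [← W0_zero (F := F) (stdPt fun v => (s.1 v : ℤ)), ← hz, W0_sum _ fun j _ =>
        (hA j).bas.smul _]
      exact Finset.sum_congr rfl fun j _ => (W0_smul _ (hA j).bas _).symm
    exact fun j => congrFun (hbij.1 h0) j
  · set T₂ := T ∪ S.places ∪ hZ'.toFinset
    have hP : IsAut T₂ lam (pull Φ) := isAut_pull hΦ.1 fun v hv => by
      simp only [T₂, Finset.mem_union, not_or, Lev.mem_places, Set.Finite.mem_toFinset] at hv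
      exact ⟨hv.1.2, hv.2⟩
    -- match the standard coefficients; the difference vanishes
    obtain ⟨a, ha⟩ := hbij.2 fun s : Box (nlev lam) N => W0 (pull Φ) (stdPt fun v => (s.1 v : ℤ))
    have hsumA : IsAut T₂ lam (∑ j, a j • bvec φ j.1) :=
      IsAut.sum _ fun j _ => ((hA j).mono Finset.subset_union_left).smul _
    have hz : pull Φ - ∑ j, a j • bvec φ j.1 = 0 := by
      refine eq_zero_of_stdPt (hP.sub hsumA) N (fun v _ x hx => ?_) fun s hs hs' => ?_
      · exact mem_stab_sub (U0N_le_stab_pull hΦ.2 v hx)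
          (mem_stab_sum _ fun j _ => mem_stab_smul _ (hst j v hx))
      · have hsbox : ∀ v, s v ≤ N v - nlev lam v := fun v => by
          by_cases hv : v ∈ T₂
          · have := hs' v hv
            have := hn v
            omega
          · rw [hs v hv]; exact Nat.zero_le _
        have e := congrFun ha ⟨s, hsbox⟩
        rw [W0_sub hP.bas hsumA.bas, W0_sum _ fun j _ => (hA j).bas.smul _, ← e,
          ← Finset.sum_sub_distrib]
        refine Finset.sum_eq_zero fun j _ => ?_
        rw [W0_smul _ (hA j).bas]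
        exact sub_self _
    refine ⟨a, funext fun p => ?_⟩
    have h1 := congrFun (congrFun (sub_eq_zero.1 hz) (sec p.1)) p.2
    simp only [pull, toPt_sec, Finset.sum_apply, Pi.smul_apply, smul_eq_mul] at h1
    exact h1

end Fermat.LTG.Mult
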