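import Fermat.Agent.LTG.Mult.Adele

/-!
# Multiplicity: matrices at one place

`tor` and `low` are the torus and lower unipotent matrices; `breps_unique` gives the
representatives of a ball.
-/

set_option autoImplicit false
open Filter
open scoped Classical

namespace Fermat.LTG.Mult

open Fermat.LT

variable {F : Type*} [Field F] [NumberField F] (v : Place F)

/-- There is a uniformiser. -/
lemma exists_unif : ∃ u : Fˣ, v.valuation F (u : F) = WithZero.exp (-1 : ℤ) := by
  obtain ⟨u, hu⟩ := v.valuation_exists_uniformizer F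
  exact ⟨Units.mk0 u (fun h => by rw [h, map_zero] at hu; exact WithZero.exp_ne_zero hu.symm), hu⟩

/-- A uniformiser. -/
noncomputable def unif : Fˣ := (exists_unif v).choose

/-- The valuation of the uniformiser. -/
lemma val_unif : v.valuation F (unif v : F) = WithZero.exp (-1 : ℤ) := (exists_unif v).choose_spec

/-- The valuation of a power of the uniformiser. -/
lemma val_unif_zpow (j : ℤ) : v.valuation F ((unif v ^ j : Fˣ) : F) = WithZero.exp (-j) := by
  rw [Units.val_zpow_eq_zpow_val, map_zpow₀, val_unif, ← WithZero.exp_zsmul]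
  congr 1
  simp

/-- The valuation of a product from bounds on the factors. -/
lemma exp_mul_le {i j k : ℤ} {x y : F} (hx : v.valuation F x ≤ WithZero.exp i)
    (hy : v.valuation F y ≤ WithZero.exp j) (h : i + j ≤ k) :
    v.valuation F (x * y) ≤ WithZero.exp k := by
  rw [map_mul]
  refine (mul_le_mul' hx hy).trans ?_
  rw [← WithZero.exp_add]
  exact WithZero.exp_le_exp.2 h

/-! ### The levels of depth `0` -/

/-- The level zero group is the integral matrices. -/
lemma congU0_zero : congU0 (v.valuation F) 0 = intGL (v.valuation F) :=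
  le_antisymm (fun _ h => h.1) fun g hg => ⟨hg, by simpa using v_entry_le_one _ hg 1 0⟩

/-- `U0N` at level zero is `U0`. -/
lemma U0N_zero : U0N (v.valuation F) 0 = U0 (v.valuation F) := by rw [U0N, congU0_zero]; rfl

/-! ### torus, unipotents -/

/-- `diag (a, 1)`. -/
noncomputable def tor : Fˣ →* GL (Fin 2) F where
  toFun a := upMat a 0
  map_one' := upMat_one
  map_mul' a b := by rw [upMat_mul]; simp

omit [NumberField F] in
/-- A torus element as an upper triangular matrix. -/
lemma tor_apply (a : Fˣ) : tor a = upMat a 0 := rfl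

/-- The translations by a ball. -/
def nball (m : ℤ) : Subgroup (GL (Fin 2) F) where
  carrier := {g | ∃ x : F, v.valuation F x ≤ WithZero.exp m ∧ g = upMat 1 x}
  one_mem' := ⟨0, by simp, upMat_one.symm⟩
  mul_mem' := by
    rintro a b ⟨x, hx, rfl⟩ ⟨y, hy, rfl⟩
    exact ⟨y + x, ((v.valuation F).map_add _ _).trans (max_le hy hx), by rw [upMat_mul]; simp⟩
  inv_mem' := by
    rintro a ⟨x, hx, rfl⟩
    exact ⟨-x, by rwa [Valuation.map_neg], by rw [upMat_inv]; simp⟩

/-- A small translation lies in the unipotent ball. -/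
lemma upMat_mem_nball {m : ℤ} {x : F} (hx : v.valuation F x ≤ WithZero.exp m) :
    upMat 1 x ∈ nball v m := ⟨x, hx, rfl⟩

/-- The units of the torus. -/
noncomputable def tUnits : Subgroup (GL (Fin 2) F) :=
  ((v.valuation F).toMonoidWithZeroHom.toMonoidHom.comp (Units.coeHom F)).ker.map tor

/-- The units of the torus in coordinates. -/
lemma mem_tUnits {g : GL (Fin 2) F} :
    g ∈ tUnits v ↔ ∃ a : Fˣ, v.valuation F (a : F) = 1 ∧ g = upMat a 0 := by
  constructor
  · rintro ⟨a, ha, rfl⟩
    exact ⟨a, ha, rfl⟩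
  · rintro ⟨a, ha, rfl⟩
    exact ⟨a, ha, rfl⟩

/-- The unit torus lies in every `U0N`. -/
lemma tUnits_le_U0N (n : ℕ) : tUnits v ≤ U0N (v.valuation F) n := fun g hg => by
  obtain ⟨a, ha, rfl⟩ := (mem_tUnits v).1 hg
  exact le_withScalars _ ⟨upMat_mem_intGL _ ha (by simp), by simp⟩

/-- The integral unipotents lie in every `U0N`. -/
lemma nball_zero_le_U0N (n : ℕ) : nball v 0 ≤ U0N (v.valuation F) n := fun g ⟨x, hx, e⟩ => by
  subst e
  exact le_withScalars _ ⟨upMat_mem_intGL _ (by simp) (by rwa [WithZero.exp_zero] at hx), by simp⟩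

/-- A triangular element of `U0` has unit diagonal and integral translation. -/
lemma of_upMat_mem_U0 {a : Fˣ} {x : F} (h : upMat a x ∈ U0 (v.valuation F)) :
    v.valuation F (a : F) = 1 ∧ v.valuation F x ≤ 1 := by
  obtain ⟨c, hc⟩ := h
  have e := v_det_intGL hc
  have h00 := v_entry_le_one (v.valuation F) hc 0 0
  have h11 := v_entry_le_one (v.valuation F) hc 1 1
  have h01 := v_entry_le_one (v.valuation F) hc 0 1
  rw [Units.val_mul, scal_coe, coe_upMat, Matrix.scalar_apply, Matrix.diagonal_mul] at h00 h11 h01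
  simp at h00 h11 h01
  rw [Units.val_mul, scal_coe, coe_upMat, Matrix.det_mul, Matrix.scalar_apply, Matrix.det_diagonal,
    Fin.prod_univ_two, Matrix.det_fin_two_of] at e
  simp at e
  set C := v.valuation F (c : F)
  set A := v.valuation F (a : F)
  have hc1 : C = 1 := by
    refine le_antisymm h11 ?_
    calc (1 : WithZero (Multiplicative ℤ)) = C * C * A := e.symm
      _ = C * (C * A) := mul_assoc _ _ _
      _ ≤ C := mul_le_of_le_one_right' h00
  rw [hc1, one_mul, one_mul] at e
  exact ⟨e, by rwa [hc1, one_mul] at h01⟩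

/-- Lower unipotent. -/
noncomputable def low (c : F) : GL (Fin 2) F :=
  Matrix.GeneralLinearGroup.mkOfDetNeZero !![1, 0; c, 1] (by simp [Matrix.det_fin_two_of])

/-- The entries of a lower unipotent matrix. -/
@[simp] lemma coe_low (c : F) : (low c : Matrix (Fin 2) (Fin 2) F) = !![1, 0; c, 1] := rfl

/-- A small lower unipotent lies in `U0N`. -/
lemma low_mem_U0N {n : ℕ} {c : F} (hc : v.valuation F c ≤ WithZero.exp (-(n : ℤ))) :
    low c ∈ U0N (v.valuation F) n := by
  refine le_withScalars _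
    ⟨mem_intGL_of_det (v := v.valuation F) (fun i j => ?_) (by simp [Matrix.det_fin_two_of]),
      by simpa⟩
  fin_cases i <;> fin_cases j <;> simp [hc.trans (exp_neg_nat_le_one n)]

omit [NumberField F] in
/-- `diag (1, π)` up to a scalar. -/
lemma scal_mul_tor_inv (a : Fˣ) :
    ((scal a * tor a⁻¹ : GL (Fin 2) F) : Matrix (Fin 2) (Fin 2) F) = !![1, 0; 0, (a : F)] := by
  ext i j
  fin_cases i <;> fin_cases j <;> simp [tor_apply, Matrix.scalar_apply, Matrix.diagonal_mul]

/-- Conjugation by `diag(a, 1)` in entries. -/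
lemma conj_tor_entries (a : Fˣ) (g : GL (Fin 2) F) :
    (((tor a)⁻¹ * g * tor a : GL (Fin 2) F) : Matrix (Fin 2) (Fin 2) F)
      = !![(g : Matrix (Fin 2) (Fin 2) F) 0 0, (g : Matrix (Fin 2) (Fin 2) F) 0 1 / a;
        (g : Matrix (Fin 2) (Fin 2) F) 1 0 * a, (g : Matrix (Fin 2) (Fin 2) F) 1 1] := by
  rw [← map_inv, Units.val_mul, Units.val_mul, tor_apply, tor_apply, coe_upMat, coe_upMat]
  ext i j
  fin_cases i <;> fin_cases j <;> simp [Matrix.mul_apply, Matrix.vecMul, dotProduct,
      Fin.sum_univ_two, div_eq_inv_mul]; field_simp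

/-- Conjugating a unipotent by a torus element scales it. -/
lemma conj_tor_upMat (a : Fˣ) (x : F) : (tor a)⁻¹ * upMat 1 x * tor a = upMat 1 (x / a) := by
  refine Units.ext ?_
  rw [conj_tor_entries, coe_upMat, coe_upMat]
  simp

/-! ### generation -/

/-- `Γ₀` is generated by scalars, units, translations and a congruence subgroup. -/
theorem U0N_le_of {K : ℕ} (hK : 1 ≤ K) {H : Subgroup (GL (Fin 2) F)} (hs : ∀ c : Fˣ, scal c ∈ H)
    (hn : nball v 0 ≤ H) (hu : tUnits v ≤ H) (hc : congN (v.valuation F) K ≤ H) :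
    U0N (v.valuation F) K ≤ H := by
  rintro g ⟨c, hk, hk10⟩
  -- after a scalar the element is integral, with small bottom left entry
  suffices h : scal c * g ∈ H by simpa using H.mul_mem (H.inv_mem (hs c)) h
  generalize scal c * g = k at hk hk10 ⊢
  set M := (k : Matrix (Fin 2) (Fin 2) F) with hM
  have hlt : v.valuation F (M 1 0) < 1 := lt_of_le_of_lt hk10 (by
    rw [← WithZero.exp_zero, WithZero.exp_lt_exp]; omega)
  have hdet := v_det_intGL hk
  -- the bottom right entry is a unit
  have he : v.valuation F (M 1 1) = 1 := by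
    refine le_antisymm (v_entry_le_one _ hk 1 1) (not_lt.1 fun h => ?_)
    rw [Matrix.det_fin_two] at hdet
    refine (lt_self_iff_false (1 : WithZero (Multiplicative ℤ))).1 ?_
    calc (1 : WithZero (Multiplicative ℤ)) = _ := hdet.symm
      _ < 1 := lt_of_le_of_lt ((v.valuation F).map_sub _ _) (max_lt
        (by rw [map_mul]; exact lt_of_le_of_lt (mul_le_of_le_one_left' (v_entry_le_one _ hk 0 0)) h)
        (by rw [map_mul];
              exact lt_of_le_of_lt (mul_le_of_le_one_left' (v_entry_le_one _ hk 0 1)) hlt))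
  have he0 : M 1 1 ≠ 0 := fun h => by simp [h] at he
  set e : Fˣ := Units.mk0 _ he0
  set A : Fˣ := Units.mk0 (M.det / M 1 1 ^ 2) (div_ne_zero (Matrix.GeneralLinearGroup.det k).ne_zero
    (pow_ne_zero _ he0)) with hA
  have hAv : v.valuation F (A : F) = 1 := by
    simp only [hA, Units.val_mk0, map_div₀, map_pow, he, one_pow, div_one]
    exact hdet
  -- decompose: scalar, translation, unit torus element and lower unipotent
  have hdec : k = scal e * upMat 1 (M 0 1 / M 1 1) * tor A * low (M 1 0 / M 1 1) := by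
    refine Units.ext ?_
    simp only [Units.val_mul, scal_coe, tor_apply, coe_upMat, coe_low, Matrix.scalar_apply]
    change M = _
    simp only [hA, Units.val_mk0, Matrix.det_fin_two]
    ext i j
    fin_cases i <;> fin_cases j <;>
      simp [e, Matrix.mul_apply, Fin.sum_univ_two] <;> field_simp; ring
  rw [hdec]
  refine H.mul_mem (H.mul_mem (H.mul_mem (hs e) (hn (upMat_mem_nball v ?_))) (hu ?_)) (hc ?_)
  · rw [map_div₀, he, div_one, WithZero.exp_zero]; exact v_entry_le_one _ hk 0 1
  · exact (mem_tUnits v).2 ⟨A, hAv, rfl⟩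
  · refine mem_congN_of_sub (v.valuation F) hK fun i j => ?_
    have hle : v.valuation F (M 1 0 / M 1 1) ≤ WithZero.exp (-(K : ℤ)) := by
      rw [map_div₀, he, div_one]; exact hk10
    fin_cases i <;> fin_cases j <;> simp [-map_div₀, -WithZero.exp_neg]; exact hle

/-- One step of lowering: the conjugated group. -/
theorem lower_step {M : ℕ} {H : Subgroup (GL (Fin 2) F)} (hU : U0N (v.valuation F) (M + 1) ≤ H)
    (hn : nball v 1 ≤ H) {k : GL (Fin 2) F} (hk : k ∈ U0N (v.valuation F) M) :
    (tor (unif v))⁻¹ * k * tor (unif v) ∈ H := by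
  have hs : ∀ c : Fˣ, scal c ∈ H := fun c => hU (scal_mem_withScalars _ c)
  obtain ⟨c, hint, h10⟩ := hk
  suffices h : (tor (unif v))⁻¹ * (scal c * k) * tor (unif v) ∈ H by
    have e : (tor (unif v))⁻¹ * (scal c * k) * tor (unif v)
        = scal c * ((tor (unif v))⁻¹ * k * tor (unif v)) := by
      simp only [← mul_assoc, scal_comm c (tor (unif v))⁻¹]
    rw [e] at h
    simpa using H.mul_mem (H.inv_mem (hs c)) h
  generalize scal c * k = k at hint h10 ⊢
  set X := (tor (unif v))⁻¹ * k * tor (unif v) with hX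
  set N := (k : Matrix (Fin 2) (Fin 2) F) with hN
  have hπ0 : (unif v : F) ≠ 0 := (unif v).ne_zero
  -- the case of a unit lower right entry
  have main : ∀ X : GL (Fin 2) F, v.valuation F ((X : Matrix (Fin 2) (Fin 2) F) 0 1) ≤
      WithZero.exp 1 →
      v.valuation F ((X : Matrix (Fin 2) (Fin 2) F) 1 0) ≤ WithZero.exp (-((M + 1 : ℕ) : ℤ)) →
      v.valuation F ((X : Matrix (Fin 2) (Fin 2) F) 0 0) ≤ 1 →
      v.valuation F ((X : Matrix (Fin 2) (Fin 2) F) 1 1) = 1 →
      v.valuation F (X : Matrix (Fin 2) (Fin 2) F).det = 1 → X ∈ H := by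
    intro X h01 h10 h00 h11 hd
    set Y := (X : Matrix (Fin 2) (Fin 2) F) with hY
    have hne : Y 1 1 ≠ 0 := fun h => by simp [h] at h11
    have hy : v.valuation F (Y 0 1 / Y 1 1) ≤ WithZero.exp 1 := by rwa [map_div₀, h11, div_one]
    have e : X = upMat 1 (Y 0 1 / Y 1 1) * (upMat 1 (-(Y 0 1 / Y 1 1)) * X) := by
      rw [← mul_assoc, upMat_mul]; simp [upMat_one]
    rw [e]
    refine H.mul_mem (hn (upMat_mem_nball v hy)) (hU (le_withScalars _ ⟨?_, ?_⟩))
    · refine mem_intGL_of_det (v := v.valuation F) (fun i j => ?_) ?_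
      · rw [Units.val_mul, coe_upMat, ← hY]
        fin_cases i <;> fin_cases j <;>
          simp [Matrix.mul_apply, Fin.sum_univ_two, h11, h10.trans (exp_neg_nat_le_one _),
              -map_div₀]
        · refine ((v.valuation F).map_add _ _).trans (max_le h00 ?_)
          rw [Valuation.map_neg]
          refine (exp_mul_le v hy h10 (k := 0) (by push_cast; omega)).trans
            (le_of_eq WithZero.exp_zero)
        · rw [show Y 0 1 + -(Y 0 1 / Y 1 1 * Y 1 1) = 0 by field_simp; ring, map_zero]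
          exact zero_le
      · rw [Units.val_mul, Matrix.det_mul, coe_upMat, Matrix.det_fin_two_of]
        simpa using hd
    · rw [Units.val_mul, coe_upMat, ← hY]
      simpa [Matrix.mul_apply, Fin.sum_univ_two] using h10
  have hXe : (X : Matrix (Fin 2) (Fin 2) F) = !![N 0 0, N 0 1 / unif v; N 1 0 * unif v, N 1 1] :=
    conj_tor_entries (unif v) k
  have hd := v_det_intGL hint
  have hdX : v.valuation F (X : Matrix (Fin 2) (Fin 2) F).det = 1 := by
    rw [hXe, Matrix.det_fin_two_of, show N 0 0 * N 1 1 - N 0 1 / unif v * (N 1 0 * unif v)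
      = N 0 0 * N 1 1 - N 0 1 * N 1 0 by field_simp]
    rw [← hN, Matrix.det_fin_two] at hd
    exact hd
  have x01 : v.valuation F (N 0 1 / unif v) ≤ WithZero.exp 1 := by
    rw [map_div₀, val_unif, WithZero.exp_neg, div_inv_eq_mul]
    exact mul_le_of_le_one_left' (v_entry_le_one _ hint 0 1)
  have x10 : v.valuation F (N 1 0 * unif v) ≤ WithZero.exp (-((M + 1 : ℕ) : ℤ)) :=
    exp_mul_le v h10 (val_unif v).le (by push_cast; omega)
  rcases (v_entry_le_one _ hint 1 1).lt_or_eq with hlt | heq
  · -- then `M = 0` and one adds a multiple of the first row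
    have hbc : ¬ (v.valuation F (N 0 1) < 1 ∨ v.valuation F (N 1 0) < 1) := fun h => by
      rw [← hN, Matrix.det_fin_two] at hd
      refine (lt_self_iff_false (1 : WithZero (Multiplicative ℤ))).1 ?_
      calc (1 : WithZero (Multiplicative ℤ)) = _ := hd.symm
        _ < 1 := lt_of_le_of_lt ((v.valuation F).map_sub _ _) (max_lt
          (by rw [map_mul];
                exact lt_of_le_of_lt (mul_le_of_le_one_left' (v_entry_le_one _ hint 0 0)) hlt)
          (by
            rw [map_mul]
            rcases h with h | h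
            · exact lt_of_le_of_lt (mul_le_of_le_one_right' (v_entry_le_one _ hint 1 0)) h
            · exact lt_of_le_of_lt (mul_le_of_le_one_left' (v_entry_le_one _ hint 0 1)) h))
    rw [not_or, not_lt, not_lt] at hbc
    have hM0 : M = 0 := by
      by_contra h
      exact not_lt.2 hbc.2
        (lt_of_le_of_lt h10 (by rw [← WithZero.exp_zero, WithZero.exp_lt_exp]; omega))
    have hl : low (unif v : F) ∈ H := hU (low_mem_U0N v (by rw [val_unif, hM0]; simp))
    have hmem : low (unif v : F) * X ∈ H := by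
      refine main _ ?_ ?_ ?_ ?_ ?_ <;> simp only [Units.val_mul, coe_low, hXe]
      · simpa [Matrix.mul_apply, Fin.sum_univ_two] using x01
      · simp only [Matrix.mul_apply, Fin.sum_univ_two, Matrix.of_apply, Matrix.cons_val',
          Matrix.cons_val_zero, Matrix.cons_val_one, Matrix.cons_val_fin_one, one_mul]
        refine ((v.valuation F).map_add _ _).trans (max_le ?_ x10)
        exact exp_mul_le v (val_unif v).le ((v_entry_le_one _ hint 0 0).trans WithZero.exp_zero.ge)
          (by rw [hM0]; simp)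
      · simpa [Matrix.mul_apply, Fin.sum_univ_two] using v_entry_le_one _ hint 0 0
      · simp only [Matrix.mul_apply, Fin.sum_univ_two, Matrix.of_apply, Matrix.cons_val',
          Matrix.cons_val_zero, Matrix.cons_val_one, Matrix.cons_val_fin_one, one_mul]
        have h1 : v.valuation F ((unif v : F) * (N 0 1 / unif v)) = 1 := by
          rw [mul_div_cancel₀ _ hπ0]; exact le_antisymm (v_entry_le_one _ hint 0 1) hbc.1
        rw [(v.valuation F).map_add_eq_of_lt_left (by rw [h1]; exact hlt), h1]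
      · rw [Matrix.det_mul, ← hXe, map_mul, hdX]
        simp [Matrix.det_fin_two_of]
    simpa using H.mul_mem (H.inv_mem hl) hmem
  · exact main X (by simpa [hXe] using x01) (by simpa [hXe] using x10)
      (by simpa [hXe] using v_entry_le_one _ hint 0 0) (by simpa [hXe] using heq) hdX

/-- The Weyl element as a product of unipotents. -/
lemma swap_identity (x : Fˣ) :
    upMat 1 (x : F) * low (-(x⁻¹ : Fˣ) : F) * upMat 1 (x : F)
      = scal x⁻¹ * (tor (x * x) * Matrix.GeneralLinearGroup.mkOfDetNeZero !![0, 1; -1, 0]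
          (by simp [Matrix.det_fin_two_of])) := by
  refine Units.ext ?_
  simp only [Units.val_mul, scal_coe, coe_upMat, coe_low, tor_apply, Matrix.scalar_apply]
  change _ = _ * (_ * (!![0, 1; -1, 0] : Matrix (Fin 2) (Fin 2) F))
  ext i j
  fin_cases i <;> fin_cases j <;> simp [Matrix.mul_apply, Fin.sum_univ_two]

/-- At level zero the group becomes everything unipotent. -/
theorem all_upMat_mem {H : Subgroup (GL (Fin 2) F)} (hU : U0 (v.valuation F) ≤ H)
    (hn : nball v 1 ≤ H) (x : F) : upMat (1 : Fˣ) x ∈ H := by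
  set a : Fˣ := (unif v)⁻¹
  have ha : v.valuation F (a : F) = WithZero.exp (1 : ℤ) := by
    simp [a, val_unif, ← WithZero.exp_neg]
  -- the Weyl element and a lower unipotent are in `H`
  have hw : Matrix.GeneralLinearGroup.mkOfDetNeZero !![(0 : F), 1; -1, 0]
      (by simp [Matrix.det_fin_two_of]) ∈ H := by
    refine hU (le_withScalars _ (mem_intGL_of_det (v := v.valuation F) (fun i j => ?_) ?_))
    · fin_cases i <;> fin_cases j <;> simp [Matrix.GeneralLinearGroup.mkOfDetNeZero,
        Valuation.map_neg]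
    · simp [Matrix.GeneralLinearGroup.mkOfDetNeZero, Matrix.det_fin_two_of]
  have hl : low (-(a⁻¹ : Fˣ) : F) ∈ H := by
    refine hU ((U0N_zero v) ▸ low_mem_U0N v ?_)
    simp [a, Valuation.map_neg, val_unif, -WithZero.exp_neg]
    exact exp_neg_nat_le_one 1
  -- hence so is the torus element of `a²`, by `swap_identity`
  have hd : tor (a * a) ∈ H := by
    have h := H.mul_mem (H.mul_mem (hn (upMat_mem_nball v (ha.le))) hl)
      (hn (upMat_mem_nball v (ha.le)))
    rw [swap_identity] at h
    have h2 := H.mul_mem (H.inv_mem (hU (scal_mem_withScalars _ a⁻¹))) h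
    rw [inv_mul_cancel_left] at h2
    simpa using H.mul_mem h2 (H.inv_mem hw)
  suffices h : ∀ n : ℕ, ∀ x : F, v.valuation F x ≤ WithZero.exp ((2 * n + 1 : ℕ) : ℤ) →
      upMat (1 : Fˣ) x ∈ H by
    rcases eq_or_ne x 0 with rfl | hx
    · exact h 0 0 (by simp)
    · refine h ((WithZero.log (v.valuation F x)).toNat) x ?_
      conv_lhs => rw [← WithZero.exp_log ((v.valuation F).ne_zero_iff.2 hx)]
      exact WithZero.exp_le_exp.2 (by push_cast; omega)
  -- conjugation by it enlarges the ball of translations step by step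
  intro n
  induction n with
  | zero => exact fun x hx => hn (upMat_mem_nball v (by simpa using hx))
  | succ n ih =>
    intro x hx
    have h : upMat (1 : Fˣ) x = tor (a * a) * upMat 1 (x / ((a * a : Fˣ) : F)) *
        (tor (a * a))⁻¹ := by
      rw [← conj_tor_upMat]; group
    rw [h]
    refine H.mul_mem (H.mul_mem hd (ih _ ?_)) (H.inv_mem hd)
    rw [map_div₀, Units.val_mul, map_mul, ha, ← WithZero.exp_add,
      div_le_iff₀ (zero_lt_iff.2 WithZero.exp_ne_zero), ← WithZero.exp_add]
    exact hx.trans (WithZero.exp_le_exp.2 (by push_cast; omega))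

/-- Shifting a level by the torus. -/
theorem conj_tor_U0N {n N j : ℕ} (hj : j + n ≤ N) {a : Fˣ}
    (ha : v.valuation F (a : F) = WithZero.exp (j : ℤ)) {k : GL (Fin 2) F}
    (hk : k ∈ U0N (v.valuation F) N) : (tor a)⁻¹ * k * tor a ∈ U0N (v.valuation F) n := by
  obtain ⟨c, hint, h10⟩ := hk
  refine ⟨c, ?_⟩
  have e : scal c * ((tor a)⁻¹ * k * tor a) = (tor a)⁻¹ * (scal c * k) * tor a := by
    simp only [← mul_assoc, scal_comm c (tor a)⁻¹]
  rw [e]
  generalize scal c * k = k at hint h10 ⊢
  set N' := (k : Matrix (Fin 2) (Fin 2) F)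
  have x10 : v.valuation F (N' 1 0 * a) ≤ WithZero.exp (-(n : ℤ)) :=
    exp_mul_le v h10 ha.le (by omega)
  refine ⟨mem_intGL_of_det (v := v.valuation F) (fun i l => ?_) ?_,
    by rw [conj_tor_entries]; simpa using x10⟩
  · rw [conj_tor_entries]
    fin_cases i <;> fin_cases l <;> simp [-map_div₀, -map_mul, v_entry_le_one _ hint]
    · rw [map_div₀, ha, div_le_one₀ (zero_lt_iff.2 WithZero.exp_ne_zero)]
      exact (v_entry_le_one _ hint 0 1).trans
        (by rw [← WithZero.exp_zero, WithZero.exp_le_exp]; omega)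
    · exact x10.trans (exp_neg_nat_le_one n)
  · rw [conj_tor_entries, Matrix.det_fin_two_of, show N' 0 0 * N' 1 1 - N' 0 1 / a * (N' 1 0 * a)
      = N' 0 0 * N' 1 1 - N' 0 1 * N' 1 0 by field_simp, ← Matrix.det_fin_two]
    exact v_det_intGL hint

/-! ### representatives -/

/-- Representatives of a subgroup modulo another. -/
def IsReps {G : Type*} [Group G] (H K : Subgroup G) (s : Finset G) : Prop :=
  (∀ h ∈ s, h ∈ H) ∧ ∀ k ∈ H, ∃! h, h ∈ s ∧ k⁻¹ * h ∈ K

/-- Translating the representatives. -/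
lemma IsReps.sum_mul {G : Type*} [Group G] {H K : Subgroup G} {s : Finset G} (hs : IsReps H K s)
    {M : Type*} [AddCommMonoid M] (f : G → M) (hf : ∀ h ∈ H, ∀ k ∈ K, f (h * k) = f h)
    {k₀ : G} (hk₀ : k₀ ∈ H) : ∑ h ∈ s, f (k₀ * h) = ∑ h ∈ s, f h := by
  choose r hr hu using fun h : s => hs.2 (k₀ * h) (H.mul_mem hk₀ (hs.1 h h.2))
  refine Finset.sum_bij (fun h hh => r ⟨h, hh⟩) (fun h hh => (hr ⟨h, hh⟩).1) (fun a ha b hb e => ?_)
    (fun b hb => ?_) fun h hh => ?_
  · obtain ⟨x, hx, hxu⟩ := hs.2 a (hs.1 a ha)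
    have e1 : (k₀ * a)⁻¹ * r ⟨a, ha⟩ ∈ K := (hr ⟨a, ha⟩).2
    have e2 : (k₀ * b)⁻¹ * r ⟨b, hb⟩ ∈ K := (hr ⟨b, hb⟩).2
    have h3 : a⁻¹ * b ∈ K := by
      have := K.mul_mem e1 (K.inv_mem (e ▸ e2 : (k₀ * b)⁻¹ * r ⟨a, ha⟩ ∈ K))
      simpa [mul_assoc] using this
    rw [hxu a ⟨ha, by simp [K.one_mem]⟩, hxu b ⟨hb, h3⟩]
  · obtain ⟨a, ha, -⟩ := hs.2 (k₀⁻¹ * b) (H.mul_mem (H.inv_mem hk₀) (hs.1 b hb))
    refine ⟨a, ha.1, (hu ⟨a, ha.1⟩ b ⟨hb, ?_⟩).symm⟩
    have := K.inv_mem ha.2
    simpa [mul_assoc] using this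
  · have e1 : (k₀ * h)⁻¹ * r ⟨h, hh⟩ ∈ K := (hr ⟨h, hh⟩).2
    rw [← hf (k₀ * h) (H.mul_mem hk₀ (hs.1 h hh)) _ e1, mul_inv_cancel_left]

/-- Representatives of a subgroup of `U0` modulo a congruence subgroup exist. -/
lemma exists_isReps {H : Subgroup (GL (Fin 2) F)} (hH : H ≤ U0 (v.valuation F)) (d : ℕ) :
    ∃ s, IsReps H (UN (v.valuation F) d) s := by
  obtain ⟨s₀, hs₀, hcov⟩ := exists_finset_U0_cosetN v d
  set q : GL (Fin 2) F → GL (Fin 2) F ⧸ UN (v.valuation F) d := QuotientGroup.mk
  have hfin : (q '' (H : Set (GL (Fin 2) F))).Finite :=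
      (s₀.finite_toSet.image q).subset fun c ⟨k, hk, e⟩ => by
    obtain ⟨g, hg, hg2⟩ := hcov k (hH hk)
    exact ⟨g, hg, by rw [← e]; exact (QuotientGroup.eq.2 hg2).symm⟩
  choose pick hpick hq using fun c : hfin.toFinset => hfin.mem_toFinset.1 c.2
  refine ⟨Finset.univ.image pick, fun h hh => ?_, fun k hk => ?_⟩
  · obtain ⟨c, -, rfl⟩ := Finset.mem_image.1 hh
    exact hpick c
  · refine ⟨pick ⟨q k, hfin.mem_toFinset.2 ⟨k, hk, rfl⟩⟩,
      ⟨Finset.mem_image.2 ⟨_, Finset.mem_univ _, rfl⟩,
      QuotientGroup.eq.1 ((hq ⟨q k, hfin.mem_toFinset.2 ⟨k, hk, rfl⟩⟩).symm)⟩, ?_⟩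
    rintro y ⟨hy, hy2⟩
    obtain ⟨c, -, rfl⟩ := Finset.mem_image.1 hy
    congr
    exact Subtype.ext ((hq c).symm.trans (QuotientGroup.eq.2 hy2).symm)

/-- Representatives of a ball modulo a smaller one. -/
noncomputable def breps (i : ℤ) (n : ℕ) : Finset F :=
  have : Finite (vball v (i + n) ⧸ (vball v i).addSubgroupOf (vball v (i + n))) :=
    finite_ball_quot v i n
  (Set.finite_range fun c : vball v (i + n) ⧸ (vball v i).addSubgroupOf (vball v (i + n)) =>
    ((Quotient.out c : vball v (i + n)) : F)).toFinset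

/-- The representatives of a ball lie in it. -/
lemma breps_le {i : ℤ} {n : ℕ} {r : F} (hr : r ∈ breps v i n) :
    v.valuation F r ≤ WithZero.exp (i + n) := by
  rw [breps, Set.Finite.mem_toFinset] at hr
  obtain ⟨c, rfl⟩ := hr
  exact (Quotient.out c).2

/-- Each element of a ball has exactly one representative. -/
lemma breps_unique (i : ℤ) (n : ℕ) {x : F} (hx : v.valuation F x ≤ WithZero.exp (i + n)) :
    ∃! r, r ∈ breps v i n ∧ v.valuation F (x - r) ≤ WithZero.exp i := by
  set K := (vball v i).addSubgroupOf (vball v (i + n))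
  set c : vball v (i + n) ⧸ K := QuotientAddGroup.mk ⟨x, hx⟩ with hc
  refine ⟨((Quotient.out c : vball v (i + n)) : F), ⟨?_, ?_⟩, ?_⟩
  · rw [breps, Set.Finite.mem_toFinset]; exact ⟨c, rfl⟩
  · have h : -(⟨x, hx⟩ : vball v (i + n)) + Quotient.out c ∈ K :=
      QuotientAddGroup.eq.1 (by rw [QuotientAddGroup.out_eq'])
    have h2 : -x + ((Quotient.out c : vball v (i + n)) : F) ∈ vball v i := h
    have h3 := (vball v i).neg_mem h2
    simpa [mem_vball, sub_eq_add_neg, add_comm] using h3
  · rintro r ⟨hr, hr2⟩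
    rw [breps, Set.Finite.mem_toFinset] at hr
    obtain ⟨d, rfl⟩ := hr
    have : d = c := by
      rw [hc, ← QuotientAddGroup.out_eq' d, QuotientAddGroup.eq]
      change -((Quotient.out d : vball v (i + n)) : F) + x ∈ vball v i
      rw [neg_add_eq_sub]
      exact hr2
    rw [this]

/-- A ball has norm-power many representatives. -/
lemma card_breps (i : ℤ) (n : ℕ) : (breps v i n).card = pnorm v ^ n := by
  have : Finite (vball v (i + n) ⧸ (vball v i).addSubgroupOf (vball v (i + n))) :=
    finite_ball_quot v i n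
  rw [breps, ← Nat.card_eq_card_finite_toFinset, Nat.card_range_of_injective ?_,
    ← AddSubgroup.index_eq_card]
  · exact relIndex_vball v i n
  · intro c d e
    exact Quotient.out_inj.1 (Subtype.ext e)

/-- Sums over representatives are translation invariant for periodic functions. -/
lemma sum_breps_shift (i : ℤ) (n : ℕ) {M : Type*} [AddCommMonoid M] (f : F → M)
    (hf : ∀ x y, v.valuation F x ≤ WithZero.exp (i + n) → v.valuation F (y - x) ≤ WithZero.exp i →
    f y = f x) {y : F} (hy : v.valuation F y ≤ WithZero.exp (i + n)) :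
    ∑ r ∈ breps v i n, f (r + y) = ∑ r ∈ breps v i n, f r := by
  have hadd : ∀ {a b : F}, v.valuation F a ≤ WithZero.exp (i + n) →
      v.valuation F b ≤ WithZero.exp (i + n) →
      v.valuation F (a + b) ≤ WithZero.exp (i + n) := fun ha hb =>
    ((v.valuation F).map_add _ _).trans (max_le ha hb)
  choose r hr hu using fun a : breps v i n => breps_unique v i n (hadd (breps_le v a.2) hy)
  refine Finset.sum_bij (fun a ha => r ⟨a, ha⟩) (fun a ha => (hr ⟨a, ha⟩).1) (fun a ha b hb e => ?_)
    (fun b hb => ?_) fun a ha => ?_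
  · obtain ⟨x, hx, hxu⟩ := breps_unique v i n (breps_le v ha)
    have e1 := (hr ⟨a, ha⟩).2
    have e2 : v.valuation F (b + y - r ⟨a, ha⟩) ≤ WithZero.exp i := e ▸ (hr ⟨b, hb⟩).2
    have h3 : v.valuation F (a - b) ≤ WithZero.exp i := by
      rw [show a - b = (a + y - r ⟨a, ha⟩) - (b + y - r ⟨a, ha⟩) by ring]
      exact ((v.valuation F).map_sub _ _).trans (max_le e1 e2)
    rw [hxu a ⟨ha, by simp⟩, hxu b ⟨hb, h3⟩]
  · have hb' : v.valuation F (b - y) ≤ WithZero.exp (i + n) :=
      ((v.valuation F).map_sub _ _).trans (max_le (breps_le v hb) hy)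
    obtain ⟨a, ha, -⟩ := breps_unique v i n hb'
    refine ⟨a, ha.1, (hu ⟨a, ha.1⟩ b ⟨hb, ?_⟩).symm⟩
    rw [Valuation.map_sub_swap, show b - (a + y) = b - y - a by ring]
    exact ha.2
  · exact hf _ _ (breps_le v (hr ⟨a, ha⟩).1) (hr ⟨a, ha⟩).2

end Fermat.LTG.Mult
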