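import Fermat.Agent.LTG.Mult.Arch
import Fermat.Agent.LTG.Mult.Local

/-!
# Multiplicity: Fourier coefficients of functions on the restricted product

`IsBas` is the class of functions considered; `W0_sgl_mul` says that local translations multiply a
coefficient by the character.
-/

set_option autoImplicit false
open NumberField MeasureTheory Filter
open scoped Classical

namespace Fermat.LTG.Mult

open Fermat.LT
open Fermat.LT.Mult (mean pnt Pos sc emb chi psi chiF pos_sc)

variable {F : Type*} [Field F] [NumberField F]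

/-- Invariant, continuous at infinity, smooth. -/
structure IsBas (Ψ : Fn F) : Prop where
  /-- The function is invariant under `GL₂(F)`. -/
  invariant : ∀ (γ : GL (Fin 2) F) (g : GA F) (x : AX F), Ψ (dgl γ * g) (act γ x) = Ψ g x
  /-- The function is continuous in the archimedean variables. -/
  continuous : ∀ g, Continuous (Ψ g)
  /-- The function has some level. -/
  smooth : ∃ S, IsLevel S Ψ

/-- The zero function is invariant. -/
lemma IsBas.zero : IsBas (0 : Fn F) :=
  ⟨fun _ _ _ => rfl, fun _ => continuous_const, ⟨Lev.base, fun _ _ _ _ => rfl⟩⟩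

/-- Sums of basic functions are basic. -/
lemma IsBas.add {Ψ Φ : Fn F} (h : IsBas Ψ) (h' : IsBas Φ) : IsBas (Ψ + Φ) := by
  obtain ⟨S, hS⟩ := h.smooth
  obtain ⟨S', hS'⟩ := h'.smooth
  refine ⟨fun γ g x => ?_, fun g => (h.continuous g).add (h'.continuous g), levSup S S',
    fun g k x hk => ?_⟩
  · change Ψ _ _ + Φ _ _ = Ψ g x + Φ g x
    rw [h.invariant, h'.invariant]
  · change Ψ _ _ + Φ _ _ = Ψ g x + Φ g x
    rw [hS.mono (fun v => le_max_left _ _) g k x hk, hS'.mono (fun v => le_max_right _ _) g k x hk]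

/-- Multiples of basic functions are basic. -/
lemma IsBas.smul {Ψ : Fn F} (c : ℂ) (h : IsBas Ψ) : IsBas (c • Ψ) := by
  obtain ⟨S, hS⟩ := h.smooth
  refine ⟨fun γ g x => ?_, fun g => (h.continuous g).const_smul c, S, fun g k x hk => ?_⟩
  · change c • Ψ _ _ = c • Ψ g x
    rw [h.invariant]
  · change c • Ψ _ _ = c • Ψ g x
    rw [hS g k x hk]

variable (F) in
/-- The space of these functions. -/
def bas : Submodule ℂ (Fn F) where
  carrier := {Ψ | IsBas Ψ}
  add_mem' := IsBas.add
  zero_mem' := IsBas.zero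
  smul_mem' c _ h := IsBas.smul c h

/-- Right translates of basic functions are basic. -/
lemma IsBas.R (h : GA F) {Ψ : Fn F} (hΨ : IsBas Ψ) : IsBas (R h Ψ) := by
  obtain ⟨S, hS⟩ := hΨ.smooth
  obtain ⟨S', -, -, hS'⟩ := exists_conj_lev S h (eventually_cofinite.1 h.2).toFinset
    (fun v hv => by simpa using hv)
  exact ⟨fun γ g x => by simp only [R_apply, mul_assoc, hΨ.invariant],
    fun g => hΨ.continuous _, S', hS.R hS'⟩

/-- The values at `g` are unchanged by small unipotent translations on the left. -/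
lemma IsBas.exists_fix {Ψ : Fn F} (hΨ : IsBas Ψ) (g : GA F) :
    ∃ n : Place F → ℕ, {v | n v ≠ 0}.Finite ∧
    ∀ (f : GA F) (y : AX F), (∀ v, ∃ x : F, v.valuation F x ≤ WithZero.exp (-(n v : ℤ)) ∧
      f.1 v = upMat 1 x) → Ψ (f * g) y = Ψ g y := by
  obtain ⟨S, hS⟩ := hΨ.smooth
  obtain ⟨S', -, -, hS'⟩ := exists_conj_lev S g (eventually_cofinite.1 g.2).toFinset
    (fun v hv => by simpa using hv)
  refine ⟨S'.depth, S'.finite', fun f y hf => ?_⟩
  rw [show f * g = g * (g⁻¹ * f * g) by group]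
  refine hS g _ y fun v => hS' v _ ?_
  obtain ⟨x, hx, e⟩ := hf v
  rw [e]
  refine mem_UN_of_congN _ (mem_congN_of_le _ (fun i j => ?_) fun i j => ?_)
  · fin_cases i <;> fin_cases j <;> simp [-WithZero.exp_neg]; exact hx
  · rw [upMat_inv]
    fin_cases i <;> fin_cases j <;> simp [Valuation.map_neg, -WithZero.exp_neg]; exact hx

variable [IsTotallyComplex F]

omit [NumberField F] [IsTotallyComplex F] in
/-- The action of upper triangular matrices on horospherical coordinates. -/
lemma act_upMat_pnt (a : Fˣ) (b : F) (z : InfinitePlace F → ℂ) {t : InfinitePlace F → ℝ}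
    (ht : Pos t) :
    act (upMat a b) (pnt z t) = pnt (emb (a : F) * z + emb b) (sc a t) := by
  funext w
  rw [act, ← H3.mk_coord (atInf w (upMat a b) • pnt z t w), coord_upMat_smul,
    Fermat.LT.Mult.pnt, H3.coord_mk_of_pos _ (ht w)]
  rfl

/-- Invariance under a rational upper triangular matrix, on horospheres. -/
lemma IsBas.invariant_upMat {Ψ : Fn F} (hΨ : IsBas Ψ) (a : Fˣ) (b : F) (g : GA F)
    (z : InfinitePlace F → ℂ) {t : InfinitePlace F → ℝ} (ht : Pos t) :
    sl (Ψ (dgl (upMat a b) * g)) (sc a t) (emb (a : F) * z + emb b) = sl (Ψ g) t z := by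
  rw [sl, sl, ← act_upMat_pnt a b z ht, hΨ.invariant]

/-- Invariance under a rational translation, on horospheres. -/
lemma IsBas.invariant_translate {Ψ : Fn F} (hΨ : IsBas Ψ) (b : F) (g : GA F)
    (z : InfinitePlace F → ℂ) {t : InfinitePlace F → ℝ} (ht : Pos t) :
    sl (Ψ (dgl (upMat 1 b) * g)) t (z + emb b) = sl (Ψ g) t z := by
  have h := hΨ.invariant_upMat 1 b g z ht
  rwa [Fermat.LT.Mult.sc_one, Units.val_one, map_one, one_mul] at h

/-- A basic function is nice in the archimedean variables. -/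
lemma IsBas.isNice {Ψ : Fn F} (hΨ : IsBas Ψ) (g : GA F) : IsNice (Ψ g) := by
  obtain ⟨n, hn, hfix⟩ := hΨ.exists_fix g
  obtain ⟨M, hM, hMv⟩ := exists_nat_small (F := F) n hn
  refine isNice_of_per (hΨ.continuous g) hM fun t ht z l => ?_
  have h := hΨ.invariant_translate ((M : F) * (l : F)) g z ht
  have e : ∀ y, Ψ (dgl (upMat 1 ((M : F) * (l : F))) * g) y = Ψ g y := fun y =>
    hfix _ y fun v => ⟨_, by
      rw [map_mul]; exact (mul_le_of_le_one_right' (v.valuation_le_one l)).trans (hMv v), rfl⟩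
  rw [sl, sl, e] at h
  exact h

/-- The coefficient at height `t`. -/
noncomputable def Wt (Ψ : Fn F) (g : GA F) (t : InfinitePlace F → ℝ) : ℂ := wh (Ψ g) t

/-- The coefficient at the character one and unit heights. -/
noncomputable def W0 (Ψ : Fn F) (g : GA F) : ℂ := Wt Ψ g fun _ => 1

omit [NumberField F] [IsTotallyComplex F] in
/-- The heights `1` are positive. -/
lemma pos_one : Pos (fun _ : InfinitePlace F => (1 : ℝ)) := fun _ => one_pos

/-- The coefficients of a translate. -/
@[simp] lemma Wt_R (h : GA F) (Ψ : Fn F) (g : GA F) (t : InfinitePlace F → ℝ) :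
    Wt (R h Ψ) g t = Wt Ψ (g * h) t := rfl

/-- The coefficient at height one of a translate. -/
@[simp] lemma W0_R (h : GA F) (Ψ : Fn F) (g : GA F) : W0 (R h Ψ) g = W0 Ψ (g * h) := rfl

/-- The coefficients of zero vanish. -/
lemma W0_zero (g : GA F) : W0 (0 : Fn F) g = 0 := by
  rw [W0, Wt, wh]
  simp only [sl, Pi.zero_apply, zero_mul]
  exact Fermat.LT.Mult.mean_zero

/-- The coefficient is additive. -/
lemma W0_add {Ψ Φ : Fn F} (h : IsBas Ψ) (h' : IsBas Φ) (g : GA F) :
    W0 (Ψ + Φ) g = W0 Ψ g + W0 Φ g := by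
  simp only [W0, Wt, wh]
  rw [← Fermat.LT.Mult.mean_add ((h.isNice g).isPer_wh pos_one) ((h'.isNice g).isPer_wh pos_one)]
  exact congrArg mean (funext fun z => by simp [sl, add_mul])

/-- The coefficients are homogeneous. -/
lemma W0_smul {Ψ : Fn F} (c : ℂ) (h : IsBas Ψ) (g : GA F) : W0 (c • Ψ) g = c * W0 Ψ g := by
  simp only [W0, Wt, wh]
  rw [← Fermat.LT.Mult.mean_const_mul c ((h.isNice g).isPer_wh pos_one)]
  exact congrArg mean (funext fun z => by simp [sl, mul_assoc])

/-- The coefficient respects differences. -/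
lemma W0_sub {Ψ Φ : Fn F} (h : IsBas Ψ) (h' : IsBas Φ) (g : GA F) :
    W0 (Ψ - Φ) g = W0 Ψ g - W0 Φ g := by
  rw [show Ψ - Φ = Ψ + (-1 : ℂ) • Φ by rw [neg_one_smul, sub_eq_add_neg], W0_add h (h'.smul _),
    W0_smul _ h']
  ring

/-- The coefficient commutes with finite sums. -/
lemma W0_sum {ι : Type*} (s : Finset ι) {f : ι → Fn F} (h : ∀ i ∈ s, IsBas (f i)) (g : GA F) :
    W0 (∑ i ∈ s, f i) g = ∑ i ∈ s, W0 (f i) g := by
  induction s using Finset.induction_on with
  | empty => simp [W0_zero]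
  | insert i t hi ih =>
    rw [Finset.sum_insert hi, Finset.sum_insert hi, W0_add (h i (Finset.mem_insert_self i t))
      ((bas F).sum_mem fun j hj => h j (Finset.mem_insert_of_mem hj)),
      ih fun j hj => h j (Finset.mem_insert_of_mem hj)]

/-- A rational translation multiplies the coefficient by the character. -/
lemma Wt_translate {Ψ : Fn F} (hΨ : IsBas Ψ) (b : F) (g : GA F) {t : InfinitePlace F → ℝ}
    (ht : Pos t) :
    Wt Ψ (dgl (upMat 1 b) * g) t = chiF b * Wt Ψ g t := by
  rw [Wt, Wt, wh, wh, ← Fermat.LT.Mult.mean_translate ((hΨ.isNice _).isPer_wh ht) (emb b),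
    ← Fermat.LT.Mult.mean_const_mul _ ((hΨ.isNice g).isPer_wh ht)]
  congr 1
  funext z
  rw [hΨ.invariant_translate b g z ht, neg_add, Fermat.LT.Mult.chi_add, Fermat.LT.Mult.chiF]
  ring

/-- **Local translations.** A unipotent translation at one place multiplies the coefficient by the
local character. -/
theorem W0_sgl_mul {Ψ : Fn F} (hΨ : IsBas Ψ) (v : Place F) (x : F) (g : GA F) :
    W0 Ψ (sgl v (upMat 1 x) * g) = psi v x * W0 Ψ g := by
  obtain ⟨n, hn, hfix⟩ := hΨ.exists_fix g
  set E := hn.toFinset ∪ {v}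
  -- an element `b` of `F` approximating `x` at `v`, small elsewhere
  obtain ⟨N, hN⟩ := Finset.bddAbove (E.image n)
  obtain ⟨b, hb1, hb2⟩ := exists_approx E (fun u => if u = v then x else 0) N
  have hbv : v.valuation F (b - x) ≤ WithZero.exp (-(N : ℤ)) := by
    simpa using hb1 v (Finset.mem_union_right _ (Finset.mem_singleton_self v))
  have hone : WithZero.exp (-(N : ℤ)) ≤ (1 : WithZero (Multiplicative ℤ)) := exp_neg_nat_le_one N
  have hsmall : ∀ u, u ≠ v → u.valuation F b ≤ WithZero.exp (-(n u : ℤ)) := fun u hu => by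
    by_cases hE : u ∈ E
    · have h1 : n u ≤ N := hN (Finset.mem_coe.2 (Finset.mem_image_of_mem n hE))
      have := hb1 u hE
      rw [if_neg hu, sub_zero] at this
      exact this.trans (WithZero.exp_le_exp.2 (by omega))
    · simp only [E, Finset.mem_union, Set.Finite.mem_toFinset, Set.mem_ofPred_eq, not_or,
        not_not] at hE
      rw [hE.1]
      simpa using hb2 u (by simp [E, hE.1, hu])
  have hchi : chiF b = psi v x := Fermat.LT.Mult.psi_eq_chiF (hbv.trans hone) fun u hu =>
    (hsmall u hu).trans (exp_neg_nat_le_one _)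
  set f := (sgl v (upMat 1 x))⁻¹ * dgl (upMat 1 b) with hf
  have hf' : ∀ y, Ψ (f * g) y = Ψ g y := fun y => hfix f y fun u => by
    by_cases hu : u = v
    · subst hu
      refine ⟨b - x, hbv.trans (WithZero.exp_le_exp.2 ?_), ?_⟩
      · have : n u ≤ N := hN (Finset.mem_coe.2 (Finset.mem_image_of_mem n (by simp [E])))
        omega
      · simp [hf, upMat_inv, upMat_mul, sub_eq_add_neg]
    · exact ⟨b, hsmall u hu, by simp [hf, sgl_ne hu]⟩
  have e : sgl v (upMat 1 x) * (f * g) = dgl (upMat 1 b) * g := by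
    rw [hf, ← mul_assoc, mul_inv_cancel_left]
  -- left invariance by `upMat 1 b`
  have hfix' : ∀ y, Ψ (sgl v (upMat 1 x) * g) y = Ψ (dgl (upMat 1 b) * g) y := fun y => by
    obtain ⟨S, hS⟩ := hΨ.smooth
    have h1 := hΨ.invariant (upMat 1 (-b)) (sgl v (upMat 1 x) * g) y
    rw [← h1]
    have e2 : dgl (upMat 1 (-b)) * (sgl v (upMat 1 x) * g) = f⁻¹ * g := by
      rw [hf, mul_inv_rev, inv_inv, ← map_inv,
        show (upMat 1 b)⁻¹ = upMat 1 (-b) by rw [upMat_inv]; simp, mul_assoc]
    rw [e2]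
    have e3 : ∀ y', Ψ (f⁻¹ * g) y' = Ψ g y' := fun y' => hfix f⁻¹ y' fun u => by
      by_cases hu : u = v
      · subst hu
        refine ⟨x - b, ?_, ?_⟩
        · rw [Valuation.map_sub_swap]
          refine hbv.trans (WithZero.exp_le_exp.2 ?_)
          have : n u ≤ N := hN (Finset.mem_coe.2 (Finset.mem_image_of_mem n (by simp [E])))
          omega
        · simp [hf, upMat_inv, upMat_mul, sub_eq_add_neg]
      · exact ⟨-b, by rw [Valuation.map_neg]; exact hsmall u hu,
          by simp [hf, sgl_ne hu, upMat_inv]⟩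
    rw [e3]
    conv_rhs => rw [show y = act (upMat 1 b) (act (upMat 1 (-b)) y) by
      rw [← act_mul, upMat_mul]; simp [upMat_one, act_one]]
    rw [hΨ.invariant]
  rw [W0, Wt, show Ψ (sgl v (upMat 1 x) * g) = Ψ (dgl (upMat 1 b) * g) from funext hfix',
    ← Wt, Wt_translate hΨ b g pos_one, hchi]
  rfl

/-- The coefficient at `a`. -/
lemma IsBas.mean_coef {Ψ : Fn F} (hΨ : IsBas Ψ) (a : Fˣ) (g : GA F) {t : InfinitePlace F → ℝ}
    (ht : Pos t) : mean (fun z => sl (Ψ g) t z * chi (-(emb (a : F) * z)))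
      = Wt Ψ (dgl (tor a) * g) (sc a t) := by
  rw [Wt, wh, ← (Fermat.LT.Mult.mean_comp_mul ((hΨ.isNice (dgl (tor a) * g)).isPer_wh (pos_sc a ht))
    a.ne_zero).2]
  congr 1
  funext z
  have h := hΨ.invariant_upMat a 0 g z ht
  rw [map_zero, add_zero] at h
  rw [tor_apply, h]

/-- The archimedean variable splits off. -/
lemma Wt_eq {Ψ : Fn F} (hΨ : IsBas Ψ) (hb : ∃ C : ℝ, ∀ g x, ‖Ψ g x‖ ≤ C)
    (ha : ∀ g, ArchEig (Ψ g)) (g : GA F) {t : InfinitePlace F → ℝ} (ht : Pos t) :
    Wt Ψ g t = (∏ w, Fermat.LT.Mult.rho (t w)) * W0 Ψ g := by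
  obtain ⟨C, hC⟩ := hb
  exact wh_eq_rho_mul (hΨ.isNice g) (hC g) (ha g) ht

end Fermat.LTG.Mult
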