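import Fermat.Agent.LTG.Mult.Aut

/-!
# Multiplicity: coefficients at the torus determine an eigenfunction

`IsAut.eq_zero` is the injectivity, by the Hecke recursion `W0_hecke_zero` and the cuts `W0_cut`.
-/

set_option autoImplicit false
set_option linter.unusedSectionVars false
open NumberField MeasureTheory IsDedekindDomain Filter
open scoped Classical

namespace Fermat.LTG.Mult

open Fermat.LT
open Fermat.LT.Mult (Pos psi cnd pos_sc)

variable {F : Type*} [Field F] [NumberField F] [IsTotallyComplex F]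

/-- The norm of a place is nonzero. -/
lemma pnorm_ne_zero (v : Place F) : ((pnorm v : ℕ) : ℂ) ≠ 0 :=
  Nat.cast_ne_zero.2
    (Nat.pos_iff_ne_zero.1 (zero_lt_one.trans (HeightOneSpectrum.one_lt_absNorm v)))

/-- A generator of the conductor. -/
noncomputable def dl (v : Place F) : Fˣ := unif v ^ (-(cnd v : ℤ))

/-- The valuation of the generator of the conductor. -/
lemma val_dl (v : Place F) : v.valuation F (dl v : F) = WithZero.exp (cnd v : ℤ) := by
  rw [dl, val_unif_zpow, neg_neg]

/-- At places of trivial conductor the generator is `1`. -/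
lemma dl_eq_one {v : Place F} (h : cnd v = 0) : dl v = 1 := by simp [dl, h]

/-- The shell of a torus element. -/
noncomputable def sh (v : Place F) (a : Fˣ) : ℤ :=
  (cnd v : ℤ) - WithZero.log (v.valuation F (a : F))

/-- The valuation of an element in terms of its shell. -/
lemma val_eq_sh (v : Place F) (a : Fˣ) :
    v.valuation F (a : F) = WithZero.exp ((cnd v : ℤ) - sh v a) := by
  rw [sh, sub_sub_cancel, WithZero.exp_log ((v.valuation F).ne_zero_iff.2 a.ne_zero)]

/-- The generator of the conductor has shell `0`. -/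
lemma sh_dl (v : Place F) : sh v (dl v) = 0 := by
  rw [sh, val_dl, WithZero.log_exp, sub_self]

/-- Multiplying by a power of the uniformiser shifts the shell. -/
lemma sh_mul_unif (v : Place F) (a : Fˣ) (j : ℤ) : sh v (a * unif v ^ j) = sh v a + j := by
  rw [sh, sh, Units.val_mul, map_mul, WithZero.log_mul ((v.valuation F).ne_zero_iff.2 a.ne_zero)
    ((v.valuation F).ne_zero_iff.2 (Units.ne_zero _)), val_unif_zpow, WithZero.log_exp]
  ring

/-- The standard points of a finite set. -/
def Std (T : Finset (Place F)) (g : GA F) : Prop :=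
  (∀ v ∈ T, ∃ a : Fˣ, g.1 v = tor a) ∧ ∀ v ∉ T, g.1 v = tor (dl v)

/-- Moving a unipotent past a torus component. -/
lemma mul_upMat_one (g : GA F) {v : Place F} {a : Fˣ} (hg : g.1 v = tor a) (y : F) :
    g * sgl v (upMat 1 y) = sgl v (upMat 1 ((a : F) * y)) * g := by
  rw [sgl_conj, hg]
  congr 2
  rw [conj_tor_upMat]
  simp

/-- A unipotent on the right of a torus point multiplies the coefficient by a character. -/
lemma W0_mul_nball {Ψ : Fn F} (hΨ : IsBas Ψ) (g : GA F) {v : Place F} {a : Fˣ} (hg : g.1 v = tor a)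
    (y : F) : W0 Ψ (g * sgl v (upMat 1 y)) = psi v ((a : F) * y) * W0 Ψ g := by
  rw [mul_upMat_one g hg, W0_sgl_mul hΨ]

/-- A stabilising matrix on the right keeps the coefficient. -/
lemma W0_mul_stab {Ψ : Fn F} (g : GA F) {v : Place F} {h : GL (Fin 2) F} (hh : h ∈ stab v Ψ) :
    W0 Ψ (g * sgl v h) = W0 Ψ g := by rw [← W0_R, mem_stab.1 hh]

/-- Translations fixing the function kill the low shells. -/
theorem W0_eq_zero_of_nball {Ψ : Fn F} (hΨ : IsBas Ψ) {v : Place F} {m : ℤ}
    (hm : nball v m ≤ stab v Ψ) {g : GA F} {a : Fˣ} (hg : g.1 v = tor a) (ha : sh v a < m) :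
    W0 Ψ g = 0 := by
  obtain ⟨x, hx, hne⟩ := Fermat.LT.Mult.exists_psi_ne v
  have hy : v.valuation F (((a⁻¹ : Fˣ) : F) * x) ≤ WithZero.exp m := by
    refine exp_mul_le v (i := sh v a - cnd v) (le_of_eq ?_) hx (by omega)
    rw [Units.val_inv_eq_inv_val, map_inv₀, val_eq_sh, ← WithZero.exp_neg, neg_sub]
  have h := W0_mul_nball hΨ g hg (((a⁻¹ : Fˣ) : F) * x)
  rw [W0_mul_stab g (hm (upMat_mem_nball v hy)), ← mul_assoc, ← Units.val_mul, mul_inv_cancel,
    Units.val_one, one_mul] at h
  by_contra h0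
  exact hne ((mul_eq_right₀ h0).1 h.symm)

variable {T : Finset (Place F)} {lam : Place F → ℝ} {Ψ : Fn F}

/-- **The Hecke recursion** at a place outside `T`. -/
theorem W0_hecke_zero (h : IsAut T lam Ψ) {v : Place F} (hv : v ∉ T) (g : GA F)
    (h0 : W0 Ψ (upd g v (tor (dl v))) = 0) (a : Fˣ) : W0 Ψ (upd g v (tor a)) = 0 := by
  set f : Fˣ → ℂ := fun a => W0 Ψ (upd g v (tor a)) with hf
  have hmul : ∀ a b : Fˣ, upd g v (tor a) * sgl v (tor b) = upd g v (tor (a * b)) := fun a b => by
    simp [upd, mul_assoc, ← map_mul]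
  have hU := h.U0_le_stab hv
  have hn : nball v 0 ≤ stab v Ψ := (nball_zero_le_U0N v 0).trans ((U0N_zero v).le.trans hU)
  have hval : ∀ a b : Fˣ, sh v a = sh v b → f a = f b := fun a b e => by
    have hu : v.valuation F ((a⁻¹ * b : Fˣ) : F) = 1 := by
      rw [Units.val_mul, Units.val_inv_eq_inv_val, map_mul, map_inv₀, val_eq_sh v a,
        val_eq_sh v b, e, inv_mul_cancel₀ WithZero.exp_ne_zero]
    have := W0_mul_stab (upd g v (tor a)) (hU ((U0N_zero v).le (tUnits_le_U0N v 0
      ((mem_tUnits v).2 ⟨_, hu, rfl⟩))))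
    rw [← tor_apply, hmul, mul_inv_cancel_left] at this
    exact this.symm
  -- the recursion along `a`
  have hrec : ∀ a : Fˣ, 0 ≤ sh v a →
      (pnorm v : ℂ) * f (a * unif v) + f (a * (unif v)⁻¹) = (lam v : ℂ) * f a := fun a ha => by
    have e := congrArg (W0 · (upd g v (tor a))) (h.hecke v hv)
    rw [W0_smul _ h.bas, Tv_eq, W0_add ((bas F).sum_mem fun r _ => h.bas.R _) (h.bas.R _),
      W0_sum _ (fun r _ => h.bas.R _), W0_R, hmul] at e
    rw [hf]
    dsimp only
    rw [← e]
    congr 1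
    rw [Finset.sum_congr rfl fun r hr => show W0 (R (sgl v (upMat (unif v) r)) Ψ) (upd g v (tor a))
        = f (a * unif v) from ?_, Finset.sum_const, card_breps, pow_one, nsmul_eq_mul]
    have e1 : upMat (unif v) r = upMat 1 r * tor (unif v) := by rw [tor_apply, upMat_mul]; simp
    rw [W0_R, e1, map_mul, ← mul_assoc, ← W0_R (sgl v (tor (unif v))),
      W0_mul_nball (h.bas.R _) _ (upd_same g v _), W0_R, hmul]
    have hps : psi v ((a : F) * r) = 1 := by
      refine Fermat.LT.Mult.psi_of_le_cnd (exp_mul_le v (val_eq_sh v a).le (breps_le v hr) ?_)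
      simp only [Nat.cast_one]
      omega
    rw [hps, one_mul]
  -- induct on the shift
  suffices hk : ∀ (k : ℕ) (a : Fˣ), sh v a ≤ k → f a = 0 from
    hk (sh v a).toNat a (Int.self_le_toNat _)
  intro k
  induction k with
  | zero =>
    intro a ha
    rcases eq_or_lt_of_le (show sh v a ≤ 0 by exact_mod_cast ha) with e | e
    · rw [hval a (dl v) (by rw [e, sh_dl])]; exact h0
    · exact W0_eq_zero_of_nball h.bas hn (upd_same g v _) e
  | succ k ih =>
    intro a ha
    by_cases hle : sh v a ≤ k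
    · exact ih a hle
    set a' := a * (unif v)⁻¹ with ha'
    have hs : sh v a' = sh v a + (-1) := by rw [ha', ← sh_mul_unif, zpow_neg_one]
    have hs2 : sh v (a' * (unif v)⁻¹) = sh v a' + (-1) := by rw [← sh_mul_unif, zpow_neg_one]
    have e := hrec a' (by push_cast at ha; omega)
    rw [ih a' (by push_cast at ha; omega), ih (a' * (unif v)⁻¹) (by push_cast at ha; omega),
      mul_zero, add_zero, show a' * unif v = a from inv_mul_cancel_right a (unif v)] at e
    exact (mul_eq_zero.1 e).resolve_left (pnorm_ne_zero v)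

/-- Torus points at `T`, arbitrary elsewhere. -/
theorem W0_zero_of_std (h : IsAut T lam Ψ) (hW : ∀ g, Std T g → W0 Ψ g = 0) {g : GA F}
    (hg : ∀ v ∈ T, ∃ a : Fˣ, g.1 v = tor a) : W0 Ψ g = 0 := by
  -- induct on the set of places where `g` is not standard
  have key : ∀ (B : Finset (Place F)) (g : GA F), (∀ v ∈ T, ∃ a : Fˣ, g.1 v = tor a) →
      (∀ v ∉ T, v ∉ B → g.1 v = tor (dl v)) → W0 Ψ g = 0 := by
    intro B
    induction B using Finset.induction_on with
    | empty => exact fun g h1 h2 => hW g ⟨h1, fun v hv => h2 v hv (Finset.notMem_empty v)⟩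
    | insert u B hu ih =>
      intro g h1 h2
      by_cases huT : u ∈ T
      · exact ih g h1 fun v hv hvB => h2 v hv (by
          rw [Finset.mem_insert, not_or]; exact ⟨fun e => hv (by rw [e]; exact huT), hvB⟩)
      obtain ⟨a, x, hax⟩ := exists_upMat_mod_U0 (u.valuation F) (g.1 u)
      have e1 : g = upd g u (upMat a x) * sgl u ((upMat a x)⁻¹ * g.1 u) := by
        refine GA.ext' fun v => ?_
        by_cases hv : v = u
        · subst hv; simp
        · simp [upd_ne g hv, sgl_ne hv]
      have e2 : upd g u (upMat a x) = sgl u (upMat 1 x) * upd g u (tor a) := by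
        refine GA.ext' fun v => ?_
        by_cases hv : v = u
        · subst hv; simp [tor_apply, upMat_mul]
        · simp [upd_ne g hv, sgl_ne hv]
      rw [e1, W0_mul_stab _ (h.U0_le_stab huT hax), e2, W0_sgl_mul h.bas,
        W0_hecke_zero h huT g ?_ a, mul_zero]
      refine ih _ (fun v hv => ?_) fun v hv hvB => ?_
      · obtain ⟨b, hb⟩ := h1 v hv
        exact ⟨b, by rw [upd_ne g (show v ≠ u from fun e => huT (by rw [← e]; exact hv)), hb]⟩
      · by_cases hvu : v = u
        · subst hvu; exact upd_same g v _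
        · rw [upd_ne g hvu]; exact h2 v hv (by simp [hvu, hvB])
  obtain ⟨S, hS, hS1, hst⟩ := h.exists_level
  have hev : ∀ᶠ v : Place F in cofinite, g.1 v ∈ U0 (v.valuation F) ∧ cnd v = 0 :=
    Filter.Eventually.and (show ∀ᶠ v : Place F in cofinite, g.1 v ∈ U0 (v.valuation F) from g.2)
      Fermat.LT.Mult.eventually_cnd_eq_zero
  -- reduce to finitely many places
  set B := T ∪ (eventually_cofinite.1 hev).toFinset
  set g₀ := tgl B g.1
  have hB : ∀ v ∉ B, v ∉ T ∧ g.1 v ∈ U0 (v.valuation F) ∧ cnd v = 0 := fun v hv => by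
    simp only [B, Finset.mem_union, not_or, Set.Finite.mem_toFinset, Set.mem_ofPred_eq,
      not_not] at hv
    exact ⟨hv.1, hv.2⟩
  have e : Ψ g = Ψ g₀ := by
    funext x
    rw [show g = g₀ * (g₀⁻¹ * g) by rw [mul_inv_cancel_left]]
    refine hS1.mul_eq g₀ x fun v => ?_
    by_cases hv : v ∈ B
    · simp [g₀, hv, (stab v Ψ).one_mem]
    · simpa [g₀, hv] using h.U0_le_stab (hB v hv).1 (hB v hv).2.1
  rw [W0, Wt, e]
  refine key B g₀ (fun v hv => ?_) fun v hv hvB => ?_
  · obtain ⟨a, ha⟩ := hg v hv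
    exact ⟨a, by simp [g₀, B, hv, ha]⟩
  · simp [g₀, hvB, dl_eq_one (hB v hvB).2.2]

/-- **Injectivity.** An eigenfunction whose coefficients vanish at the standard points of `T` is
zero. -/
theorem IsAut.eq_zero (h : IsAut T lam Ψ) (hW : ∀ g, Std T g → W0 Ψ g = 0) : Ψ = 0 := by
  -- trivial at `T`: every Fourier coefficient vanishes
  have hb : ∀ g : GA F, (∀ v ∈ T, g.1 v = 1) → Ψ g = 0 := by
    intro g hg
    funext x
    rw [← Fermat.LT.Mult.pnt_coord x]
    set t : InfinitePlace F → ℝ := fun w => (H3.coord (x w)).2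
    have ht : Pos t := fun w => H3.coord_pos _
    refine congrFun (Fermat.LT.Mult.eq_zero_of_mean_eq_zero ((h.bas.isNice g).isPer_sl ht)
      fun a => ?_) _
    rcases eq_or_ne a 0 with rfl | ha
    · simpa using h.cuspidal g t ht
    · rw [← Units.val_mk0 ha, h.bas.mean_coef _ g ht, Wt_eq h.bas h.bounded h.arch _ (pos_sc _ ht),
        W0_zero_of_std h hW (fun v hv => ⟨Units.mk0 a ha, by simp [hg v hv]⟩), mul_zero]
  obtain ⟨S, hS, hS1, hst⟩ := h.exists_level
  funext g x
  -- in general move `g` into the level at `T` by a rational matrix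
  obtain ⟨γ, hγ⟩ : ∃ γ : GL (Fin 2) F, ∀ v ∈ T, γ * g.1 v ∈ lev S v := by
    rcases T.eq_empty_or_nonempty with rfl | ⟨v₀, hv₀⟩
    · exact ⟨1, fun v hv => absurd hv (Finset.notMem_empty v)⟩
    choose m hm using fun v : Place F => exists_entry_bound (v.valuation F) (g.1 v)
    obtain ⟨N, hN⟩ := Finset.bddAbove (T.image fun v => m v + S.depth v + 1)
    choose y hy using fun i j : Fin 2 => exists_approx T
      (fun v => ((g.1 v)⁻¹ : GL (Fin 2) F).val i j) N
    set M : Matrix (Fin 2) (Fin 2) F := Matrix.of y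
    have hnear : ∀ v ∈ T, ∀ i j, v.valuation F ((M * (g.1 v : Matrix (Fin 2) (Fin 2) F)) i j
        - (1 : Matrix (Fin 2) (Fin 2) F) i j) ≤ WithZero.exp (-((S.depth v + 1 : ℕ) : ℤ)) := by
      intro v hv i j
      have e : (M * (g.1 v : Matrix (Fin 2) (Fin 2) F)) i j - (1 : Matrix (Fin 2) (Fin 2) F) i j
          = ∑ k, (y i k - ((g.1 v)⁻¹ : GL (Fin 2) F).val i k) *
              (g.1 v : Matrix (Fin 2) (Fin 2) F) k j := by
        have h1 : ∑ k, ((g.1 v)⁻¹ : GL (Fin 2) F).val i k * (g.1 v : Matrix (Fin 2) (Fin 2) F) k j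
            = (1 : Matrix (Fin 2) (Fin 2) F) i j := by
          rw [← Matrix.mul_apply, ← Units.val_mul, inv_mul_cancel, Units.val_one]
        simp only [sub_mul, Finset.sum_sub_distrib, h1, Matrix.mul_apply, M, Matrix.of_apply]
      rw [e]
      refine (v.valuation F).map_sum_le fun k _ => exp_mul_le v ((hy i k).1 v hv) (hm v k j).1 ?_
      have : m v + S.depth v + 1 ≤ N := hN (Finset.mem_coe.2 (Finset.mem_image_of_mem _ hv))
      omega
    have hdet : M.det ≠ 0 := fun hd => by
      have hn := hnear v₀ hv₀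
      set P := M * (g.1 v₀ : Matrix (Fin 2) (Fin 2) F)
      have hP : P.det = 0 := by rw [Matrix.det_mul, hd, zero_mul]
      have hlt : ∀ i j, v₀.valuation F (P i j - (1 : Matrix (Fin 2) (Fin 2) F) i j) < 1 :=
          fun i j =>
        lt_of_le_of_lt (hn i j) (by rw [← WithZero.exp_zero, WithZero.exp_lt_exp]; omega)
      have h00 := hlt 0 0
      have h11 := hlt 1 1
      have h01 := hlt 0 1
      have h10 := hlt 1 0
      simp only [Matrix.one_apply_eq, Matrix.one_apply_ne (show (0 : Fin 2) ≠ 1 by decide),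
        Matrix.one_apply_ne (show (1 : Fin 2) ≠ 0 by decide), sub_zero] at h00 h11 h01 h10
      rw [Matrix.det_fin_two] at hP
      refine (lt_self_iff_false (1 : WithZero (Multiplicative ℤ))).1 ?_
      calc (1 : WithZero (Multiplicative ℤ))
          = v₀.valuation F ((P 0 0 - 1) * (P 1 1 - 1) +
              ((P 0 0 - 1) + (P 1 1 - 1)) - P 0 1 * P 1 0) := by
            rw [show (P 0 0 - 1) * (P 1 1 - 1) + ((P 0 0 - 1) + (P 1 1 - 1)) - P 0 1 * P 1 0
              = -1 + (P 0 0 * P 1 1 - P 0 1 * P 1 0) by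
                ring, hP, add_zero, Valuation.map_neg, map_one]
        _ < 1 := by
            refine lt_of_le_of_lt ((v₀.valuation F).map_sub _ _) (max_lt (lt_of_le_of_lt
              ((v₀.valuation F).map_add _ _)
                (max_lt ?_ (lt_of_le_of_lt ((v₀.valuation F).map_add _ _) (max_lt h00 h11)))) ?_)
            · rw [map_mul]; exact lt_of_le_of_lt (mul_le_of_le_one_right' h11.le) h00
            · rw [map_mul]; exact lt_of_le_of_lt (mul_le_of_le_one_right' h10.le) h01
    refine ⟨Matrix.GeneralLinearGroup.mkOfDetNeZero M hdet, fun v hv => ?_⟩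
    refine mem_lev_of_congN (n := S.depth v + 1) (Nat.le_succ _)
        (mem_congN_of_sub (v.valuation F) (by omega) ?_)
    intro i j
    exact hnear v hv i j
  rw [← h.bas.invariant γ g x]
  set g' := dgl γ * g
  set k := tgl T g'.1
  rw [show g' = g' * k⁻¹ * k by rw [inv_mul_cancel_right]]
  rw [hS1.mul_eq _ _ fun v => ?_, hb (g' * k⁻¹) fun v hv => by simp [k, hv]]
  · rfl
  · by_cases hv : v ∈ T
    · simpa [k, hv, g'] using hst v (hγ v hv)
    · simp [k, hv, (stab v Ψ).one_mem]

/-- Two eigenfunctions with equal coefficients at the standard points agree. -/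
theorem IsAut.ext_std {Φ : Fn F} (h : IsAut T lam Ψ) (h' : IsAut T lam Φ)
    (hW : ∀ g, Std T g → W0 Ψ g = W0 Φ g) : Ψ = Φ :=
  sub_eq_zero.1 ((h.sub h').eq_zero fun g hg => by rw [W0_sub h.bas h'.bas, hW g hg, sub_self])

/-! ### cuts -/

/-- The mean over the translations of a ball. -/
noncomputable def cut (v : Place F) (m : ℕ) (Ψ : Fn F) : Fn F :=
  ((pnorm v : ℂ) ^ m)⁻¹ • ∑ r ∈ breps v 0 m, R (sgl v (upMat 1 r)) Ψ

/-- A cut of an eigenfunction at a place of `T` is one. -/
lemma IsAut.cut {v : Place F} (h : IsAut T lam Ψ) (hv : v ∈ T) (m : ℕ) :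
    IsAut T lam (Mult.cut v m Ψ) :=
  (IsAut.sum _ fun _ _ => h.R_sgl hv _).smul _

/-- A cut keeps the stabilisers at the other places. -/
lemma stab_le_cut {u v : Place F} (huv : u ≠ v) (m : ℕ) : stab u Ψ ≤ stab u (cut v m Ψ) :=
  fun _ hh => mem_stab_smul _ (mem_stab_sum _ fun _ _ => stab_le_R (sgl_ne huv _) hh)

/-- The mean over a ball is invariant under translations by that ball. -/
lemma nball_le_cut {v : Place F} (h0 : nball v 0 ≤ stab v Ψ) (m : ℕ) :
    nball v (m : ℤ) ≤ stab v (cut v m Ψ) := by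
  rintro _ ⟨y, hy, rfl⟩
  refine mem_stab_smul _ (mem_stab.2 ?_)
  rw [map_sum]
  simp only [← R_mul, ← map_mul, upMat_mul, mul_one, Units.val_one, one_mul]
  refine sum_breps_shift v 0 m (fun r => R (sgl v (upMat 1 r)) Ψ) (fun r r' _ hrr => ?_)
    (by rwa [zero_add])
  show R (sgl v (upMat 1 r')) Ψ = R (sgl v (upMat 1 r)) Ψ
  rw [show upMat (1 : Fˣ) r' = upMat 1 r * upMat 1 (r' - r) by rw [upMat_mul]; simp, map_mul, R_mul,
    mem_stab.1 (h0 (upMat_mem_nball v hrr))]

/-- **The coefficients of a cut.** At a point in the torus at `v` the coefficient of the mean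
`cut v m Ψ` is that of `Ψ` or zero, as the shift reaches `m` or not. -/
theorem W0_cut {v : Place F} (hΨ : IsBas Ψ) (h0 : nball v 0 ≤ stab v Ψ) (m : ℕ) {g : GA F} {a : Fˣ}
    (hg : g.1 v = tor a) : W0 (cut v m Ψ) g = if (m : ℤ) ≤ sh v a then W0 Ψ g else 0 := by
  have hb : IsBas (∑ r ∈ breps v 0 m, R (sgl v (upMat 1 r)) Ψ) :=
    (bas F).sum_mem fun r _ => hΨ.R _
  split_ifs with hm
  · rw [cut, W0_smul _ hb, W0_sum _ fun r _ => hΨ.R _,
      Finset.sum_congr rfl fun r hr => show W0 (R (sgl v (upMat 1 r)) Ψ) g = W0 Ψ g from ?_,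
      Finset.sum_const, card_breps, nsmul_eq_mul, Nat.cast_pow, ← mul_assoc,
      inv_mul_cancel₀ (pow_ne_zero _ (pnorm_ne_zero v)), one_mul]
    rw [W0_R, W0_mul_nball hΨ g hg, Fermat.LT.Mult.psi_of_le_cnd ?_, one_mul]
    exact exp_mul_le v (val_eq_sh v a).le (breps_le v hr) (by omega)
  · exact W0_eq_zero_of_nball (hb.smul _) (nball_le_cut h0 m) hg (not_le.1 hm)

end Fermat.LTG.Mult
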