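import Fermat.Agent.LTG.Mult.Perp

/-!
# Multiplicity: the minimal levels and a vector of these levels at all places

`nlev` is the minimal level and `IsAut.exists_newvec` gives such a vector, place by place
(`IsAut.joint_step`).
-/

set_option autoImplicit false
open NumberField Filter
open scoped Classical

namespace Fermat.LTG.Mult

open Fermat.LT

variable {F : Type*} [Field F] [NumberField F] [IsTotallyComplex F]

/-- Shells zero almost everywhere. -/
def Adm (s : Place F → ℤ) : Prop := ∀ᶠ v : Place F in cofinite, s v = 0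

/-- The standard point with given shells. -/
noncomputable def stdPt (s : Place F → ℤ) : GA F :=
  if hs : Adm s then
    ⟨fun v => tor (dl v * unif v ^ s v), by
      change ∀ᶠ v : Place F in cofinite, tor (dl v * unif v ^ s v) ∈ U0 (v.valuation F)
      filter_upwards [hs, Fermat.LT.Mult.eventually_cnd_eq_zero (F := F)] with v h1 h2
      rw [h1, dl_eq_one h2, zpow_zero, one_mul, map_one]
      exact (U0 _).one_mem⟩
  else 1

/-- The components of a standard point. -/
lemma stdPt_apply {s : Place F → ℤ} (hs : Adm s) (v : Place F) :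
    (stdPt s).1 v = tor (dl v * unif v ^ s v) := by rw [stdPt, dif_pos hs]

omit [NumberField F] [IsTotallyComplex F] in
/-- The zero shells are admissible. -/
lemma adm_zero : Adm (fun _ : Place F => (0 : ℤ)) := Eventually.of_forall fun _ => rfl

/-- A standard point is standard outside the support of its shells. -/
lemma std_stdPt {T : Finset (Place F)} {s : Place F → ℤ} (hs : Adm s) (h0 : ∀ v ∉ T, s v = 0) :
    Std T (stdPt s) :=
  ⟨fun v _ => ⟨_, stdPt_apply hs v⟩,
    fun v hv => by rw [stdPt_apply hs, h0 v hv, zpow_zero, mul_one]⟩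

/-- A standard point has the given shells. -/
lemma sh_stdPt {s : Place F → ℤ} (hs : Adm s) {v : Place F} {a : Fˣ} (ha : (stdPt s).1 v = tor a) :
    sh v a = s v := by
  rw [stdPt_apply hs] at ha
  rw [← tor_injective ha, sh_mul_unif, sh_dl, zero_add]

/-- There is an eigenfunction invariant under `Γ₀(p ^ m)` at the place. -/
def Has (lam : Place F → ℝ) (v : Place F) (m : ℕ) : Prop :=
  ∃ (T : Finset (Place F)) (Φ : Fn F), IsAut T lam Φ ∧ Φ ≠ 0 ∧ U0N (v.valuation F) m ≤ stab v Φ

/-- The minimal level at a place. -/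
noncomputable def nlev (lam : Place F → ℝ) (v : Place F) : ℕ :=
  if h : ∃ m, Has lam v m then Nat.find h else 0

variable {T : Finset (Place F)} {lam : Place F → ℝ} {Ψ : Fn F}

/-- The minimal level is at most any level that occurs. -/
lemma nlev_le {v : Place F} {m : ℕ} (h : Has lam v m) : nlev lam v ≤ m := by
  rw [nlev, dif_pos ⟨m, h⟩]
  exact Nat.find_min' _ h

/-- The minimal level is at most the level of any nonzero eigenfunction. -/
lemma nlev_min (T' : Finset (Place F)) (Φ : Fn F) (m : ℕ) (v : Place F) (h : IsAut T' lam Φ)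
    (hne : Φ ≠ 0) (hm : U0N (v.valuation F) m ≤ stab v Φ) : nlev lam v ≤ m :=
  nlev_le ⟨T', Φ, h, hne, hm⟩

/-- Some level occurs at every place. -/
lemma IsAut.exists_has (h : IsAut T lam Ψ) (hne : Ψ ≠ 0) (v : Place F) : ∃ m, Has lam v m := by
  obtain ⟨Φ, hΦ, hΦne, ⟨K, hK⟩, -⟩ :=
    (h.mono (Finset.subset_insert v T)).exists_good (Finset.mem_insert_self v T) hne
  exact ⟨K, insert v T, Φ, (h.mono (Finset.subset_insert v T)).of_mem_transSpan hΦ, hΦne, hK⟩

/-- The minimal level occurs. -/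
lemma IsAut.has_nlev (h : IsAut T lam Ψ) (hne : Ψ ≠ 0) (v : Place F) : Has lam v (nlev lam v) := by
  rw [nlev, dif_pos (h.exists_has hne v)]
  exact Nat.find_spec _

/-- The minimal level is zero outside `T`. -/
lemma IsAut.nlev_eq_zero (h : IsAut T lam Ψ) (hne : Ψ ≠ 0) {v : Place F} (hv : v ∉ T) :
    nlev lam v = 0 :=
  Nat.le_zero.1 (nlev_le ⟨T, Ψ, h, hne, (U0N_zero v).le.trans (h.U0_le_stab hv)⟩)

/-- **One place more**: some averaged translate does not vanish. -/
theorem IsAut.joint_step (h : IsAut T lam Ψ) (hne : Ψ ≠ 0) {w : Place F} (hw : w ∈ T) :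
    ∃ Φ, IsAut T lam Φ ∧ Φ ≠ 0 ∧ U0N (w.valuation F) (nlev lam w) ≤ stab w Φ ∧
      ∀ u ≠ w, stab u Ψ ≤ stab u Φ := by
  obtain ⟨T₁, Φ₁, h1, h1ne, h1U⟩ := h.has_nlev hne w
  by_contra hcon
  set H := U0N (w.valuation F) (nlev lam w)
  have hH : H ≤ U0 (w.valuation F) := U0N_le_U0 _ _
  have hav : ∀ (g : GL (Fin 2) F) (d : ℕ) (s : Finset (GL (Fin 2) F)),
      IsReps H (UN (w.valuation F) d) s →
      UN (w.valuation F) d ≤ stab w (Mult.R (sgl w g) Ψ) →
          Mult.avgR w s (Mult.R (sgl w g) Ψ) = 0 := by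
    intro g d s hs hd
    by_contra hne'
    exact hcon ⟨_, (h.R_sgl hw g).avgR hw s, hne', le_stab_avgR hs hd,
      fun u hu => (stab_le_R (sgl_ne hu g)).trans (stab_le_avgR hu s)⟩
  set T' := T ∪ T₁
  have hA := h1.mono (T' := T') Finset.subset_union_right
  have hB := h.mono (T' := T') Finset.subset_union_left
  have hw' : w ∈ T' := Finset.mem_union_left _ hw
  -- otherwise all translates are orthogonal to `Φ₁`
  have hperp : ∀ c : GA F, (∀ v ∉ T', c.1 v = 1) → Perp Φ₁ (Mult.R c Ψ) := by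
    intro c hc
    obtain ⟨S, -, -, hst⟩ := (hB.R hc).exists_level
    obtain ⟨s, hs⟩ := exists_isReps w hH (S.depth w)
    obtain ⟨r, ⟨hr, -⟩, -⟩ := hs.2 1 H.one_mem
    refine perp_of_avgR hA (hB.R hc) hw' hH h1U hs.1 ⟨r, hr⟩ ?_
    set c' := (sgl w (c.1 w))⁻¹ * c with hc'
    have hc'w : c'.1 w = 1 := by simp [hc']
    have e : c = c' * sgl w (c.1 w) := by
      rw [← commute_sgl hc'w, hc', mul_inv_cancel_left]
    have hz : Mult.avgR w s (Mult.R (sgl w (c.1 w)) Ψ) = 0 := by
      refine hav _ _ s hs ?_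
      have h2 := (hst w).trans (stab_le_R (v := w) (k := c'⁻¹) (Ψ := Mult.R c Ψ) (by simp [hc'w]))
      rwa [← R_mul, show c'⁻¹ * c = sgl w (c.1 w) by rw [inv_mul_eq_iff_eq_mul]; exact e] at h2
    have e2 : Mult.avgR w s (Mult.R c Ψ) =
        Mult.R c' (Mult.avgR w s (Mult.R (sgl w (c.1 w)) Ψ)) := by
      rw [Mult.avgR, Mult.avgR, map_sum]
      refine Finset.sum_congr rfl fun k _ => ?_
      rw [← R_mul, ← R_mul, ← R_mul, ← commute_sgl hc'w k, mul_assoc, ← e]
    rw [e2, hz, map_zero]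
    intro S' _ _
    simp [ip, desc]
  -- but then a nonzero form is orthogonal to itself
  obtain ⟨δ, hδ, hδW⟩ := hA.exists_delta h1ne
  obtain ⟨δ', hδ', hδW'⟩ := hB.exists_delta hne
  have heq : δ' = δ := (hB.of_mem_transSpan hδ').ext_std (hA.of_mem_transSpan hδ) fun g hg => by
    rw [hδW g hg, hδW' g hg]
  have hp : Perp δ δ' := perp_of_spans hA hB (fun a b ha hb => by
    have h3 := (hperp (a⁻¹ * b) fun v hv => by simp [ha v hv, hb v hv]).R hA.bas (hB.bas.R _) a
    rwa [← R_mul, mul_inv_cancel_left] at h3) hδ hδ'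
  rw [heq] at hp
  have h0 := hδW (stdPt fun _ => 0) (std_stdPt adm_zero fun _ _ => rfl)
  rw [eq_zero_of_perp_self (hA.of_mem_transSpan hδ) hp, W0_zero,
    if_pos (fun v _ a ha => sh_stdPt adm_zero ha)] at h0
  exact zero_ne_one h0

/-- **A vector of minimal level at every place.** -/
theorem IsAut.exists_newvec (h : IsAut T lam Ψ) (hne : Ψ ≠ 0) :
    ∃ φ, IsAut T lam φ ∧ φ ≠ 0 ∧ ∀ v, U0N (v.valuation F) (nlev lam v) ≤ stab v φ := by
  suffices H : ∀ B ⊆ T, ∃ φ, IsAut T lam φ ∧ φ ≠ 0 ∧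
      ∀ v ∈ B, U0N (v.valuation F) (nlev lam v) ≤ stab v φ by
    obtain ⟨φ, h1, h2, h3⟩ := H T subset_rfl
    refine ⟨φ, h1, h2, fun v => ?_⟩
    by_cases hv : v ∈ T
    · exact h3 v hv
    · exact (U0N_le_U0 _ _).trans (h1.U0_le_stab hv)
  intro B
  induction B using Finset.induction_on with
  | empty => exact fun _ => ⟨Ψ, h, hne, fun v hv => absurd hv (Finset.notMem_empty v)⟩
  | insert w B hw ih =>
    intro hB
    obtain ⟨φ, h1, h2, h3⟩ := ih fun u hu => hB (Finset.mem_insert_of_mem hu)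
    obtain ⟨φ', g1, g2, g3, g4⟩ := h1.joint_step h2 (hB (Finset.mem_insert_self w B))
    refine ⟨φ', g1, g2, fun u hu => ?_⟩
    rcases Finset.mem_insert.1 hu with rfl | hu
    · exact g3
    · exact (h3 u hu).trans (g4 u fun e => hw (by rw [← e]; exact hu))

end Fermat.LTG.Mult
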