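import Fermat.Agent.LTG.Mult.Inj

/-!
# Multiplicity: lowering the level, functions with unit shell, the box

`IsAut.exists_good` gives a level `Γ₀` at a place, `IsAut.exists_delta` gives the function with
unit shell and `box_eq_zero` detects by the box.
-/

set_option autoImplicit false
set_option linter.unusedSectionVars false
open NumberField Filter
open scoped Classical

namespace Fermat.LTG.Mult

open Fermat.LT
open Fermat.LT.Mult (psi cnd)

variable {F : Type*} [Field F] [NumberField F] [IsTotallyComplex F]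

variable {T : Finset (Place F)} {lam : Place F → ℝ} {Ψ : Fn F} {v : Place F}

/-- `tor` is injective. -/
lemma tor_injective : Function.Injective (tor : Fˣ → GL (Fin 2) F) := fun a b e => by
  have := congrArg (fun g : GL (Fin 2) F => (g : Matrix (Fin 2) (Fin 2) F) 0 0) e
  simpa [tor_apply, Units.val_inj] using this

/-- A small upper unipotent matrix lies in the congruence group. -/
lemma upMat_mem_UN (v : Place F) {n : ℕ} {x : F} (hx : v.valuation F x ≤ WithZero.exp (-(n : ℤ))) :
    upMat (1 : Fˣ) x ∈ UN (v.valuation F) n := by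
  refine mem_UN_of_congN _ (mem_congN_of_le _ (fun i j => ?_) fun i j => ?_)
  · fin_cases i <;> fin_cases j <;> simp [-WithZero.exp_neg]; exact hx
  · rw [upMat_inv]
    fin_cases i <;> fin_cases j <;> simp [Valuation.map_neg, -WithZero.exp_neg]; exact hx

/-- A point with torus components, moved by the torus at one place. -/
lemma Std.mul_sgl {g : GA F} (hg : Std T g) (hv : v ∈ T) (b : Fˣ) : Std T (g * sgl v (tor b)) := by
  refine ⟨fun u hu => ?_, fun u hu => ?_⟩
  · obtain ⟨a, ha⟩ := hg.1 u hu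
    by_cases e : u = v
    · subst e; exact ⟨a * b, by simp [ha]⟩
    · exact ⟨a, by simp [ha, sgl_ne e]⟩
  · have e : u ≠ v := fun e => hu (by rw [e]; exact hv)
    simp [hg.2 u hu, sgl_ne e]

/-- The sum over representatives. -/
noncomputable def avgR (v : Place F) (s : Finset (GL (Fin 2) F)) (Ψ : Fn F) : Fn F :=
  ∑ h ∈ s, R (sgl v h) Ψ

/-- A sum over representatives is automorphic. -/
lemma IsAut.avgR (h : IsAut T lam Ψ) (hv : v ∈ T) (s : Finset (GL (Fin 2) F)) :
    IsAut T lam (Mult.avgR v s Ψ) := IsAut.sum _ fun _ _ => h.R_sgl hv _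

/-- A sum over representatives is fixed by the larger group. -/
lemma le_stab_avgR {H K : Subgroup (GL (Fin 2) F)} {s : Finset (GL (Fin 2) F)} (hs : IsReps H K s)
    (hK : K ≤ stab v Ψ) : H ≤ stab v (avgR v s Ψ) := fun k hk => by
  rw [mem_stab, avgR, map_sum]
  simp only [← R_mul, ← map_mul]
  exact hs.sum_mul (fun h => R (sgl v h) Ψ)
    (fun h _ k' hk' => show R (sgl v (h * k')) Ψ = R (sgl v h) Ψ by
      rw [map_mul, R_mul, mem_stab.1 (hK hk')]) hk

/-- The sum over representatives at `v` keeps the stabilisers elsewhere. -/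
lemma stab_le_avgR {u : Place F} (huv : u ≠ v) (s : Finset (GL (Fin 2) F)) :
    stab u Ψ ≤ stab u (avgR v s Ψ) :=
  fun _ hh => mem_stab_sum _ fun _ _ => stab_le_R (sgl_ne huv _) hh

/-! ### lowering -/

/-- At level zero nothing is left. -/
theorem IsAut.eq_zero_of_lower (h : IsAut T lam Ψ) (hv : v ∈ T)
    (hU : U0N (v.valuation F) 0 ≤ stab v Ψ) (hn : nball v 1 ≤ stab v Ψ) : Ψ = 0 := by
  refine h.eq_zero fun g hg => ?_
  obtain ⟨a, ha⟩ := hg.1 v hv
  refine W0_eq_zero_of_nball h.bas (m := sh v a + 1) ?_ ha (by omega)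
  rintro _ ⟨x, -, rfl⟩
  exact all_upMat_mem v ((U0N_zero v).ge.trans hU) hn x

/-- A translate by the uniformiser of a function of level `M + 1` fixed by `nball v 1` has level
`M`. -/
theorem lower_succ {M : ℕ} (hU : U0N (v.valuation F) (M + 1) ≤ stab v Ψ)
    (hn : nball v 1 ≤ stab v Ψ) :
    U0N (v.valuation F) M ≤ stab v (R (sgl v (tor (unif v))) Ψ) := fun k hk => by
  refine mem_stab_R ?_
  rw [sgl_same]
  exact lower_step v hU hn hk

/-! ### the box -/

/-- **Coefficients in the box determine the function.** -/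
theorem box_eq_zero (n : Place F → ℕ)
    (hmin : ∀ (T' : Finset (Place F)) (Φ : Fn F) (m : ℕ) (v : Place F), IsAut T' lam Φ → Φ ≠ 0 →
      U0N (v.valuation F) m ≤ stab v Φ → n v ≤ m)
    (B : Finset (Place F)) : B ⊆ T → ∀ (N : Place F → ℕ) (Ψ : Fn F), IsAut T lam Ψ →
      (∀ v ∈ B, U0N (v.valuation F) (N v) ≤ stab v Ψ) →
      (∀ g, Std T g → (∀ v ∈ B, ∀ a : Fˣ, g.1 v = tor a → sh v a ≤ (N v : ℤ) - n v) → W0 Ψ g = 0) →
      Ψ = 0 := by
  induction B using Finset.induction_on with
  | empty => exact fun _ N Ψ h _ hW =>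
               h.eq_zero fun g hg => hW g hg fun v hv => absurd hv (Finset.notMem_empty v)
  | insert w B hw ih =>
    intro hBT
    have hwT : w ∈ T := hBT (Finset.mem_insert_self w B)
    have hB : B ⊆ T := fun u hu => hBT (Finset.mem_insert_of_mem hu)
    -- induction on the level at `w`
    suffices H : ∀ (k : ℕ) (N : Place F → ℕ) (Ψ : Fn F), N w = k → IsAut T lam Ψ →
        (∀ v ∈ insert w B, U0N (v.valuation F) (N v) ≤ stab v Ψ) →
        (∀ g, Std T g → (∀ v ∈ insert w B, ∀ a : Fˣ, g.1 v = tor a → sh v a ≤ (N v : ℤ) - n v) →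
          W0 Ψ g = 0) → Ψ = 0 from fun N Ψ => H (N w) N Ψ rfl
    intro k
    induction k using Nat.strong_induction_on with
    | _ k ihk =>
      intro N Ψ hk h hU hW
      by_contra hne
      have hnN : n w ≤ N w := hmin T Ψ (N w) w h hne (hU w (Finset.mem_insert_self w B))
      have hn0 : nball w 0 ≤ stab w Ψ :=
        (nball_zero_le_U0N w _).trans (hU w (Finset.mem_insert_self w B))
      -- the lowest shells vanish by induction on `B`, so `Ψ` descends one level
      have hG : Ψ - Mult.cut w 1 Ψ = 0 := by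
        refine ih hB N _ (h.sub (h.cut hwT 1)) (fun u hu => ?_) fun g hg hg' => ?_
        · have hne : u ≠ w := fun e => hw (by rw [← e]; exact hu)
          exact fun x hx => mem_stab_sub (hU u (Finset.mem_insert_of_mem hu) hx)
            (stab_le_cut hne 1 (hU u (Finset.mem_insert_of_mem hu) hx))
        · obtain ⟨a, ha⟩ := hg.1 w hwT
          rw [W0_sub h.bas (h.cut hwT 1).bas, W0_cut h.bas hn0 1 ha]
          split_ifs with h1
          · rw [sub_self]
          · rw [sub_zero]
            refine hW g hg fun u hu b hb => ?_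
            rcases Finset.mem_insert.1 hu with rfl | hu
            · rw [tor_injective (hb.symm.trans ha)]
              omega
            · exact hg' u hu b hb
      have hn1 : nball w 1 ≤ stab w Ψ := by
        have h1 := nball_le_cut hn0 1
        rw [← sub_eq_zero.1 hG] at h1
        exact_mod_cast h1
      -- so the level at `w` goes down by one
      rcases Nat.eq_zero_or_eq_sub_one_add_one (n := k) with h0 | h0
      · exact hne (h.eq_zero_of_lower hwT (by
          have := hU w (Finset.mem_insert_self w B)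
          rwa [hk, h0] at this) hn1)
      -- translate to level `k - 1`
      · refine R_ne_zero (sgl w (tor (unif w))) hne ?_
        refine ihk (k - 1) (by omega) (Function.update N w (k - 1)) _ (Function.update_self ..)
          (h.R_sgl hwT _) (fun u hu => ?_) fun g hg hg' => ?_
        · rcases Finset.mem_insert.1 hu with rfl | hu
          · rw [Function.update_self]
            refine lower_succ ?_ hn1
            have := hU u (Finset.mem_insert_self u B)
            rwa [hk, h0] at this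
          · have hne : u ≠ w := fun e => hw (by rw [← e]; exact hu)
            rw [Function.update_of_ne hne]
            exact (hU u (Finset.mem_insert_of_mem hu)).trans (stab_le_R (sgl_ne hne _))
        · rw [W0_R]
          refine hW _ (hg.mul_sgl hwT _) fun u hu b hb => ?_
          rcases Finset.mem_insert.1 hu with rfl | hu
          · obtain ⟨a, ha⟩ := hg.1 u hwT
            rw [GA.mul_apply, sgl_same, ha, ← map_mul] at hb
            have := hg' u (Finset.mem_insert_self u B) a ha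
            rw [← tor_injective hb, show (unif u : Fˣ) = unif u ^ (1 : ℤ) from (zpow_one _).symm,
              sh_mul_unif]
            rw [Function.update_self] at this
            omega
          · have hne : u ≠ w := fun e => hw (by rw [← e]; exact hu)
            rw [GA.mul_apply, sgl_ne hne, mul_one] at hb
            have := hg' u (Finset.mem_insert_of_mem hu) b hb
            rwa [Function.update_of_ne hne] at this

/-! ### spans of translates -/

/-- The span of the translates at the exceptional places. -/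
noncomputable def transSpan (T : Finset (Place F)) (Ψ : Fn F) : Submodule ℂ (Fn F) :=
  Submodule.span ℂ (Set.range fun k : {k : GA F // ∀ v ∉ T, k.1 v = 1} => R k.1 Ψ)

/-- A function lies in the span of its translates. -/
lemma mem_transSpan_self : Ψ ∈ transSpan T Ψ :=
  Submodule.subset_span ⟨⟨1, fun _ _ => rfl⟩, R_one Ψ⟩

/-- The span is stable under translation at the exceptional places. -/
lemma R_mem_transSpan {k : GA F} (hk : ∀ v ∉ T, k.1 v = 1) {Φ : Fn F} (hΦ : Φ ∈ transSpan T Ψ) :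
    R k Φ ∈ transSpan T Ψ := by
  induction hΦ using Submodule.span_induction with
  | mem x hx =>
    obtain ⟨⟨l, hl⟩, rfl⟩ := hx
    exact Submodule.subset_span
      ⟨⟨k * l, fun v hv => by simp [hk v hv, hl v hv]⟩, R_mul k l Ψ⟩
  | zero => rw [map_zero]; exact zero_mem _
  | add x y _ _ hx hy => rw [map_add]; exact add_mem hx hy
  | smul c x _ hx => rw [map_smul]; exact Submodule.smul_mem _ _ hx

/-- An element concentrated at a place of `T` is trivial off `T`. -/
lemma sgl_off (hv : v ∈ T) (h : GL (Fin 2) F) : ∀ u ∉ T, (sgl v h).1 u = 1 := fun _ hu =>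
  sgl_ne (fun e => hu (by rw [e]; exact hv)) h

/-- Functions in the span are automorphic. -/
lemma IsAut.of_mem_transSpan (h : IsAut T lam Ψ) {Φ : Fn F} (hΦ : Φ ∈ transSpan T Ψ) :
    IsAut T lam Φ :=
  (Submodule.span_le.2 (fun _ ⟨⟨_, hk⟩, e⟩ => e ▸ h.R hk) : transSpan T Ψ ≤ aut T lam) hΦ

/-- A unit of the torus in a congruence group is close to `1`. -/
lemma unit_near (v : Place F) {K : ℕ} (hK : 1 ≤ K) {u : Fˣ} (hu : tor u ∈ UN (v.valuation F) K) :
    v.valuation F ((u : F) - 1) ≤ WithZero.exp (-(K : ℤ)) := by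
  obtain ⟨c, -, hc⟩ := hu
  have e00 := hc 0 0
  have e11 := hc 1 1
  simp only [Units.val_mul, scal_coe, tor_apply, coe_upMat, Matrix.scalar_apply,
    Matrix.diagonal_mul,
    Matrix.one_apply_eq, Matrix.of_apply, Matrix.cons_val', Matrix.cons_val_zero,
      Matrix.cons_val_one,
    Matrix.cons_val_fin_one, mul_one] at e00 e11
  have hc1 : v.valuation F (c : F) = 1 := by
    rw [show (c : F) = 1 + ((c : F) - 1) by ring]
    exact (v.valuation F).map_one_add_of_lt (lt_of_le_of_lt e11 (by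
      rw [← WithZero.exp_zero, WithZero.exp_lt_exp]; omega))
  calc v.valuation F ((u : F) - 1) = v.valuation F ((c : F) * ((u : F) - 1)) := by
        rw [map_mul, hc1, one_mul]
    _ ≤ _ := by
        rw [show (c : F) * ((u : F) - 1) = ((c : F) * u - 1) - ((c : F) - 1) by ring]
        exact ((v.valuation F).map_sub _ _).trans (max_le e00 e11)

/-- When the additive character is trivial on the representatives its sum over them is their
number. -/
lemma sum_psi_breps_of_le (M : ℕ) {D : F}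
    (hD : v.valuation F D ≤ WithZero.exp ((cnd v : ℤ) - M)) :
    ∑ r ∈ breps v 0 M, psi v (D * r) = (pnorm v : ℂ) ^ M := by
  rw [Finset.sum_congr rfl fun r hr => show psi v (D * r) = 1 from
      Fermat.LT.Mult.psi_of_le_cnd (exp_mul_le v hD (breps_le v hr) (by omega)),
    Finset.sum_const, card_breps, nsmul_eq_mul, mul_one, Nat.cast_pow]

/-- A nontrivial character sums to zero over representatives. -/
lemma sum_psi_breps_of_lt (M : ℕ) {D : F} (hD : v.valuation F D ≤ WithZero.exp (cnd v : ℤ))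
    (hD' : WithZero.exp ((cnd v : ℤ) - M) < v.valuation F D) :
    ∑ r ∈ breps v 0 M, psi v (D * r) = 0 := by
  have hD0 : D ≠ 0 := fun e => absurd hD' (by rw [e, map_zero]; exact not_lt.2 zero_le)
  obtain ⟨x, hx, hne⟩ := Fermat.LT.Mult.exists_psi_ne v
  obtain ⟨l, hl⟩ : ∃ l : ℤ, v.valuation F D = WithZero.exp l :=
    ⟨_, (WithZero.exp_log ((v.valuation F).ne_zero_iff.2 hD0)).symm⟩
  rw [hl, WithZero.exp_lt_exp] at hD'
  have hy : v.valuation F (D⁻¹ * x) ≤ WithZero.exp (M : ℤ) :=
    exp_mul_le v (i := -l) (by rw [map_inv₀, hl, ← WithZero.exp_neg]) hx (by omega)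
  have hsum := sum_breps_shift v 0 M (fun r => psi v (D * r)) (fun r r' _ hrr => ?_)
    (y := D⁻¹ * x) (by rwa [zero_add])
  · simp only [mul_add, Fermat.LT.Mult.psi_add, mul_inv_cancel_left₀ hD0,
      ← Finset.sum_mul] at hsum
    by_contra hh
    exact hne ((mul_eq_left₀ hh).1 hsum)
  · show psi v (D * r') = psi v (D * r)
    rw [show D * r' = D * r + D * (r' - r) by ring, Fermat.LT.Mult.psi_add,
      Fermat.LT.Mult.psi_of_le_cnd (exp_mul_le v hD hrr (by omega)), mul_one]

/-- The coefficient of a function projected by the character of `a₀`, moved by a unit `u`. -/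
lemma W0_R_proj (h : IsBas Ψ) {d₁ : ℕ} (hst₁ : UN (v.valuation F) d₁ ≤ stab v Ψ) {g₀ : GA F}
    {a₀ u : Fˣ} (ha₀ : g₀.1 v = tor a₀) (hsh₀ : 0 ≤ sh v a₀) (hu : v.valuation F (u : F) = 1) :
    W0 (Mult.R (sgl v (tor u)) (∑ r ∈ breps v 0 ((sh v a₀).toNat + d₁),
        psi v (-((a₀ : F) * r)) • Mult.R (sgl v (upMat 1 r)) Ψ)) g₀
      = if v.valuation F ((u : F) - 1) ≤ WithZero.exp (-(d₁ : ℤ)) then
          (pnorm v : ℂ) ^ ((sh v a₀).toNat + d₁) * W0 Ψ g₀ else 0 := by
  set M := (sh v a₀).toNat + d₁ with hM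
  set Ψ₂ := ∑ r ∈ breps v 0 M, psi v (-((a₀ : F) * r)) • Mult.R (sgl v (upMat 1 r)) Ψ
  set g := g₀ * sgl v (tor u)
  have hgv : g.1 v = tor (a₀ * u) := by simp [g, ha₀]
  set D : F := ((a₀ * u : Fˣ) : F) - a₀ with hD
  -- the sum becomes a character sum times `W0 Ψ g`
  have hW : W0 (Mult.R (sgl v (tor u)) Ψ₂) g₀ = (∑ r ∈ breps v 0 M, psi v (D * r)) * W0 Ψ g := by
    change W0 Ψ₂ g = _
    rw [W0_sum _ fun r _ => (h.R _).smul _, Finset.sum_mul]
    refine Finset.sum_congr rfl fun r _ => ?_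
    rw [W0_smul _ (h.R _), W0_R, W0_mul_nball h g hgv, ← mul_assoc,
      ← Fermat.LT.Mult.psi_add]
    congr 2
    rw [hD]; ring
  rw [hW]
  -- the valuation of `D` measures `u - 1`
  have hDv : v.valuation F D =
      WithZero.exp ((cnd v : ℤ) - sh v a₀) * v.valuation F ((u : F) - 1) := by
    rw [← val_eq_sh v a₀, ← map_mul, hD, Units.val_mul]
    congr 1; ring
  split_ifs with hsmall
  -- near one the character is trivial and `tor u` fixes `Ψ`
  · rw [sum_psi_breps_of_le M (by
      rw [hDv]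
      exact (mul_le_mul' le_rfl hsmall).trans (by
        rw [← WithZero.exp_add, WithZero.exp_le_exp]; omega))]
    congr 1
    refine W0_mul_stab g₀ (hst₁ ?_)
    by_cases hd : d₁ = 0
    · rw [hd, UN_zero]
      exact U0N_le_U0 _ 0 (tUnits_le_U0N v 0 ((mem_tUnits v).2 ⟨u, hu, rfl⟩))
    · refine mem_UN_of_congN _
        (mem_congN_of_sub (v.valuation F) (Nat.one_le_iff_ne_zero.2 hd) fun i j => ?_)
      fin_cases i <;> fin_cases j <;> simp [tor_apply, -WithZero.exp_neg]
      exact hsmall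
  -- otherwise the character sum vanishes
  · rw [sum_psi_breps_of_lt M ?_ ?_, zero_mul]
    · rw [hDv]
      refine (mul_le_of_le_one_right' ((Valuation.map_sub _ _ _).trans
        (max_le hu.le (by simp)))).trans (WithZero.exp_le_exp.2 (by omega))
    · have e : (cnd v : ℤ) - M = ((cnd v : ℤ) - sh v a₀) + -(d₁ : ℤ) := by omega
      rw [hDv, e, WithZero.exp_add]
      exact mul_lt_mul_of_pos_left (not_le.1 hsmall) (zero_lt_iff.2 WithZero.exp_ne_zero)

/-- **Some combination of translates has a level `Γ₀` at `v`**, and elsewhere at least that of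
`Ψ`. -/
theorem IsAut.exists_good (h : IsAut T lam Ψ) (hv : v ∈ T) (hne : Ψ ≠ 0) :
    ∃ Φ ∈ transSpan T Ψ, Φ ≠ 0 ∧ (∃ K, U0N (v.valuation F) K ≤ stab v Φ) ∧
      ∀ u ≠ v, stab u Ψ ≤ stab u Φ := by
  obtain ⟨S, -, -, hst⟩ := h.exists_level
  -- translate so that the integral unipotents fix it
  set t := sgl v (tor (unif v ^ (-(S.depth v : ℤ))))
  set Ψ₁ := Mult.R t Ψ
  have h1 : IsAut T lam Ψ₁ := h.R_sgl hv _
  have hn1 : nball v 0 ≤ stab v Ψ₁ := by
    rintro _ ⟨x, hx, rfl⟩
    refine mem_stab_R ?_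
    rw [sgl_same, conj_tor_upMat]
    refine hst v (upMat_mem_UN v ?_)
    rw [map_div₀, val_unif_zpow, neg_neg, div_le_iff₀ (zero_lt_iff.2 WithZero.exp_ne_zero),
      ← WithZero.exp_add]
    exact hx.trans (WithZero.exp_le_exp.2 (by omega))
  obtain ⟨g₀, hg₀, hW₀⟩ : ∃ g, Std T g ∧ W0 Ψ₁ g ≠ 0 := by
    by_contra hh
    push Not at hh
    exact R_ne_zero t hne (h1.eq_zero hh)
  obtain ⟨a₀, ha₀⟩ := hg₀.1 v hv
  have hsh₀ : 0 ≤ sh v a₀ := by
    by_contra hh
    exact hW₀ (W0_eq_zero_of_nball h1.bas hn1 ha₀ (by omega))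
  obtain ⟨S₁, -, -, hst₁⟩ := h1.exists_level
  set d₁ := S₁.depth v
  -- project by characters of the unipotents, then average over the unit torus
  set M := (sh v a₀).toNat + d₁
  set Ψ₂ := ∑ r ∈ breps v 0 M, psi v (-((a₀ : F) * r)) • Mult.R (sgl v (upMat 1 r)) Ψ₁
  have hmem₂ : Ψ₂ ∈ transSpan T Ψ := Submodule.sum_mem _ fun r _ => Submodule.smul_mem _ _
    (R_mem_transSpan (sgl_off hv _) (R_mem_transSpan (sgl_off hv _) mem_transSpan_self))
  have h2 : IsAut T lam Ψ₂ := h.of_mem_transSpan hmem₂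
  have hn2 : nball v 0 ≤ stab v Ψ₂ := fun k hk => mem_stab_sum _ fun r _ =>
      mem_stab_smul _ (mem_stab_R (by
    obtain ⟨x, hx, rfl⟩ := hk
    rw [sgl_same, upMat_inv, upMat_mul, upMat_mul]
    refine hn1 ⟨x, hx, ?_⟩
    simp))
  obtain ⟨S₂, -, -, hst₂⟩ := h2.exists_level
  set K := max (max d₁ (S₂.depth v)) 1
  obtain ⟨s, hs⟩ := exists_isReps v ((tUnits_le_U0N v 0).trans (U0N_le_U0 _ 0)) K
  have hK2 : UN (v.valuation F) K ≤ stab v Ψ₂ :=
    (UN_anti _ ((le_max_right _ _).trans (le_max_left _ _))).trans (hst₂ v)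
  refine ⟨Mult.avgR v s Ψ₂, Submodule.sum_mem _ fun k _ =>
    R_mem_transSpan (sgl_off hv _) hmem₂, ?_, ⟨K, ?_⟩, fun u hu => ?_⟩
  swap
  · have hU : ∀ k ∈ s, k ∈ U0 (v.valuation F) := fun k hk =>
      (tUnits_le_U0N v 0).trans (U0N_le_U0 _ 0) (hs.1 k hk)
    refine U0N_le_of v (le_max_right _ _) (fun c => mem_stab_sum _ fun k _ => mem_stab_R ?_) ?_
      (le_stab_avgR hs hK2) fun k' hk' => mem_stab_sum _ fun k hk => mem_stab_R ?_
    · rw [sgl_same, mul_assoc, scal_comm, inv_mul_cancel_left]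
      exact hK2 (scal_mem_UN _ _ c)
    · rintro _ ⟨x, hx, rfl⟩
      refine mem_stab_sum _ fun k hk => mem_stab_R ?_
      obtain ⟨a, ha, rfl⟩ := (mem_tUnits v).1 (hs.1 k hk)
      rw [sgl_same, ← tor_apply, conj_tor_upMat]
      refine hn2 (upMat_mem_nball v ?_)
      rwa [map_div₀, ha, div_one]
    · rw [sgl_same]
      exact hK2 (conj_UN_mem _ (hU k hk) (mem_UN_of_congN _ hk'))
  swap
  · refine le_trans (fun x hx => ?_) (stab_le_avgR hu s)
    exact mem_stab_sum _ fun r _ =>
      mem_stab_smul _ (stab_le_R (sgl_ne hu _) (stab_le_R (sgl_ne hu _) hx))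
  -- nonvanishing
  intro hzero
  have key : ∀ k ∈ s, ∃ u : Fˣ, v.valuation F (u : F) = 1 ∧ k = tor u ∧ W0 (Mult.R (sgl v k) Ψ₂) g₀
      = if v.valuation F ((u : F) - 1) ≤ WithZero.exp (-(d₁ : ℤ)) then
          (pnorm v : ℂ) ^ M * W0 Ψ₁ g₀ else 0 := fun k hk => by
    obtain ⟨u, hu, rfl⟩ := (mem_tUnits v).1 (hs.1 k hk)
    exact ⟨u, hu, rfl, W0_R_proj h1.bas (hst₁ v) ha₀ hsh₀ hu⟩
  choose uu huu huk hval using key
  have h0 := congrArg (W0 · g₀) hzero
  rw [Mult.avgR, W0_zero, W0_sum _ fun k _ => h2.bas.R _, ← Finset.sum_attach,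
    Finset.sum_congr rfl fun k _ => hval k.1 k.2, ← Finset.sum_filter,
      Finset.sum_const, nsmul_eq_mul,
    mul_eq_zero, Nat.cast_eq_zero, Finset.card_eq_zero, mul_eq_zero] at h0
  rcases h0 with h0 | h0 | h0
  · obtain ⟨k, ⟨hk, hk1⟩, -⟩ := hs.2 1 (one_mem _)
    have := Finset.filter_eq_empty_iff.1 h0 (x := ⟨k, hk⟩) (Finset.mem_attach _ _)
    refine this ((unit_near v (K := K) (le_max_right _ _) (u := uu k hk) ?_).trans
      (WithZero.exp_le_exp.2 ?_))
    · rw [← huk k hk]; simpa using hk1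
    · have : d₁ ≤ K := (le_max_left _ _).trans (le_max_left _ _)
      omega
  · exact pow_ne_zero _ (pnorm_ne_zero v) h0
  · exact hW₀ h0

/-- Coefficients of a function invariant under units depend on the shells only. -/
theorem W0_eq_of_shell (h : IsAut T lam Ψ) (hu : ∀ v ∈ T, tUnits v ≤ stab v Ψ) {g g' : GA F}
    (hg : Std T g) (hg' : Std T g')
    (he : ∀ v ∈ T, ∀ a a' : Fˣ, g.1 v = tor a → g'.1 v = tor a' → sh v a = sh v a') :
    W0 Ψ g' = W0 Ψ g := by
  obtain ⟨S, -, hS, -⟩ := h.exists_level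
  rw [W0, W0, Wt, Wt, show Ψ g' = Ψ g from funext fun x => ?_]
  rw [show g' = g * (g⁻¹ * g') by rw [mul_inv_cancel_left]]
  refine hS.mul_eq g x fun v => ?_
  by_cases hv : v ∈ T
  · obtain ⟨a, ha⟩ := hg.1 v hv
    obtain ⟨a', ha'⟩ := hg'.1 v hv
    refine hu v hv ((mem_tUnits v).2 ⟨a⁻¹ * a', ?_, by simp [ha, ha', ← tor_apply]⟩)
    rw [Units.val_mul, Units.val_inv_eq_inv_val, map_mul, map_inv₀, val_eq_sh v a, val_eq_sh v a',
      he v hv a a' ha ha', inv_mul_cancel₀ WithZero.exp_ne_zero]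
  · simp [hg.2 v hv, hg'.2 v hv, (stab v Ψ).one_mem]

/-- **The function with unit coefficient in the lowest shells** is a combination of translates. -/
theorem IsAut.exists_delta (h : IsAut T lam Ψ) (hne : Ψ ≠ 0) :
    ∃ δ ∈ transSpan T Ψ, ∀ g, Std T g →
      W0 δ g = if ∀ v ∈ T, ∀ a : Fˣ, g.1 v = tor a → sh v a = 0 then 1 else 0 := by
  -- a translate combination fixed by integral unipotents and unit tori at every place of `T`
  obtain ⟨Φ, hΦ, hΦne, hn, hu⟩ : ∃ Φ ∈ transSpan T Ψ, Φ ≠ 0 ∧ (∀ v ∈ T, nball v 0 ≤ stab v Φ) ∧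
      ∀ v ∈ T, tUnits v ≤ stab v Φ := by
    suffices H : ∀ B ⊆ T, ∃ Φ ∈ transSpan T Ψ, Φ ≠ 0 ∧
        ∀ v ∈ B, ∃ K, U0N (v.valuation F) K ≤ stab v Φ by
      obtain ⟨Φ, h1, h2, h3⟩ := H T subset_rfl
      refine ⟨Φ, h1, h2, fun v hv => ?_, fun v hv => ?_⟩ <;> obtain ⟨K, hK⟩ := h3 v hv
      · exact (nball_zero_le_U0N v K).trans hK
      · exact (tUnits_le_U0N v K).trans hK
    intro B
    induction B using Finset.induction_on with
    | empty => exact fun _ =>
                 ⟨Ψ, mem_transSpan_self, hne, fun v hv => absurd hv (Finset.notMem_empty v)⟩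
    | insert w B hw ih =>
      intro hB
      obtain ⟨Φ, h1, h2, h3⟩ := ih fun u hu => hB (Finset.mem_insert_of_mem hu)
      obtain ⟨Φ', g1, g2, g3, g4⟩ :=
        (h.of_mem_transSpan h1).exists_good (hB (Finset.mem_insert_self w B)) h2
      have hsub : transSpan T Φ ≤ transSpan T Ψ :=
        Submodule.span_le.2 fun _ ⟨⟨k, hk⟩, e⟩ => e ▸ R_mem_transSpan hk h1
      refine ⟨Φ', hsub g1, g2, fun u hu => ?_⟩
      rcases Finset.mem_insert.1 hu with rfl | hu
      · exact g3
      · obtain ⟨K, hK⟩ := h3 u hu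
        exact ⟨K, hK.trans (g4 u fun e => hw (by rw [← e]; exact hu))⟩
  have hA : IsAut T lam Φ := h.of_mem_transSpan hΦ
  obtain ⟨g₀, hg₀, hW₀⟩ : ∃ g, Std T g ∧ W0 Φ g ≠ 0 := by
    by_contra hh
    push Not at hh
    exact hΦne (hA.eq_zero hh)
  -- the shells `j` of a nonzero coefficient
  choose a₀ ha₀ using hg₀.1
  set j : Place F → ℕ := fun v => if hv : v ∈ T then (sh v (a₀ v hv)).toNat else 0 with hjdef
  have hj : ∀ v (hv : v ∈ T), (j v : ℤ) = sh v (a₀ v hv) := fun v hv => by
    rw [hjdef]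
    simp only [hv, dite_true]
    refine Int.toNat_of_nonneg ?_
    by_contra hh
    exact hW₀ (W0_eq_zero_of_nball hA.bas (hn v hv) (ha₀ v hv) (by omega))
  -- cut out the shell of one nonzero coefficient, then translate it to the lowest
  have hcuts : ∀ B ⊆ T, ∃ E ∈ transSpan T Ψ, (∀ v ∈ T, v ∉ B → nball v 0 ≤ stab v E) ∧
      ∀ g, Std T g → W0 E g
        = if ∀ v ∈ B, ∀ a : Fˣ, g.1 v = tor a → sh v a = j v then W0 Φ g else 0 := by
    intro B
    induction B using Finset.induction_on with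
    | empty => exact fun _ => ⟨Φ, hΦ, fun v hv _ => hn v hv, fun g _ => by simp⟩
    | insert w B hw ih =>
      intro hB
      have hwT := hB (Finset.mem_insert_self w B)
      obtain ⟨E, hE, hEn, hEW⟩ := ih fun u hu => hB (Finset.mem_insert_of_mem hu)
      have hEA := h.of_mem_transSpan hE
      have hcutmem : ∀ m, Mult.cut w m E ∈ transSpan T Ψ := fun m => Submodule.smul_mem _ _
        (Submodule.sum_mem _ fun r _ => R_mem_transSpan (sgl_off hwT _) hE)
      refine ⟨Mult.cut w (j w) E - Mult.cut w (j w + 1) E,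
        Submodule.sub_mem _ (hcutmem _) (hcutmem _), fun v hv hv' => ?_, fun g hg => ?_⟩
      · simp only [Finset.mem_insert, not_or] at hv'
        exact fun x hx => mem_stab_sub (stab_le_cut hv'.1 _ (hEn v hv hv'.2 hx))
          (stab_le_cut hv'.1 _ (hEn v hv hv'.2 hx))
      · obtain ⟨a, ha⟩ := hg.1 w hwT
        rw [W0_sub (hEA.cut hwT _).bas (hEA.cut hwT _).bas, W0_cut hEA.bas (hEn w hwT hw) _ ha,
          W0_cut hEA.bas (hEn w hwT hw) _ ha, hEW g hg]
        have hiff : (∀ v ∈ insert w B, ∀ b : Fˣ, g.1 v = tor b → sh v b = j v) ↔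
            (sh w a = j w ∧ ∀ v ∈ B, ∀ b : Fˣ, g.1 v = tor b → sh v b = j v) := by
          simp only [Finset.forall_mem_insert]
          exact and_congr_left' ⟨fun H => H a ha,
            fun H b hb => by rw [tor_injective (hb.symm.trans ha)]; exact H⟩
        rw [if_congr hiff rfl rfl]
        rcases lt_trichotomy (sh w a) (j w) with hlt | heq | hgt
        · rw [if_neg (show ¬ ((j w : ℤ) ≤ sh w a) by omega),
            if_neg (show ¬ (((j w + 1 : ℕ) : ℤ) ≤ sh w a) by omega),
              if_neg (fun H => hlt.ne H.1), sub_zero]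
        · rw [if_pos (show (j w : ℤ) ≤ sh w a by omega),
            if_neg (show ¬ (((j w + 1 : ℕ) : ℤ) ≤ sh w a) by omega), sub_zero]
          simp [heq]
        · rw [if_pos (show (j w : ℤ) ≤ sh w a by omega),
            if_pos (show ((j w + 1 : ℕ) : ℤ) ≤ sh w a by omega), sub_self,
              if_neg (fun H => hgt.ne' H.1)]
  obtain ⟨E, hE, -, hEW⟩ := hcuts T subset_rfl
  set t := tgl T fun v => tor (unif v ^ (j v : ℤ))
  refine ⟨(W0 Φ g₀)⁻¹ • Mult.R t E, Submodule.smul_mem _ _
    (R_mem_transSpan (fun u hu => by simp [t, hu]) hE), fun g hg => ?_⟩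
  rw [W0_smul _ ((h.of_mem_transSpan hE).bas.R _), W0_R]
  have hgt : Std T (g * t) := by
    refine ⟨fun v hv => ?_, fun v hv => by simp [t, hv, hg.2 v hv]⟩
    obtain ⟨a, ha⟩ := hg.1 v hv
    exact ⟨a * unif v ^ (j v : ℤ), by simp [t, hv, ha]⟩
  rw [hEW _ hgt]
  have hiff : (∀ v ∈ T, ∀ a : Fˣ, (g * t).1 v = tor a → sh v a = j v) ↔
      ∀ v ∈ T, ∀ a : Fˣ, g.1 v = tor a → sh v a = 0 := by
    refine forall₂_congr fun v hv => ⟨fun H a ha => ?_, fun H a ha => ?_⟩
    · have h2 := H (a * unif v ^ (j v : ℤ)) (by simp [t, hv, ha])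
      rw [sh_mul_unif] at h2
      omega
    · obtain ⟨b, hb⟩ := hg.1 v hv
      have h2 := H b hb
      simp only [GA.mul_apply, t, tgl_apply, if_pos hv, hb, ← map_mul] at ha
      rw [← tor_injective ha, sh_mul_unif, h2, zero_add]
  simp only [hiff]
  split_ifs with hh
  · rw [W0_eq_of_shell hA hu hg₀ hgt fun v hv a a' ha ha' => ?_, inv_mul_cancel₀ hW₀]
    rw [tor_injective (ha.symm.trans (ha₀ v hv)), ← hj v hv]
    exact (hiff.2 hh v hv a' ha').symm
  · rw [mul_zero]

end Fermat.LTG.Mult
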