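import Fermat.Agent.LTG.Mult.Level
import Fermat.Agent.LTG.Operators

/-!
# Multiplicity: orthogonality of eigenfunctions

`ip_R` scales inner products under translations; `eq_zero_of_perp_self` is positivity.
-/

set_option autoImplicit false
set_option linter.unusedSectionVars false
open MeasureTheory Filter Set NumberField
open scoped Classical ComplexConjugate ENNReal

namespace Fermat.LTG.Mult

open Fermat.LT

/-- The invariant measure charges open sets. -/
instance isOpenPosMeasure_hmeas : (hmeas : Measure H3).IsOpenPosMeasure := by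
  refine ⟨fun U hU ⟨x₀, hx₀⟩ h0 => ?_⟩
  rw [hmeas, Measure.map_apply measurable_hmk hU.measurableSet, hvol,
    withDensity_apply_eq_zero (by fun_prop),
    Measure.restrict_apply' (MeasurableSet.univ.prod measurableSet_Ioi)] at h0
  set P : Set (ℂ × ℝ) := univ ×ˢ Ioi (0 : ℝ)
  have hP : IsOpen P := isOpen_univ.prod isOpen_Ioi
  have hcont : ContinuousOn hmk P := by
    rw [continuousOn_iff_continuous_domRestrict, isInducing_coord.continuous_iff]
    refine continuous_subtype_val.congr fun p => ?_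
    exact (H3.coord_mk_of_pos p.1.1 p.2.2).symm
  have hne : (P ∩ hmk ⁻¹' U).Nonempty := ⟨H3.coord x₀, ⟨trivial, H3.coord_pos _⟩, by
    change H3.mk (H3.coord x₀).1 (H3.coord x₀).2 ∈ U
    rwa [H3.mk_coord]⟩
  have hsub : P ∩ hmk ⁻¹' U ⊆ ({p : ℂ × ℝ | ENNReal.ofReal ((p.2 ^ 3)⁻¹) ≠ 0} ∩ hmk ⁻¹' U) ∩ P := by
    rintro p ⟨hp, hpU⟩
    have : (0 : ℝ) < p.2 := hp.2
    exact ⟨⟨(ENNReal.ofReal_pos.2 (by positivity)).ne', hpU⟩, hp⟩
  exact (hcont.isOpen_inter_preimage hP hU).measure_pos volume hne |>.ne'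
    (measure_mono_null hsub h0)

variable {F : Type*} [Field F] [NumberField F]

/-- A chosen fundamental domain. -/
noncomputable def dom (S : Lev F) : Set (Pt F S) := (exists_ptDomain (F := F) (S := S)).choose

/-- The domain is measurable. -/
lemma measurableSet_dom (S : Lev F) : MeasurableSet (dom S) :=
  (exists_ptDomain (F := F) (S := S)).choose_spec.1

/-- The domain is a fundamental domain for the rational group. -/
lemma isFundamentalDomain_dom (S : Lev F) :
    IsFundamentalDomain (PG F) (dom S) (ptMeasure (F := F) (S := S)) :=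
  (exists_ptDomain (F := F) (S := S)).choose_spec.2

/-- The integral of a product over a fundamental domain. -/
noncomputable def ip (S : Lev F) (Ψ Φ : Fn F) : ℂ :=
  ∫ p in dom S, conj (desc S Ψ p) * desc S Φ p ∂ptMeasure

/-- Orthogonal at every common level. -/
def Perp (Ψ Φ : Fn F) : Prop := ∀ S : Lev F, IsLevel S Ψ → IsLevel S Φ → ip S Ψ Φ = 0

/-- Right translation between levels. -/
noncomputable def proj (S' S : Lev F) (h : GA F) (ω : FinPt F S') : FinPt F S := toPt S (sec ω * h)

/-- Left translation of points. -/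
noncomputable def lmul (S : Lev F) (a : GA F) (ω : FinPt F S) : FinPt F S := toPt S (a * sec ω)

/-- Left multiplication on the point of a family. -/
lemma lmul_toPt (S : Lev F) (a g : GA F) : lmul S a (toPt S g) = toPt S (a * g) := by
  refine toPt_eq_iff.2 fun v => ?_
  simpa [mul_assoc] using toPt_eq_iff.1 (toPt_sec (toPt S g)) v

section Proj

variable {S S' : Lev F} {h : GA F}
  (hh : ∀ v, ∀ k ∈ lev S' v, (h.1 v)⁻¹ * k * h.1 v ∈ lev S v)
include hh

/-- The projection on the point of a family. -/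
lemma proj_toPt (g : GA F) : proj S' S h (toPt S' g) = toPt S (g * h) := by
  refine toPt_eq_iff.2 fun v => ?_
  have := hh v _ (toPt_eq_iff.1 (toPt_sec (toPt S' g)) v)
  simpa [mul_assoc] using this

/-- The projection is equivariant for rational matrices. -/
lemma proj_smul (γ : GL (Fin 2) F) (ω : FinPt F S') : proj S' S h (γ • ω) = γ • proj S' S h ω := by
  conv_lhs => rw [← toPt_sec ω, ← toPt_dgl_mul, proj_toPt hh, mul_assoc, toPt_dgl_mul]
  rfl

/-- All fibres are translates of one. -/
lemma fiber_eq (ω : FinPt F S) : proj S' S h ⁻¹' {ω}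
    = lmul S' (sec ω) '' (proj S' S h ⁻¹' {toPt S 1}) := by
  ext η
  simp only [Set.mem_preimage, Set.mem_singleton_iff, Set.mem_image]
  constructor
  · intro e
    refine ⟨toPt S' ((sec ω)⁻¹ * sec η), ?_, by rw [lmul_toPt, mul_inv_cancel_left, toPt_sec]⟩
    have e' : toPt S (sec η * h) = toPt S (sec ω) := by rw [toPt_sec]; exact e
    rw [proj_toPt hh, mul_assoc, ← lmul_toPt S ((sec ω)⁻¹) (sec η * h), e', lmul_toPt,
      inv_mul_cancel]
  · rintro ⟨η', e, rfl⟩
    have e' : toPt S (sec η' * h) = toPt S 1 := e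
    rw [lmul, proj_toPt hh, mul_assoc, ← lmul_toPt S (sec ω) (sec η' * h), e', lmul_toPt,
      mul_one, toPt_sec]

/-- All fibres of the projection have the same size. -/
lemma ncard_fiber (ω : FinPt F S) :
    (proj S' S h ⁻¹' {ω}).encard = (proj S' S h ⁻¹' {toPt S 1}).encard := by
  rw [fiber_eq hh ω]
  refine (Function.Injective.injOn ?_).encard_image
  refine Function.LeftInverse.injective (g := lmul S' (sec ω)⁻¹) fun η => ?_
  change lmul S' _ (toPt S' (sec ω * sec η)) = η
  rw [lmul_toPt, inv_mul_cancel_left, toPt_sec]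

omit hh in
/-- The fibre over the base point consists of translates by the level. -/
lemma fiber_base_sub {η : FinPt F S'} (hη : proj S' S h η = toPt S 1) :
    ∃ u : GA F, (∀ v, u.1 v ∈ lev S v) ∧ η = toPt S' (u * h⁻¹) :=
  ⟨sec η * h, fun v => by simpa using (lev S v).inv_mem (toPt_eq_iff.1 hη v), by
    rw [mul_inv_cancel_right, toPt_sec]⟩

omit hh in
/-- The fibre over the base point of the projection between levels is finite. -/
lemma finite_fiber : (proj S' S h ⁻¹' {toPt S 1}).Finite := by
  set B := (eventually_cofinite.1 (show ∀ᶠ v in cofinite,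
    h.1 v ∈ U0 (v.valuation F) from h.2)).toFinset ∪ S'.places with hB
  have hloc : ∀ v,
      (((fun u => ((u * (h.1 v)⁻¹ : GL (Fin 2) F) : Vert S' v))) ''
      (lev S v : Set (GL (Fin 2) F))).Finite := by
    intro v
    obtain ⟨m, hm⟩ := exists_conj_UN v (h.1 v)⁻¹ (S'.depth v)
    obtain ⟨s, hs⟩ := exists_isReps v (lev_le_U0 S v) m
    refine (s.finite_toSet.image fun u => ((u * (h.1 v)⁻¹ : GL (Fin 2) F) : Vert S' v)).subset ?_
    rintro _ ⟨u, hu, rfl⟩
    obtain ⟨r, ⟨hr, hr2⟩, -⟩ := hs.2 u hu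
    refine ⟨r, hr, QuotientGroup.eq.2 ?_⟩
    have := hm _ ((UN _ m).inv_mem hr2)
    simpa [mul_assoc, lev] using this
  set enc : FinPt F S' → (∀ v : B, Vert S' v.1) := fun η v => η.1 v.1
  refine Set.Finite.of_finite_image (f := enc) ?_ ?_
  · refine (Set.Finite.pi fun v : B => hloc v.1).subset ?_
    rintro _ ⟨η, hη, rfl⟩ v -
    obtain ⟨u, hu, rfl⟩ := fiber_base_sub hη
    exact ⟨u.1 v.1, hu v.1, rfl⟩
  · intro η hη η' hη' e
    refine Subtype.ext (funext fun v => ?_)
    by_cases hv : v ∈ B
    · exact congrFun e ⟨v, hv⟩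
    · simp only [hB, Finset.mem_union, not_or, Set.Finite.mem_toFinset, Set.mem_ofPred_eq, not_not,
        Lev.mem_places] at hv
      have key : ∀ η ∈ proj S' S h ⁻¹' {toPt S 1}, η.1 v = ((1 : GL (Fin 2) F) : Vert S' v) := by
        intro η hη
        obtain ⟨u, hu, rfl⟩ := fiber_base_sub hη
        refine QuotientGroup.eq.2 ?_
        rw [lev_of_not_mem hv.2, mul_one]
        exact (U0 _).inv_mem ((U0 _).mul_mem (lev_le_U0 S v (hu v)) ((U0 _).inv_mem hv.1))
      rw [key η hη, key η' hη']

/-- **Pushing the measure forward.** The map `proj` of points between levels pushes the measure to a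
nonzero integral multiple of the measure. -/
theorem exists_map_proj : ∃ c : ℕ, c ≠ 0 ∧ (proj S' S h ⁻¹' {toPt S 1}).encard = c ∧
    Measure.map (Prod.map (proj S' S h) id) (ptMeasure (F := F) (S := S'))
      = (c : ℝ≥0∞) • ptMeasure (F := F) (S := S) := by
  have hne : (proj S' S h ⁻¹' {toPt S 1}).Nonempty :=
    ⟨toPt S' h⁻¹, by rw [Set.mem_preimage, Set.mem_singleton_iff, proj_toPt hh, inv_mul_cancel]⟩
  have hfin : (proj S' S h ⁻¹' {toPt S 1}).Finite := finite_fiber
  refine ⟨hfin.toFinset.card, ?_, hfin.encard_eq_coe_toFinset_card, ?_⟩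
  · rw [Finset.card_ne_zero]; exact (Set.Finite.toFinset_nonempty _).2 hne
  have : MeasurableSingletonClass (FinPt F S) := ⟨fun _ => trivial⟩
  have hc : Measure.map (proj S' S h) (Measure.count : Measure (FinPt F S'))
      = (hfin.toFinset.card : ℝ≥0∞) • (Measure.count : Measure (FinPt F S)) := by
    refine Measure.ext_of_singleton fun ω => ?_
    rw [Measure.map_apply measurable_from_top (measurableSet_singleton ω),
      Measure.count_apply (measurable_from_top (measurableSet_singleton ω)), ncard_fiber hh ω,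
      hfin.encard_eq_coe_toFinset_card, Measure.smul_apply, Measure.count_singleton,
      smul_eq_mul, mul_one]
    rfl
  rw [ptMeasure, ptMeasure, ← Measure.map_prod_map _ _ measurable_from_top measurable_id, hc,
    Measure.map_id, Measure.prod_smul_left]

end Proj

variable [IsTotallyComplex F] {T : Finset (Place F)} {lam : Place F → ℝ}

/-- A descended function is measurable. -/
lemma measurable_desc {Ψ : Fn F} (hΨ : IsBas Ψ) (S : Lev F) : Measurable (desc S Ψ) := by
  have : MeasurableSingletonClass (FinPt F S) := ⟨fun _ => trivial⟩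
  exact measurable_from_prod_countable_right fun ω => (hΨ.continuous (sec ω)).measurable

/-- A descended function is invariant under the rational group. -/
lemma desc_smul {Ψ : Fn F} (hΨ : IsBas Ψ) {S : Lev F} (hS : IsLevel S Ψ) (γ : PG F) (p : Pt F S) :
    desc S Ψ (γ • p) = desc S Ψ p := by
  obtain ⟨g, rfl⟩ := QuotientGroup.mk_surjective γ
  rw [PG.mk_smul]
  change Ψ (sec (g • p.1)) (act g p.2) = Ψ (sec p.1) p.2
  conv_lhs => rw [← toPt_sec p.1, ← toPt_dgl_mul, hS.sec_toPt, hΨ.invariant]

/-- A bounded measurable function is integrable on the domain. -/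
lemma integrableOn_dom {S : Lev F} {f : Pt F S → ℂ} (hm : Measurable f) {C : ℝ}
    (hC : ∀ p, ‖f p‖ ≤ C) :
    IntegrableOn f (dom S) ptMeasure := by
  have := isFiniteMeasure_domMeasure (isFundamentalDomain_dom S)
  exact (integrable_const C).mono' hm.aestronglyMeasurable (Eventually.of_forall hC)

/-- The integrand of the inner product of two eigenfunctions is integrable. -/
lemma integrableOn_ip {Ψ Φ : Fn F} (h : IsAut T lam Ψ) (h' : IsAut T lam Φ) (S : Lev F) :
    IntegrableOn (fun p => conj (desc S Ψ p) * desc S Φ p) (dom S) ptMeasure := by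
  obtain ⟨C, hC⟩ := h.bounded
  obtain ⟨C', hC'⟩ := h'.bounded
  refine integrableOn_dom ((Complex.continuous_conj.measurable.comp (measurable_desc h.bas S)).mul
    (measurable_desc h'.bas S)) (C := C * C') fun p => ?_
  rw [norm_mul, RCLike.norm_conj]
  exact mul_le_mul (hC _ _) (hC' _ _) (norm_nonneg _) ((norm_nonneg _).trans (hC (sec p.1) p.2))

/-- **Translations scale the integrals.** Right translation between levels multiplies inner products
by a positive integer, the size of a fibre of `proj`. -/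
theorem ip_R {S S' : Lev F} {h : GA F} (hh : ∀ v, ∀ k ∈ lev S' v, (h.1 v)⁻¹ * k * h.1 v ∈ lev S v) :
    ∃ c : ℕ, c ≠ 0 ∧ (proj S' S h ⁻¹' {toPt S 1}).encard = c ∧ ∀ Ψ Φ : Fn F, IsBas Ψ → IsBas Φ →
      IsLevel S Ψ → IsLevel S Φ → ip S' (R h Ψ) (R h Φ) = c * ip S Ψ Φ := by
  obtain ⟨c, hc0, hc, hmap⟩ := exists_map_proj hh
  refine ⟨c, hc0, hc, fun Ψ Φ hΨ hΦ hLΨ hLΦ => ?_⟩
  set f := Prod.map (proj S' S h) (id : (InfinitePlace F → H3) → _)
  have hf : Measurable f :=
    ((measurable_from_top (f := proj S' S h)).comp measurable_fst).prodMk measurable_snd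
  have hfd : IsFundamentalDomain (PG F) (f ⁻¹' dom S) (ptMeasure (F := F) (S := S')) := by
    refine (isFundamentalDomain_dom S).preimage_of_equiv (f := f) ⟨hf, ?_⟩
      (e := id) Function.bijective_id ?_
    · rw [hmap]
      exact Measure.AbsolutelyContinuous.rfl.smul_left _
    · intro γ p
      obtain ⟨g, rfl⟩ := QuotientGroup.mk_surjective γ
      change f ((g : PG F) • p) = (g : PG F) • f p
      rw [PG.mk_smul, PG.mk_smul]
      exact Prod.ext (proj_smul hh g p.1) rfl
  set G := fun q : Pt F S => conj (desc S Ψ q) * desc S Φ q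
  have e : ∀ p, conj (desc S' (R h Ψ) p) * desc S' (R h Φ) p = G (f p) := fun p => by
    change conj (Ψ (sec p.1 * h) p.2) * Φ (sec p.1 * h) p.2
      = conj (Ψ (sec (toPt S (sec p.1 * h))) p.2) * Φ (sec (toPt S (sec p.1 * h))) p.2
    rw [hLΨ.sec_toPt, hLΦ.sec_toPt]
  have hG : Measurable G :=
    (Complex.continuous_conj.measurable.comp (measurable_desc hΨ S)).mul (measurable_desc hΦ S)
  rw [ip]
  simp only [e]
  rw [(isFundamentalDomain_dom S').setIntegral_eq hfd fun γ p => ?_,
    ← setIntegral_map (measurableSet_dom S) (f := G) hG.aestronglyMeasurable hf.aemeasurable, hmap,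
    Measure.restrict_smul, integral_smul_measure]
  · simp [ip, G]
  · obtain ⟨g, rfl⟩ := QuotientGroup.mk_surjective γ
    change G (f ((g : PG F) • p)) = G (f p)
    rw [show f ((g : PG F) • p) = (g : PG F) • f p by
      rw [PG.mk_smul, PG.mk_smul]; exact Prod.ext (proj_smul hh g p.1) rfl]
    simp only [G, desc_smul hΨ hLΨ, desc_smul hΦ hLΦ]

/-- One common level suffices. -/
theorem Perp.of_ip {Ψ Φ : Fn F} (hΨ : IsBas Ψ) (hΦ : IsBas Φ) {S : Lev F} (h1 : IsLevel S Ψ)
    (h2 : IsLevel S Φ) (h0 : ip S Ψ Φ = 0) : Perp Ψ Φ := by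
  intro S' h1' h2'
  have e : ∀ S₀ : Lev F, (∀ v, S₀.depth v ≤ (levSup S S').depth v) → IsLevel S₀ Ψ → IsLevel S₀ Φ →
      ∃ c : ℕ, c ≠ 0 ∧ ip (levSup S S') Ψ Φ = c * ip S₀ Ψ Φ := fun S₀ hle a b => by
    obtain ⟨c, hc0, -, hc⟩ := ip_R (S := S₀) (S' := levSup S S') (h := 1)
      (fun v k hk => by simpa using lev_anti (hle v) hk)
    exact ⟨c, hc0, by simpa [R_one] using hc Ψ Φ hΨ hΦ a b⟩
  obtain ⟨c, -, hc⟩ := e S (fun v => le_max_left _ _) h1 h2
  obtain ⟨c', hc', hc''⟩ := e S' (fun v => le_max_right _ _) h1' h2'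
  rw [h0, mul_zero] at hc
  rw [hc] at hc''
  exact (mul_eq_zero.1 hc''.symm).resolve_left (Nat.cast_ne_zero.2 hc')

/-- Orthogonality is kept by translations. -/
theorem Perp.R {Ψ Φ : Fn F} (hΨ : IsBas Ψ) (hΦ : IsBas Φ) (h : Perp Ψ Φ) (k : GA F) :
    Perp (Mult.R k Ψ) (Mult.R k Φ) := by
  obtain ⟨S₁, hS₁⟩ := hΨ.smooth
  obtain ⟨S₂, hS₂⟩ := hΦ.smooth
  have hS := hS₁.mono (S' := levSup S₁ S₂) fun v => le_max_left _ _
  have hS' := hS₂.mono (S' := levSup S₁ S₂) fun v => le_max_right _ _
  obtain ⟨S', -, -, hS''⟩ := exists_conj_lev (levSup S₁ S₂) k (eventually_cofinite.1 k.2).toFinset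
    (fun v hv => by simpa using hv)
  obtain ⟨c, -, -, hc⟩ := ip_R hS''
  refine Perp.of_ip (hΨ.R k) (hΦ.R k) (hS.R hS'') (hS'.R hS'') ?_
  rw [hc Ψ Φ hΨ hΦ hS hS', h _ hS hS', mul_zero]

/-- Descending is additive. -/
lemma desc_add (S : Lev F) (Ψ Φ : Fn F) : desc S (Ψ + Φ) = desc S Ψ + desc S Φ := rfl

/-- Descending is homogeneous. -/
lemma desc_smul' (S : Lev F) (c : ℂ) (Ψ : Fn F) : desc S (c • Ψ) = c • desc S Ψ := rfl

/-- Orthogonality extends to spans. -/
theorem perp_of_spans {Ψ Φ : Fn F} (h : IsAut T lam Ψ) (h' : IsAut T lam Φ)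
    (H : ∀ a b : GA F, (∀ v ∉ T, a.1 v = 1) → (∀ v ∉ T, b.1 v = 1) → Perp (Mult.R a Ψ) (Mult.R b Φ))
    {A B : Fn F} (hA : A ∈ transSpan T Ψ) (hB : B ∈ transSpan T Φ) : Perp A B := by
  -- linear in each variable, evaluated at a common level
  have hright : ∀ a : GA F, (∀ v ∉ T, a.1 v = 1) → ∀ B ∈ transSpan T Φ, Perp (Mult.R a Ψ) B := by
    intro a ha B hB
    induction hB using Submodule.span_induction with
    | mem x hx =>
      obtain ⟨⟨b, hb⟩, rfl⟩ := hx
      exact H a b ha hb
    | zero => intro S _ _; simp [ip, desc]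
    | add x y hx hy px py =>
      obtain ⟨S₁, -, hS₁, -⟩ := (h'.of_mem_transSpan hx).exists_level
      obtain ⟨S₂, -, hS₂, -⟩ := (h'.of_mem_transSpan hy).exists_level
      obtain ⟨S₃, -, hS₃, -⟩ := (h.R ha).exists_level
      set S := levSup (levSup S₁ S₂) S₃
      have k1 := hS₁.mono (S' := S) fun v => (le_max_left _ _).trans (le_max_left _ _)
      have k2 := hS₂.mono (S' := S) fun v => (le_max_right _ _).trans (le_max_left _ _)
      have k3 := hS₃.mono (S' := S) fun v => le_max_right _ _
      refine Perp.of_ip (h.R ha).bas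
        ((h'.of_mem_transSpan hx).bas.add (h'.of_mem_transSpan hy).bas) k3
        (fun g k z hk => by simp [k1 g k z hk, k2 g k z hk]) ?_
      rw [ip, desc_add]
      simp only [Pi.add_apply, mul_add]
      rw [integral_add (integrableOn_ip (h.R ha) (h'.of_mem_transSpan hx) S)
        (integrableOn_ip (h.R ha) (h'.of_mem_transSpan hy) S)]
      change ip S _ x + ip S _ y = 0
      rw [px S k3 k1, py S k3 k2, add_zero]
    | smul c x hx px =>
      obtain ⟨S₁, -, hS₁, -⟩ := (h'.of_mem_transSpan hx).exists_level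
      obtain ⟨S₃, -, hS₃, -⟩ := (h.R ha).exists_level
      set S := levSup S₁ S₃
      have k1 := hS₁.mono (S' := S) fun v => le_max_left _ _
      have k3 := hS₃.mono (S' := S) fun v => le_max_right _ _
      refine Perp.of_ip (h.R ha).bas ((h'.of_mem_transSpan hx).bas.smul c) k3
        (fun g k z hk => by simp [k1 g k z hk]) ?_
      rw [ip, desc_smul']
      simp only [Pi.smul_apply, smul_eq_mul, mul_left_comm _ c]
      rw [integral_const_mul, show ∫ p in dom S, conj (desc S (Mult.R a Ψ) p) *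
        desc S x p ∂ptMeasure = ip S (Mult.R a Ψ) x from rfl, px S k3 k1, mul_zero]
  have hB' := h'.of_mem_transSpan hB
  induction hA using Submodule.span_induction with
  | mem x hx =>
    obtain ⟨⟨a, ha⟩, rfl⟩ := hx
    exact hright a ha B hB
  | zero => intro S _ _; simp [ip, desc]
  | add x y hx hy px py =>
    obtain ⟨S₁, -, hS₁, -⟩ := (h.of_mem_transSpan hx).exists_level
    obtain ⟨S₂, -, hS₂, -⟩ := (h.of_mem_transSpan hy).exists_level
    obtain ⟨S₃, -, hS₃, -⟩ := hB'.exists_level
    set S := levSup (levSup S₁ S₂) S₃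
    have k1 := hS₁.mono (S' := S) fun v => (le_max_left _ _).trans (le_max_left _ _)
    have k2 := hS₂.mono (S' := S) fun v => (le_max_right _ _).trans (le_max_left _ _)
    have k3 := hS₃.mono (S' := S) fun v => le_max_right _ _
    refine Perp.of_ip ((h.of_mem_transSpan hx).bas.add (h.of_mem_transSpan hy).bas) hB'.bas
      (fun g k z hk => by simp [k1 g k z hk, k2 g k z hk]) k3 ?_
    rw [ip, desc_add]
    simp only [Pi.add_apply, map_add, add_mul]
    rw [integral_add (integrableOn_ip (h.of_mem_transSpan hx) hB' S)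
      (integrableOn_ip (h.of_mem_transSpan hy) hB' S)]
    change ip S x B + ip S y B = 0
    rw [px S k1 k3, py S k2 k3, add_zero]
  | smul c x hx px =>
    obtain ⟨S₁, -, hS₁, -⟩ := (h.of_mem_transSpan hx).exists_level
    obtain ⟨S₃, -, hS₃, -⟩ := hB'.exists_level
    set S := levSup S₁ S₃
    have k1 := hS₁.mono (S' := S) fun v => le_max_left _ _
    have k3 := hS₃.mono (S' := S) fun v => le_max_right _ _
    refine Perp.of_ip ((h.of_mem_transSpan hx).bas.smul c) hB'.bas
      (fun g k z hk => by simp [k1 g k z hk]) k3 ?_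
    rw [ip, desc_smul']
    simp only [Pi.smul_apply, smul_eq_mul, map_mul, mul_assoc]
    rw [integral_const_mul, show ∫ p in dom S, conj (desc S x p) * desc S B p ∂ptMeasure
      = ip S x B from rfl, px S k1 k3, mul_zero]

/-- Orthogonal to the average means orthogonal. -/
theorem perp_of_avgR {A B : Fn F} (hA : IsAut T lam A) (hB : IsAut T lam B) {v : Place F}
    (hv : v ∈ T) {H : Subgroup (GL (Fin 2) F)} (hH : H ≤ U0 (v.valuation F)) (hHA : H ≤ stab v A)
    {s : Finset (GL (Fin 2) F)} (hs : ∀ k ∈ s, k ∈ H) (hne : s.Nonempty) (h : Perp A (avgR v s B)) :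
    Perp A B := by
  -- work at a common level, which the elements of `s` normalise
  obtain ⟨S₁, -, hS₁, -⟩ := hA.exists_level
  obtain ⟨S₂, -, hS₂, -⟩ := hB.exists_level
  set S := levSup S₁ S₂
  have k1 := hS₁.mono (S' := S) fun u => le_max_left _ _
  have k2 := hS₂.mono (S' := S) fun u => le_max_right _ _
  have hnorm : ∀ k ∈ s, ∀ u, ∀ x ∈ lev S u, ((sgl v k).1 u)⁻¹ * x * (sgl v k).1 u ∈ lev S u := by
    intro k hk u x hx
    by_cases hu : u = v
    · subst hu; rw [sgl_same]; exact conj_UN_mem _ (hH (hs k hk)) hx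
    · rw [sgl_ne hu]; simpa using hx
  -- translating `B` by `k` keeps the pairing, as `k` fixes `A`
  have hRB : ∀ k ∈ s, ip S A (Mult.R (sgl v k) B) = ip S A B ∧ IsLevel S (Mult.R (sgl v k) B) := by
    intro k hk
    refine ⟨?_, k2.R (hnorm k hk)⟩
    obtain ⟨c, -, hc, hip⟩ := ip_R (hnorm k hk)
    -- the index is one
    have hone : c = 1 := by
      have hcard : (proj S S (sgl v k) ⁻¹' {toPt S 1}) = {toPt S (sgl v k)⁻¹} := by
        refine Set.eq_singleton_iff_unique_mem.2 ⟨?_, fun η hη => ?_⟩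
        · rw [Set.mem_preimage, Set.mem_singleton_iff, proj_toPt (hnorm k hk), inv_mul_cancel]
        · obtain ⟨u, hu, rfl⟩ := fiber_base_sub hη
          refine toPt_eq_iff.2 fun w => ?_
          simp only [GA.mul_apply, GA.inv_apply, mul_inv_rev, inv_inv, mul_assoc]
          by_cases hw : w = v
          · subst hw
            rw [sgl_same]
            have := conj_UN_mem (v := w.valuation F) (n := S.depth w)
              ((U0 _).inv_mem (hH (hs k hk))) ((lev S w).inv_mem (hu w))
            simpa [mul_assoc, lev] using this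
          · rw [sgl_ne hw]
            simpa using (lev S w).inv_mem (hu w)
      rw [hcard, Set.encard_singleton] at hc
      exact_mod_cast hc.symm
    have := hip A B hA.bas hB.bas k1 k2
    rwa [hone, Nat.cast_one, one_mul, mem_stab.1 (hHA (hs k hk))] at this
  have havg : IsLevel S (avgR v s B) := fun g k x hk => by
    simp only [avgR, Finset.sum_apply]
    exact Finset.sum_congr rfl fun j hj => (hRB j hj).2 g k x hk
  refine Perp.of_ip hA.bas hB.bas k1 k2 ?_
  -- so the pairing with the average is `s.card` times the pairing with `B`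
  have e := h S k1 havg
  have hsum : ip S A (avgR v s B) = ∑ k ∈ s, ip S A (Mult.R (sgl v k) B) := by
    simp only [ip, avgR, desc, Finset.sum_apply, Finset.mul_sum]
    exact integral_finsetSum _ fun k hk => integrableOn_ip hA (hB.R_sgl hv k) S
  rw [hsum, Finset.sum_congr rfl fun k hk => (hRB k hk).1, Finset.sum_const, nsmul_eq_mul,
    mul_eq_zero, Nat.cast_eq_zero, Finset.card_eq_zero] at e
  exact e.resolve_left hne.ne_empty

/-- **Positivity.** An eigenfunction orthogonal to itself is zero. -/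
theorem eq_zero_of_perp_self {Ψ : Fn F} (h : IsAut T lam Ψ) (hp : Perp Ψ Ψ) : Ψ = 0 := by
  obtain ⟨S, -, hS, -⟩ := h.exists_level
  have e := hp S hS hS
  obtain ⟨C, hC⟩ := h.bounded
  have hm := measurable_desc h.bas S
  -- the self pairing is the integral of the squared norm over the domain
  have hint : IntegrableOn (fun p => ‖desc S Ψ p‖ ^ 2) (dom S) ptMeasure := by
    have := isFiniteMeasure_domMeasure (isFundamentalDomain_dom S)
    refine (integrable_const (C ^ 2)).mono' (hm.norm.pow_const 2).aestronglyMeasurable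
      (Eventually.of_forall fun p => ?_)
    rw [norm_pow, norm_norm]
    exact pow_le_pow_left₀ (norm_nonneg _) (hC _ _) 2
  have h1 : ∫ p in dom S, ‖desc S Ψ p‖ ^ 2 ∂ptMeasure = 0 := by
    have : ((∫ p in dom S, ‖desc S Ψ p‖ ^ 2 ∂ptMeasure : ℝ) : ℂ) = 0 := by
      rw [← integral_complex_ofReal, ← e]
      refine integral_congr_ae (Eventually.of_forall fun p => ?_)
      simp [RCLike.conj_mul]
    exact_mod_cast this
  have h2 := (integral_eq_zero_iff_of_nonneg (fun p => by positivity) hint).1 h1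
  -- so the invariant nonvanishing set is null
  set N := {p : Pt F S | desc S Ψ p ≠ 0}
  have hN : ptMeasure N = 0 := by
    refine (isFundamentalDomain_dom S).measure_zero_of_invariant N (fun γ => ?_) ?_
    · ext p
      rw [Set.mem_smul_set_iff_inv_smul_mem]
      change desc S Ψ (γ⁻¹ • p) ≠ 0 ↔ _
      rw [desc_smul h.bas hS]
      rfl
    · rw [← Measure.restrict_apply' (measurableSet_dom S)]
      refine measure_mono_null (fun p hp => ?_) (ae_iff.1 h2)
      simpa [N] using hp
  funext g x
  rw [← hS.sec_toPt g x]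
  -- but around a nonzero value it contains an open slice
  by_contra hne
  have hopen : IsOpen {y : AX F | Ψ (sec (toPt S g)) y ≠ 0} :=
    isOpen_ne_fun (h.bas.continuous _) continuous_const
  have hpos :=
    hopen.measure_pos (Measure.pi fun _ : InfinitePlace F => (hmeas : Measure H3)) ⟨x, hne⟩
  have hsub : ({toPt S g} : Set (FinPt F S)) ×ˢ {y : AX F | Ψ (sec (toPt S g)) y ≠ 0} ⊆ N := by
    rintro ⟨ω, y⟩ ⟨hω, hy⟩
    have hω : ω = toPt S g := hω
    change Ψ (sec ω) y ≠ 0
    rw [hω]; exact hy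
  have h3 := measure_mono_null hsub hN
  have : MeasurableSingletonClass (FinPt F S) := ⟨fun _ => trivial⟩
  rw [ptMeasure, Measure.prod_prod, Measure.count_singleton, one_mul] at h3
  exact hpos.ne' h3

end Fermat.LTG.Mult
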