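import Fermat.Agent.LTG.Mult.Aut

/-!
# Multiplicity: a field automorphism acting on functions

`IsAut.Utw`: the transform of an eigenfunction by `τ` is again one, and on points it is the action
of `τ` (`desc_Utw`).
-/

set_option autoImplicit false
set_option linter.unusedSectionVars false
open NumberField MeasureTheory Filter
open scoped Classical ComplexConjugate

namespace Fermat.LTG.Mult

open Fermat.LT
open Fermat.LT.Mult (mean IsPer Per pnt Pos emb)

variable {F : Type*} [Field F] [NumberField F]

/-- The image of a unit. -/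
noncomputable def tu (τ : F ≃+* F) : Fˣ →* Fˣ := Units.map (τ : F →+* F).toMonoidHom

/-- The value of the twisted unit. -/
@[simp] lemma coe_tu (τ : F ≃+* F) (a : Fˣ) : (tu τ a : F) = τ a := rfl

/-- The automorphism on upper triangular matrices. -/
lemma mapGL_upMat (τ : F ≃+* F) (a : Fˣ) (x : F) : mapGL τ (upMat a x) = upMat (tu τ a) (τ x) := by
  refine Units.ext ?_
  rw [coe_mapGL, coe_upMat, coe_upMat]
  ext i j
  fin_cases i <;> fin_cases j <;> simp

/-- The automorphism on torus elements. -/
lemma mapGL_tor (τ : F ≃+* F) (a : Fˣ) : mapGL τ (tor a) = tor (tu τ a) := by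
  rw [tor_apply, tor_apply, mapGL_upMat, map_zero]

/-- The inverse automorphism acts on places by the inverse map. -/
lemma mapPlace_symm_apply (τ : F ≃+* F) (v : Place F) :
    mapPlace τ.symm v = (mapPlace τ).symm v := by
  rw [Equiv.eq_symm_apply, mapPlace_symm_right]

/-- The automorphism carries `U0` to `U0` at the image place. -/
lemma mapGL_mem_U0' {τ : F ≃+* F} {v u : Place F} (hu : mapPlace τ v = u) {g : GL (Fin 2) F}
    (hg : g ∈ U0 (v.valuation F)) : mapGL τ g ∈ U0 (u.valuation F) := by
  obtain ⟨c, hc⟩ := hg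
  exact ⟨tu τ c, by rw [tu, ← mapGL_scal, ← map_mul]; exact mapGL_mem_intGL hu hc⟩

/-- The automorphism carries `UN` to `UN` at the image place. -/
lemma mapGL_mem_UN {τ : F ≃+* F} {v u : Place F} (hu : mapPlace τ v = u) {n : ℕ} {g : GL (Fin 2) F}
    (hg : g ∈ UN (v.valuation F) n) : mapGL τ g ∈ UN (u.valuation F) n := by
  obtain ⟨c, hc⟩ := hg
  exact ⟨tu τ c, by rw [tu, ← mapGL_scal, ← map_mul]; exact mapGL_mem_congN hu hc⟩

/-- The automorphism carries `U0N` to `U0N` at the image place. -/
lemma mapGL_mem_U0N {τ : F ≃+* F} {v u : Place F} (hu : mapPlace τ v = u) {n : ℕ} {g : GL (Fin 2) F}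
    (hg : g ∈ U0N (v.valuation F) n) : mapGL τ g ∈ U0N (u.valuation F) n := by
  obtain ⟨c, hc, hc'⟩ := hg
  refine ⟨tu τ c, ?_⟩
  rw [tu, ← mapGL_scal, ← map_mul]
  refine ⟨mapGL_mem_intGL hu hc, ?_⟩
  subst hu
  rw [coe_mapGL, Matrix.map_apply, valuation_mapPlace]
  exact hc'

/-- The automorphism on families. -/
noncomputable def gmap (τ : F ≃+* F) : GA F →* GA F where
  toFun g := ⟨fun u => mapGL τ (g.1 ((mapPlace τ).symm u)), by
    change ∀ᶠ u : Place F in cofinite, mapGL τ (g.1 ((mapPlace τ).symm u)) ∈ U0 (u.valuation F)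
    filter_upwards [(mapPlace τ).symm.injective.tendsto_cofinite.eventually
      (show ∀ᶠ v : Place F in cofinite, g.1 v ∈ U0 (v.valuation F) from g.2)] with u hu
    exact mapGL_mem_U0' ((mapPlace τ).apply_symm_apply u) hu⟩
  map_one' := GA.ext' fun u => map_one _
  map_mul' a b := GA.ext' fun u => map_mul _ _ _

/-- The components of an image family. -/
@[simp] lemma gmap_apply (τ : F ≃+* F) (g : GA F) (u : Place F) :
    (gmap τ g).1 u = mapGL τ (g.1 ((mapPlace τ).symm u)) := rfl

/-- The image of a diagonal family. -/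
lemma gmap_dgl (τ : F ≃+* F) (γ : GL (Fin 2) F) : gmap τ (dgl γ) = dgl (mapGL τ γ) :=
  GA.ext' fun _ => rfl

/-- The image of a family at one place. -/
lemma gmap_sgl (τ : F ≃+* F) (v : Place F) (h : GL (Fin 2) F) :
    gmap τ (sgl v h) = sgl (mapPlace τ v) (mapGL τ h) := by
  refine GA.ext' fun u => ?_
  rw [gmap_apply]
  by_cases hu : u = mapPlace τ v
  · subst hu; rw [Equiv.symm_apply_apply, sgl_same, sgl_same]
  · rw [sgl_ne (fun e => hu (by rw [← e, Equiv.apply_symm_apply])), sgl_ne hu, map_one]

/-- The inverse automorphism gives the inverse map. -/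
lemma gmap_gmap_symm (τ : F ≃+* F) (g : GA F) : gmap τ (gmap τ.symm g) = g := by
  refine GA.ext' fun u => ?_
  rw [gmap_apply, gmap_apply, mapGL_mapGL]
  have e : (mapPlace τ.symm).symm ((mapPlace τ).symm u) = u := by
    rw [Equiv.symm_apply_eq, mapPlace_symm_apply]
  rw [e, RingEquiv.symm_trans_self]
  exact Units.ext (Matrix.ext fun i j => rfl)

variable [IsTotallyComplex F]

/-- The automorphism on the archimedean points. -/
noncomputable def amapX (τ : F ≃+* F) (x : AX F) : AX F :=
  fun w => extH x (w.embedding.comp (τ : F →+* F))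

/-- The place below an embedding composed with the automorphism. -/
noncomputable def plPerm (τ : F ≃+* F) (w : InfinitePlace F) : InfinitePlace F :=
  InfinitePlace.mk (w.embedding.comp (τ : F →+* F))

/-- The permutation of the infinite places is injective. -/
lemma plPerm_injective (τ : F ≃+* F) : Function.Injective (plPerm τ) := by
  intro w w' e
  rw [← InfinitePlace.mk_embedding w, ← InfinitePlace.mk_embedding w']
  rw [plPerm, plPerm, InfinitePlace.mk_eq_iff] at e
  rw [InfinitePlace.mk_eq_iff]
  rcases e with e | e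
  · exact Or.inl (RingHom.ext fun y => by simpa using RingHom.congr_fun e (τ.symm y))
  · refine Or.inr (RingHom.ext fun y => ?_)
    simpa [ComplexEmbedding.conjugate] using RingHom.congr_fun e (τ.symm y)

/-- The permutation of the infinite places is surjective. -/
lemma plPerm_surjective (τ : F ≃+* F) : Function.Surjective (plPerm τ) :=
  Finite.surjective_of_injective (plPerm_injective τ)

/-- The image point, written out. -/
lemma amapX_eq (τ : F ≃+* F) (x : AX F) (w : InfinitePlace F) :
    amapX τ x w = if w.embedding.comp (τ : F →+* F) = (plPerm τ w).embedding then x (plPerm τ w)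
      else H3.cj (x (plPerm τ w)) := rfl

/-- The image point at each embedding. -/
lemma extH_amapX (τ : F ≃+* F) (x : AX F) (φ : F →+* ℂ) :
    extH (amapX τ x) φ = extH x (φ.comp (τ : F →+* F)) := by
  rcases InfinitePlace.embedding_mk_eq φ with h | h
  · conv_lhs => rw [extH, if_pos h.symm]
    change extH x _ = _
    rw [h]
  · have hφ : φ = ComplexEmbedding.conjugate (InfinitePlace.mk φ).embedding := by
      rw [h, ComplexEmbedding.conjugate, star_star]
    conv_lhs => rw [hφ, extH_conjugate, extH_embedding]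
    change H3.cj (extH x _) = _
    rw [← extH_conjugate]
    congr 1
    conv_rhs => rw [hφ]
    rfl

/-- Every point at infinity is an image. -/
lemma amapX_surjective (τ : F ≃+* F) : Function.Surjective (amapX τ) := fun x =>
  ⟨amapX τ.symm x, funext fun w => by
    change extH (amapX τ.symm x) _ = x w
    rw [extH_amapX, ← extH_embedding x w]
    congr 1
    ext y
    simp⟩

/-- The map at infinity is semilinear for matrices. -/
lemma amapX_act (τ : F ≃+* F) (γ : GL (Fin 2) F) (x : AX F) :
    amapX τ (act γ x) = act (mapGL τ γ) (amapX τ x) := by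
  have key : ∀ φ : F →+* ℂ, extH (act γ x) φ = Matrix.GeneralLinearGroup.map φ γ • extH x φ := by
    intro φ
    rcases InfinitePlace.embedding_mk_eq φ with h | h
    · rw [extH, extH, if_pos h.symm, if_pos h.symm, act, atInf, h]
    · have hφ : φ = ComplexEmbedding.conjugate (InfinitePlace.mk φ).embedding := by
        rw [h, ComplexEmbedding.conjugate, star_star]
      set w' := InfinitePlace.mk φ
      rw [hφ, extH_conjugate, extH_conjugate, extH_embedding, extH_embedding, act, H3.cj_smul]
      rfl
  funext w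
  change extH (act γ x) _ = atInf w (mapGL τ γ) • extH x _
  rw [key]
  rfl

/-- The map at infinity is continuous. -/
lemma continuous_amapX (τ : F ≃+* F) : Continuous (amapX τ : AX F → AX F) := by
  refine continuous_pi fun w => ?_
  simp only [amapX_eq]
  split_ifs
  · exact continuous_apply _
  · exact continuous_cj.comp (continuous_apply _)

/-- Conjugating the coordinates. -/
noncomputable def sig (τ : F ≃+* F) : (InfinitePlace F → ℂ) →ₗ[ℝ] (InfinitePlace F → ℂ) where
  toFun z w := if w.embedding.comp (τ : F →+* F) = (plPerm τ w).embedding then z (plPerm τ w)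
    else conj (z (plPerm τ w))
  map_add' a b := by funext w; simp only [Pi.add_apply]; split_ifs <;> simp
  map_smul' c a := by
    funext w
    simp only [Pi.smul_apply, RingHom.id_apply]
    split_ifs <;> simp [Complex.real_smul, map_mul, Complex.conj_ofReal]

/-- Conjugating coordinates commutes with the embeddings. -/
lemma sig_emb (τ : F ≃+* F) (y : F) : sig τ (emb y) = emb (τ y) := by
  funext w
  change (if _ then _ else _) = w.embedding (τ y)
  rcases InfinitePlace.embedding_mk_eq (w.embedding.comp (τ : F →+* F)) with h | h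
  · rw [if_pos (show w.embedding.comp (τ : F →+* F) = (plPerm τ w).embedding from h.symm)]
    exact RingHom.congr_fun h y
  · rw [if_neg]
    · change conj ((InfinitePlace.mk (w.embedding.comp (τ : F →+* F))).embedding y) = _
      rw [h]
      simp [ComplexEmbedding.conjugate]
    · intro e
      have h' : (plPerm τ w).embedding =
        ComplexEmbedding.conjugate (w.embedding.comp (τ : F →+* F)) := h
      rw [← e] at h'
      exact InfinitePlace.not_isReal_iff_isComplex.2
        (IsTotallyComplex.isComplex (InfinitePlace.mk (w.embedding.comp (τ : F →+* F))))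
        ⟨_, ComplexEmbedding.isReal_iff.2 h'.symm, rfl⟩

/-- The map on coordinates is injective. -/
lemma sig_injective (τ : F ≃+* F) : Function.Injective (sig τ) := by
  rw [← LinearMap.ker_eq_bot, LinearMap.ker_eq_bot']
  intro z hz
  funext u
  obtain ⟨w, rfl⟩ := plPerm_surjective τ u
  have h : (if w.embedding.comp (τ : F →+* F) = (plPerm τ w).embedding then z (plPerm τ w)
    else conj (z (plPerm τ w))) = 0 := congrFun hz w
  split_ifs at h
  · exact h
  · simpa using h

/-- The automorphism preserves means. -/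
theorem mean_comp_sig (τ : F ≃+* F) {g : (InfinitePlace F → ℂ) → ℂ} (hg : IsPer g) :
    mean (fun z => g (sig τ z)) = mean g := by
  obtain ⟨hc, M, hM, p⟩ := hg
  have hlat : ∀ l : 𝓞 F, sig τ (emb ((M : F) * (l : F)))
      = emb ((M : F) * ((RingOfIntegers.mapRingEquiv τ l : 𝓞 F) : F)) := fun l => by
    rw [sig_emb, map_mul, map_natCast]
    rfl
  have hsc : Continuous (sig τ) := LinearMap.continuous_of_finiteDimensional _
  have hg' : Per M fun z => g (sig τ z) := fun z l => by
    change g (sig τ (z + _)) = _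
    rw [map_add, hlat, p]
  rw [Fermat.LT.Mult.mean_eq hM hg' (hc.comp hsc), Fermat.LT.Mult.mean_eq hM p hc]
  exact Fermat.LT.Mult.meanM_comp_linear hM hM (sig τ)
    (LinearMap.injective_iff_surjective.1 (sig_injective τ)) (fun l => ⟨_, hlat l⟩) p hc

/-- The map at infinity in horospherical coordinates. -/
lemma amapX_pnt (τ : F ≃+* F) (z : InfinitePlace F → ℂ) {t : InfinitePlace F → ℝ} (ht : Pos t) :
    amapX τ (pnt z t) = pnt (sig τ z) (fun w => t (plPerm τ w)) := by
  funext w
  rw [amapX_eq]
  change _ = H3.mk (if _ then _ else _) (t (plPerm τ w))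
  split_ifs
  · rfl
  · rw [← H3.mk_coord (H3.cj (pnt z t (plPerm τ w))), H3.coord_cj, Fermat.LT.Mult.pnt,
      H3.coord_mk_of_pos _ (ht _)]

/-- The automorphism on functions. -/
noncomputable def Utw (τ : F ≃+* F) : Fn F →ₗ[ℂ] Fn F where
  toFun Ψ := fun g x => Ψ (gmap τ g) (amapX τ x)
  map_add' _ _ := rfl
  map_smul' _ _ := rfl

/-- The twisted function, written out. -/
@[simp] lemma Utw_apply (τ : F ≃+* F) (Ψ : Fn F) (g : GA F) (x : AX F) :
    Utw τ Ψ g x = Ψ (gmap τ g) (amapX τ x) := rfl

/-- The twist is semilinear for translations. -/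
lemma Utw_R (τ : F ≃+* F) (h : GA F) (Ψ : Fn F) : Utw τ (R (gmap τ h) Ψ) = R h (Utw τ Ψ) := by
  funext g x
  simp

/-- The automorphism preserves being nonzero. -/
lemma Utw_ne_zero (τ : F ≃+* F) {Ψ : Fn F} (h : Ψ ≠ 0) : Utw τ Ψ ≠ 0 := fun e => h (by
  funext g x
  obtain ⟨y, rfl⟩ := amapX_surjective τ x
  have := congrFun (congrFun e (gmap τ.symm g)) y
  rwa [Utw_apply, gmap_gmap_symm] at this)

/-- The stabiliser of a twisted function. -/
lemma mem_stab_Utw (τ : F ≃+* F) {v : Place F} {Ψ : Fn F} {h : GL (Fin 2) F}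
    (hh : mapGL τ h ∈ stab (mapPlace τ v) Ψ) : h ∈ stab v (Utw τ Ψ) := by
  rw [mem_stab, ← Utw_R, gmap_sgl, mem_stab.1 hh]

/-- A twist carries `U0N`-invariance to the preimage place. -/
lemma U0N_le_stab_Utw (τ : F ≃+* F) {v : Place F} {Ψ : Fn F} {m : ℕ}
    (hh : U0N ((mapPlace τ v).valuation F) m ≤ stab (mapPlace τ v) Ψ) :
    U0N (v.valuation F) m ≤ stab v (Utw τ Ψ) :=
      fun _ hk => mem_stab_Utw τ (hh (mapGL_mem_U0N rfl hk))

/-- Transporting the Hecke operator. -/
theorem Tv_Utw (τ : F ≃+* F) {v : Place F} {Ψ : Fn F}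
    (hU : U0 ((mapPlace τ v).valuation F) ≤ stab (mapPlace τ v) Ψ) :
    Tv v (Utw τ Ψ) = Utw τ (Tv (mapPlace τ v) Ψ) := by
  set u := mapPlace τ v
  set ε : Fˣ := (unif u)⁻¹ * tu τ (unif v)
  have hπ : u.valuation F (tu τ (unif v) : F) = WithZero.exp (-1 : ℤ) := by
    rw [coe_tu, valuation_mapPlace, val_unif]
  have hε : u.valuation F (ε : F) = 1 := by
    rw [Units.val_mul, Units.val_inv_eq_inv_val, map_mul, map_inv₀, val_unif, hπ,
      inv_mul_cancel₀ WithZero.exp_ne_zero]
  have hεm : ∀ e : Fˣ, u.valuation F (e : F) = 1 → tor e ∈ stab u Ψ := fun e he =>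
    hU (U0N_le_U0 _ 0 (tUnits_le_U0N u 0 ((mem_tUnits u).2 ⟨e, he, rfl⟩)))
  simp only [Tv_eq, map_add, map_sum, ← Utw_R, gmap_sgl]
  congr 1
  · -- `τ` permutes the residues
    have hmod : ∀ r r' : F, u.valuation F (r' - r) ≤ WithZero.exp (-1 : ℤ) →
        R (sgl u (upMat (unif u) r')) Ψ = R (sgl u (upMat (unif u) r)) Ψ := by
      intro r r' hr
      have e : upMat (unif u) r' = upMat (unif u) r * upMat 1 ((r' - r) / unif u) := by
        rw [upMat_mul, mul_one, mul_div_cancel₀ _ (unif u).ne_zero, sub_add_cancel]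
      rw [e, map_mul, R_mul]
      congr 1
      refine mem_stab.1 (hU (U0N_le_U0 _ 0 (nball_zero_le_U0N u 0 (upMat_mem_nball u ?_))))
      rw [map_div₀, val_unif, WithZero.exp_zero, div_le_one₀ (zero_lt_iff.2 WithZero.exp_ne_zero)]
      exact hr
    have himg : ∀ r ∈ breps v (-1) 1, u.valuation F (τ r) ≤ WithZero.exp ((-1 : ℤ) + (1 : ℕ)) := by
      intro r hr
      rw [valuation_mapPlace]
      exact breps_le v hr
    have hback : ∀ r ∈ breps u (-1) 1, v.valuation F (τ.symm r) ≤
        WithZero.exp ((-1 : ℤ) + (1 : ℕ)) := by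
      intro r hr
      rw [← valuation_mapPlace τ v, τ.apply_symm_apply]
      exact breps_le u hr
    choose ρ hρ hρu using fun r : breps v (-1) 1 => breps_unique u (-1) 1 (himg r r.2)
    refine Finset.sum_bij (fun r hr => ρ ⟨r, hr⟩) (fun r hr => (hρ ⟨r, hr⟩).1)
      (fun a ha b hb e => ?_) (fun b hb => ?_) fun r hr => ?_
    · obtain ⟨x, hx, hxu⟩ := breps_unique v (-1) 1 (breps_le v ha)
      have e1 := (hρ ⟨a, ha⟩).2
      have e2 : u.valuation F (τ b - ρ ⟨a, ha⟩) ≤ WithZero.exp (-1 : ℤ) := e ▸ (hρ ⟨b, hb⟩).2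
      have h3 : v.valuation F (a - b) ≤ WithZero.exp (-1 : ℤ) := by
        rw [← valuation_mapPlace τ v, map_sub,
          show τ a - τ b = (τ a - ρ ⟨a, ha⟩) - (τ b - ρ ⟨a, ha⟩) by ring]
        exact ((u.valuation F).map_sub _ _).trans (max_le e1 e2)
      rw [hxu a ⟨ha, by simp⟩, hxu b ⟨hb, h3⟩]
    · obtain ⟨r, hr, -⟩ := breps_unique v (-1) 1 (hback b hb)
      refine ⟨r, hr.1, (hρu ⟨r, hr.1⟩ b ⟨hb, ?_⟩).symm⟩
      have := hr.2
      rw [← valuation_mapPlace τ v, map_sub, τ.apply_symm_apply, Valuation.map_sub_swap] at this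
      exact this
    · rw [mapGL_upMat, show upMat (tu τ (unif v)) (τ r) = upMat (unif u) (τ r) * tor ε by
        rw [tor_apply, upMat_mul, mul_inv_cancel_left, mul_zero, zero_add], map_mul, R_mul,
        mem_stab.1 (hεm ε hε)]
      exact congrArg (Utw τ) (hmod _ _ (hρ ⟨r, hr⟩).2)
  · -- and moves the diagonal translate
    rw [mapGL_tor, map_inv, show (tu τ (unif v))⁻¹ = (unif u)⁻¹ * ε⁻¹ by simp [ε, mul_comm],
      map_mul, map_mul, R_mul, mem_stab.1 (hεm ε⁻¹ (by simp [Units.val_inv_eq_inv_val, hε]))]

/-- Automorphisms preserve archimedean eigenfunctions. -/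
lemma ArchEig.amapX (τ : F ≃+* F) {f : AX F → ℂ} (hf : Continuous f) (h : ArchEig f) :
    ArchEig fun x => f (Mult.amapX τ x) := by
  intro w k hk hs x
  -- `w` corresponds to `w'` through `c`, the identity or conjugation
  obtain ⟨w', hw'⟩ := plPerm_surjective τ w
  set c : H3 → H3 :=
    fun y => if w'.embedding.comp (τ : F →+* F) = w.embedding then y else H3.cj y with hc
  have hcoshd : ∀ y z, coshd (c y) (c z) = coshd y z := fun y z => by
    simp only [hc]; split_ifs
    · rfl
    · exact coshd_cj y z
  -- updating at `w` becomes updating at `w'`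
  have hupd : ∀ y, Mult.amapX τ (Function.update x w y) =
      Function.update (Mult.amapX τ x) w' (c y) := by
    intro y
    funext u
    rcases eq_or_ne u w' with rfl | hu
    · rw [Function.update_self, amapX_eq, hw', Function.update_self]
    · rw [Function.update_of_ne hu, amapX_eq, amapX_eq,
        Function.update_of_ne (fun e => hu (plPerm_injective τ (e.trans hw'.symm)))]
  have hxw : Mult.amapX τ x w' = c (x w) := by rw [amapX_eq, hw']
  have hcm : MeasurePreserving c hmeas hmeas := by
    by_cases he : w'.embedding.comp (τ : F →+* F) = w.embedding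
    · rw [show c = id from funext fun y => if_pos he]; exact MeasurePreserving.id _
    · rw [show c = H3.cj from funext fun y => if_neg he]; exact measurePreserving_cj
  have hinv : Function.Involutive c := fun y => by
    simp only [hc]; split_ifs <;> simp
  have hce : MeasurableEmbedding c :=
    (MeasurableEquiv.mk ⟨c, c, hinv, hinv⟩ hcm.measurable hcm.measurable).measurableEmbedding
  -- the eigen equation at `w'`, transported by the isometry `c`
  have h1 := h w' k hk hs (Mult.amapX τ x)
  set K := AKer.ofRadial k hk hs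
  set G : H3 → ℂ :=
    fun y => (k (coshd (c (x w)) y) : ℂ) * f (Function.update (Mult.amapX τ x) w' y) with hG
  have hGm : AEStronglyMeasurable G hmeas := ((K.continuous_right (c (x w))).mul
    (hf.comp (continuous_const.update w' continuous_id))).aestronglyMeasurable
  rw [hxw, hIntegral_eq_integral hGm] at h1
  have hGm' : AEStronglyMeasurable
      (fun y => (k (coshd (x w) y) : ℂ) * f (Mult.amapX τ (Function.update x w y))) hmeas :=
    ((K.continuous_right (x w)).mul ((hf.comp (continuous_amapX τ)).comp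
      (continuous_const.update w continuous_id))).aestronglyMeasurable
  change hIntegral (fun y => (k (coshd (x w) y) : ℂ) * f (Mult.amapX τ (Function.update x w y)))
    = hhat0 k * f (Mult.amapX τ x)
  rw [hIntegral_eq_integral hGm']
  refine Eq.trans ?_ h1
  rw [← hcm.integral_comp hce G]
  refine integral_congr_ae (Eventually.of_forall fun y => ?_)
  simp [hG, hcoshd, hupd]

/-- **Twisting eigenfunctions.** The transform of an eigenfunction by `τ` is one with the same
eigenvalues, exceptional at the preimage of `T` and at the places where they change. -/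
theorem IsAut.Utw (τ : F ≃+* F) {T : Finset (Place F)} {lam : Place F → ℝ} {Ψ : Fn F}
    (h : IsAut T lam Ψ) (hbad : {v | lam (mapPlace τ v) ≠ lam v}.Finite) :
    IsAut (T.image (mapPlace τ).symm ∪ hbad.toFinset) lam (Mult.Utw τ Ψ) := by
  set T' := T.image (mapPlace τ).symm ∪ hbad.toFinset
  obtain ⟨S, hS, hS1, -⟩ : ∃ S : Lev F, (∀ v ∉ T, v ∉ S) ∧ IsLevel S Ψ ∧ True := by
    obtain ⟨S, a, b⟩ := h.level
    exact ⟨S, a, b, trivial⟩
  obtain ⟨C, hC⟩ := h.bounded
  set S' : Lev F := ⟨fun v => S.depth (mapPlace τ v),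
    S.finite'.preimage (mapPlace τ).injective.injOn⟩
  have hlev : IsLevel S' (Mult.Utw τ Ψ) := fun g k x hk => by
    rw [Utw_apply, Utw_apply, map_mul]
    exact hS1 _ _ _ fun u => mapGL_mem_UN ((mapPlace τ).apply_symm_apply u) (by
      have := hk ((mapPlace τ).symm u)
      simpa [S', lev] using this)
  have hout : ∀ v ∉ T', mapPlace τ v ∉ T ∧ lam (mapPlace τ v) = lam v := fun v hv => by
    simp only [T', Finset.mem_union, not_or, Finset.mem_image, not_exists, not_and,
      Set.Finite.mem_toFinset, Set.mem_ofPred_eq, not_not] at hv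
    exact ⟨fun e => hv.1 _ e ((mapPlace τ).symm_apply_apply v), hv.2⟩
  refine ⟨⟨fun γ g x => ?_, fun g => (h.bas.continuous _).comp (continuous_amapX τ), S', hlev⟩,
    ⟨S', fun v hv => ?_, hlev⟩, ⟨C, fun g x => hC _ _⟩,
    fun g => ArchEig.amapX τ (h.bas.continuous _) (h.arch _), fun g t ht => ?_, fun v hv => ?_⟩
  · rw [Utw_apply, Utw_apply, map_mul, gmap_dgl, amapX_act, h.bas.invariant]
  · rw [Lev.notMem_iff]
    exact Lev.notMem_iff.1 (hS _ (hout v hv).1)
  · have ht' : Pos fun w => t (plPerm τ w) := fun w => ht _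
    rw [show sl (Mult.Utw τ Ψ g) t = fun z => sl (Ψ (gmap τ g)) (fun w => t (plPerm τ w))
      (sig τ z) from
      funext fun z => by rw [sl, sl, Utw_apply, amapX_pnt τ z ht],
      mean_comp_sig τ ((h.bas.isNice _).isPer_sl ht'), h.cuspidal _ _ ht']
  · rw [Tv_Utw τ (h.U0_le_stab (hout v hv).1), h.hecke _ (hout v hv).1, map_smul, (hout v hv).2]

/-- The point of the image of a representative is the image point. -/
lemma gmap_sec {S : Lev F} {τ : F ≃+* F} (hS : Stable τ S) (p : Pt F S) :
    toPt S (gmap τ (sec p.1)) = (Pt.amap hS p).1 := by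
  refine Subtype.ext (funext fun u => ?_)
  refine (FinPt.amap_apply hS p.1 ((mapPlace τ).apply_symm_apply u) ?_).symm
  exact (QuotientGroup.out_eq' (p.1.1 ((mapPlace τ).symm u))).symm

/-- On points the twist is the action of the automorphism. -/
lemma desc_Utw {S : Lev F} {τ : F ≃+* F} (hS : Stable τ S) {Ψ : Fn F} (hΨ : IsLevel S Ψ) :
    desc S (Utw τ Ψ) = fun p => desc S Ψ (Pt.amap hS p) := by
  funext p
  change Ψ (gmap τ (sec p.1)) (amapX τ p.2) = Ψ (sec (Pt.amap hS p).1) (Pt.amap hS p).2
  rw [← gmap_sec hS p, hΨ.sec_toPt]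
  rfl

end Fermat.LTG.Mult
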