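import Fermat.Agent.LTG.Mult.Basis
import Fermat.Agent.LTG.Mult.Twist

/-!
# Multiplicity: traces of an automorphism on the eigenfunctions of a level

`trace_amap`: an automorphism keeping almost all eigenvalues has nonzero trace.
-/

set_option autoImplicit false
open NumberField Filter
open scoped Classical

namespace Fermat.LTG.Mult

open Fermat.LT

variable {F : Type*} [Field F] [NumberField F] [IsTotallyComplex F]

/-- The trace does not depend on the basis. -/
theorem traceNe_of_basis {S : Lev F} {N : Place F → ℕ} {Z : Set (Place F)} {lam : Place F → ℝ}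
    (hZ : Z.Finite) (B : VecBasis S N Z lam) {J : Type*} [Fintype J] {f : J → Pt F S → ℂ}
    (hf : LinearIndependent ℂ f) (hmem : ∀ j, IsVec S N Z lam (f j))
    (hspan : ∀ Φ, IsVec S N Z lam Φ → ∃ a : J → ℂ, Φ = fun p => ∑ j, a j * f j p)
    (A : (Pt F S → ℂ) →ₗ[ℂ] (Pt F S → ℂ)) (M : J → J → ℂ)
    (hM : ∀ j, A (f j) = fun p => ∑ k, M j k * f k p) (htr : ∑ j, M j j ≠ 0) : B.TraceNe A := by
  -- change of basis both ways
  choose P hP using fun i => hspan (B.f i) (B.mem i)
  choose Q hQ using fun j => B.span Z hZ (f j) (hmem j)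
  have hP' : ∀ i, B.f i = ∑ j, P i j • f j := fun i => by
    rw [hP i]; funext p; simp [Finset.sum_apply]
  have hQ' : ∀ j, f j = ∑ i, Q j i • B.f i := fun j => by
    rw [hQ j]; funext p; simp [Finset.sum_apply]
  have hM' : ∀ j, A (f j) = ∑ k, M j k • f k := fun j => by
    rw [hM j]; funext p; simp [Finset.sum_apply]
  -- the matrix `Q P` is the identity
  have hQP : ∀ j k, ∑ i, Q j i * P i k = if j = k then 1 else 0 := by
    intro j k
    have h : ∑ k', ((∑ i, Q j i * P i k') - if j = k' then 1 else 0) • f k' = 0 := by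
      simp only [sub_smul, Finset.sum_sub_distrib, ite_smul, one_smul, zero_smul, Finset.sum_ite_eq,
        Finset.mem_univ, if_true, Finset.sum_smul, mul_smul]
      rw [Finset.sum_comm, sub_eq_zero]
      simp only [← Finset.smul_sum, ← hP', ← hQ']
    exact sub_eq_zero.1 (Fintype.linearIndependent_iff.1 hf _ h k)
  -- in the basis of `B` the matrix of `A` is `P M Q`, of the same trace
  refine ⟨fun i l => ∑ j, ∑ k, P i j * M j k * Q k l, fun i => ?_, ?_⟩
  · have e : A (B.f i) = ∑ l, (∑ j, ∑ k, P i j * M j k * Q k l) • B.f l := by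
      conv_lhs => rw [hP' i, map_sum]
      simp only [map_smul, hM', Finset.sum_smul, Finset.smul_sum, smul_smul]
      conv_lhs => enter [2, j, 2, k]; rw [hQ' k, Finset.smul_sum]
      simp only [smul_smul, mul_assoc]
      rw [Finset.sum_comm (s := (Finset.univ : Finset B.ι))]
      exact Finset.sum_congr rfl fun j _ => Finset.sum_comm
    funext p
    rw [e]
    simp [Finset.sum_apply]
  · have e : ∑ i, ∑ j, ∑ k, P i j * M j k * Q k i = ∑ j, M j j := by
      rw [Finset.sum_comm]
      refine Finset.sum_congr rfl fun j _ => ?_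
      rw [Finset.sum_comm]
      have : ∀ k, ∑ i, P i j * M j k * Q k i = M j k * if k = j then 1 else 0 := fun k => by
        rw [← hQP, Finset.mul_sum]
        exact Finset.sum_congr rfl fun i _ => by ring
      simp [this]
    rw [e]
    exact htr

variable {T : Finset (Place F)} {lam : Place F → ℝ} {φ : Fn F}

/-- If almost all eigenvalues are fixed by `τ`, the minimal levels grow along it. -/
lemma nlev_mapPlace_le {Ψ : Fn F} (h : IsAut T lam Ψ) (hne : Ψ ≠ 0) (τ : F ≃+* F)
    (hbad : {v | lam (mapPlace τ v) ≠ lam v}.Finite) (v : Place F) :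
    nlev lam v ≤ nlev lam (mapPlace τ v) := by
  obtain ⟨T₁, Φ, h1, h2, h3⟩ := h.has_nlev hne (mapPlace τ v)
  exact nlev_le ⟨_, _, h1.Utw τ hbad, Utw_ne_zero τ h2, U0N_le_stab_Utw τ h3⟩

omit [IsTotallyComplex F] in
/-- The exceptional set of the inverse automorphism is finite too. -/
lemma bad_symm (τ : F ≃+* F) (hbad : {v | lam (mapPlace τ v) ≠ lam v}.Finite) :
    {v | lam (mapPlace τ.symm v) ≠ lam v}.Finite := by
  refine (hbad.image (mapPlace τ)).subset fun v hv =>
    ⟨(mapPlace τ).symm v, ?_, Equiv.apply_symm_apply _ _⟩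
  rw [Set.mem_ofPred_eq, mapPlace_symm_apply] at hv
  rw [Set.mem_ofPred_eq, Equiv.apply_symm_apply]
  exact Ne.symm hv

/-- The level exponents are stable under an automorphism preserving almost all eigenvalues. -/
lemma nlev_mapPlace {Ψ : Fn F} (h : IsAut T lam Ψ) (hne : Ψ ≠ 0) (τ : F ≃+* F)
    (hbad : {v | lam (mapPlace τ v) ≠ lam v}.Finite) (v : Place F) :
    nlev lam (mapPlace τ v) = nlev lam v := by
  refine le_antisymm ?_ (nlev_mapPlace_le h hne τ hbad v)
  have := nlev_mapPlace_le h hne τ.symm (bad_symm τ hbad) (mapPlace τ v)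
  rwa [mapPlace_symm_apply, Equiv.symm_apply_apply] at this

/-- **The twist of the vector of minimal level is a multiple of it**, for an automorphism keeping
almost all eigenvalues. -/
theorem exists_twist_const (h : IsAut T lam φ) (hne : φ ≠ 0)
    (hU : ∀ v, U0N (v.valuation F) (nlev lam v) ≤ stab v φ) (τ : F ≃+* F)
    (hbad : {v | lam (mapPlace τ v) ≠ lam v}.Finite) : ∃ c : ℂ, c ≠ 0 ∧ Utw τ φ = c • φ := by
  have h' := h.Utw τ hbad
  have hU' : ∀ v, U0N (v.valuation F) (nlev lam v) ≤ stab v (Utw τ φ) := fun v =>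
    U0N_le_stab_Utw τ (by rw [← nlev_mapPlace h hne τ hbad v]; exact hU _)
  have hd := W0_stdPt_zero_ne h hne hU
  set c := W0 (Utw τ φ) (stdPt fun _ => 0) / W0 φ (stdPt fun _ => 0) with hc
  set T' := T ∪ (T.image (mapPlace τ).symm ∪ hbad.toFinset)
  have hA := h.mono (T' := T') Finset.subset_union_left
  have hA' := h'.mono (T' := T') Finset.subset_union_right
  refine ⟨c, div_ne_zero (W0_stdPt_zero_ne h' (Utw_ne_zero τ hne) hU') hd, sub_eq_zero.1 ?_⟩
  refine eq_zero_of_stdPt (hA'.sub (hA.smul c)) (nlev lam)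
    (fun v _ x hx => mem_stab_sub (hU' v hx) (mem_stab_smul c (hU v hx))) fun s hs hs' => ?_
  have : (fun v => (s v : ℤ)) = fun _ => (0 : ℤ) := funext fun v => by
    by_cases hv : v ∈ T'
    · have := hs' v hv
      omega
    · simp [hs v hv]
  rw [this, W0_sub hA'.bas (hA.bas.smul c), W0_smul _ hA.bas, hc, div_mul_cancel₀ _ hd, sub_self]

omit [IsTotallyComplex F] in
/-- A family of stabilising matrices fixes the function. -/
lemma R_eq_of_stab {Ψ : Fn F} {S : Lev F} (hS : IsLevel S Ψ) {k : GA F}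
    (hk : ∀ v, k.1 v ∈ stab v Ψ) : R k Ψ = Ψ := by
  funext g x
  exact hS.mul_eq g x hk

/-- The twist permutes the basis. -/
theorem Utw_bvec (h : IsAut T lam φ) (hU : ∀ v, U0N (v.valuation F) (nlev lam v) ≤ stab v φ)
    (τ : F ≃+* F) {c : ℂ} (hc : Utw τ φ = c • φ) {j : Place F → ℕ} (hj : Adm fun v => (j v : ℤ)) :
    Utw τ (bvec φ j) = c • bvec φ (fun v => j (mapPlace τ v)) := by
  obtain ⟨S, -, hS, -⟩ := h.exists_level
  have hj1 : Adm fun v => -(j v : ℤ) := by
    filter_upwards [hj] with v hv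
    rw [hv, neg_zero]
  have hj2 : Adm fun v => -(j (mapPlace τ v) : ℤ) :=
    (mapPlace τ).injective.tendsto_cofinite.eventually hj1
  set hh := shiftPt fun v => -(j (mapPlace τ v) : ℤ)
  set K := (shiftPt fun v => -(j v : ℤ))⁻¹ * gmap τ hh
  have hK : R K φ = φ := by
    refine R_eq_of_stab hS fun v => hU v (tUnits_le_U0N v _ ((mem_tUnits v).2
      ⟨(unif v ^ (-(j v : ℤ)))⁻¹ * tu τ (unif ((mapPlace τ).symm v) ^ (-(j v : ℤ))), ?_, ?_⟩))
    · rw [Units.val_mul, Units.val_inv_eq_inv_val, map_mul, map_inv₀, val_unif_zpow, coe_tu,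
        valuation_symm_mapPlace, val_unif_zpow, inv_mul_cancel₀ WithZero.exp_ne_zero]
    · rw [GA.mul_apply, GA.inv_apply, shiftPt_apply hj1, gmap_apply, shiftPt_apply hj2,
        Equiv.apply_symm_apply, mapGL_tor, ← map_inv, ← map_mul]
      rfl
  have e : R (shiftPt fun v => -(j v : ℤ)) φ = R (gmap τ hh) φ := by
    conv_lhs => rw [← hK, ← R_mul]
    simp [K]
  rw [bvec, e, Utw_R, hc, map_smul]
  rfl

/-- The permutation of the box. -/
noncomputable def boxMap {n N : Place F → ℕ} (τ : F ≃+* F) (hn : ∀ v, n (mapPlace τ v) = n v)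
    (hN : ∀ v, N (mapPlace τ v) = N v) (j : Box n N) : Box n N :=
  ⟨fun v => j.1 (mapPlace τ v), fun v => by
    have := j.2 (mapPlace τ v)
    rwa [hn, hN] at this⟩

/-- The action of the automorphism as a linear map. -/
noncomputable def amapL {S : Lev F} {τ : F ≃+* F} (hS : Stable τ S) :
    (Pt F S → ℂ) →ₗ[ℂ] (Pt F S → ℂ) where
  toFun Φ := fun p => Φ (Pt.amap hS p)
  map_add' _ _ := rfl
  map_smul' _ _ := rfl

variable {Z : Set (Place F)} {S : Lev F} {N : Place F → ℕ}

/-- **The trace of the automorphism.** A field automorphism keeping almost all eigenvalues has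
nonzero trace on a basis of the eigenfunctions of a level (`TraceNe`). -/
theorem trace_amap (h : IsAut T lam φ) (hne : φ ≠ 0)
    (hU : ∀ v, U0N (v.valuation F) (nlev lam v) ≤ stab v φ) (hTZ : ∀ v, v ∉ Z → v ∉ T)
    (hZ : Z.Finite) (B : VecBasis S N Z lam) (τ : F ≃+* F) (hS : Stable τ S)
    (hbad : {v | lam (mapPlace τ v) ≠ lam v}.Finite) (hN : ∀ v, N (mapPlace τ v) = N v)
    (hn : ∀ v, nlev lam v ≤ N v) (hNS : ∀ v, N v ≤ S.depth v) :
    B.TraceNe (fun Φ p => Φ (Pt.amap hS p)) := by
  have hfin : {v | N v ≠ 0}.Finite := S.finite'.subset fun v hv => by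
    have := hNS v
    simp only [Set.mem_ofPred_eq] at hv ⊢
    omega
  have := finite_box (n := nlev lam) hfin
  let _ := Fintype.ofFinite (Box (nlev lam) N)
  obtain ⟨hmem, hind, hspan⟩ := bvec_basis h hne hU hTZ S N hn hNS
  obtain ⟨c, hc0, hc⟩ := exists_twist_const h hne hU τ hbad
  set σ := boxMap τ (nlev_mapPlace h hne τ hbad) hN
  refine traceNe_of_basis hZ B hind (fun j => (hmem j).1) (fun Φ hΦ => hspan Z hZ Φ hΦ) (amapL hS)
    (fun j k => if σ j = k then c else 0) (fun j => ?_) ?_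
  · have e : Utw τ (bvec φ j.1) = c • bvec φ (σ j).1 := Utw_bvec h hU τ hc (adm_of_box hfin j)
    change (fun p => desc S (bvec φ j.1) (Pt.amap hS p)) = _
    rw [← desc_Utw hS (hmem j).2, e]
    funext p
    simp [desc]
  · rw [← Finset.sum_filter, Finset.sum_const, nsmul_eq_mul]
    refine mul_ne_zero
      (Nat.cast_ne_zero.2 (Finset.card_ne_zero.2 ⟨⟨fun _ => 0, fun _ => Nat.zero_le _⟩, ?_⟩)) hc0
    simp [σ, boxMap]

end Fermat.LTG.Mult
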