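import Fermat.Agent.LTG.Mult.Trace

/-!
# Multiplicity: the trace after `U ^ 2` at a place of level one

`trace_locAct` is the trace, computed from `U2v_bvec`.
-/

set_option autoImplicit false
open NumberField Filter
open scoped Classical

namespace Fermat.LTG.Mult

open Fermat.LT

variable {F : Type*} [Field F] [NumberField F]

/-- `U_v`. -/
noncomputable def U1v (v : Place F) : Fn F →ₗ[ℂ] Fn F :=
  ∑ r ∈ breps v (-1) 1, R (sgl v (upMat (unif v) r))

/-- `U_v` as a sum of translations. -/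
lemma U1v_eq (v : Place F) (Ψ : Fn F) :
    U1v v Ψ = ∑ r ∈ breps v (-1) 1, R (sgl v (upMat (unif v) r)) Ψ := by
  simp [U1v, LinearMap.sum_apply]

/-- The Hecke operator is `U_v` plus one translation. -/
lemma Tv_eq_U1v (v : Place F) (Ψ : Fn F) : Tv v Ψ = U1v v Ψ + R (sgl v (tor (unif v)⁻¹)) Ψ := rfl

/-- The double coset operator of `(u 0; 0 1)`. -/
noncomputable def U2v (v : Place F) (u : Fˣ) : Fn F →ₗ[ℂ] Fn F :=
  ∑ r ∈ breps v (-2) 2, R (sgl v (upMat u r))

/-- The double coset operator as a sum of translations. -/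
lemma U2v_eq (v : Place F) (u : Fˣ) (Ψ : Fn F) :
    U2v v u Ψ = ∑ r ∈ breps v (-2) 2, R (sgl v (upMat u r)) Ψ := by
  simp [U2v, LinearMap.sum_apply]

/-- The representatives are integral. -/
lemma exp_add_one (v : Place F) {r : F} (hr : r ∈ breps v (-1) 1) : v.valuation F r ≤ 1 := by
  simpa using breps_le v hr

/-- The double shift `U2v` is the square of `U1v`. -/
theorem U2v_eq_sq (v : Place F) (u : Fˣ) (hu : v.valuation F (u : F) = WithZero.exp (-2 : ℤ))
    (Ψ : Fn F) (hn : nball v 0 ≤ stab v Ψ) (ht : tUnits v ≤ stab v Ψ) :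
    U2v v u Ψ = U1v v (U1v v Ψ) := by
  set π := unif v
  have hπ := val_unif v
  simp only [U1v_eq, map_sum, ← R_mul, ← map_mul, upMat_mul]
  set ε : Fˣ := (π * π)⁻¹ * u
  have hε : v.valuation F (ε : F) = 1 := by
    rw [Units.val_mul, Units.val_inv_eq_inv_val, Units.val_mul, map_mul, map_inv₀, map_mul, hπ, hu,
      ← WithZero.exp_add, show (-1 : ℤ) + -1 = -2 by rfl, inv_mul_cancel₀ WithZero.exp_ne_zero]
  -- a translate depends on the representative modulo `p²` only
  have hmod : ∀ x y : F, v.valuation F (y - x) ≤ WithZero.exp (-2 : ℤ) →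
      R (sgl v (upMat u y)) Ψ = R (sgl v (upMat (π * π) x)) Ψ := by
    intro x y hxy
    have e : upMat u y = upMat (π * π) x * upMat 1 ((y - x) / ((π * π : Fˣ) : F)) * tor ε := by
      rw [tor_apply, upMat_mul, upMat_mul, mul_one, mul_inv_cancel_left,
        mul_div_cancel₀ _ (π * π).ne_zero, sub_add_cancel, mul_zero, zero_add]
    rw [e, map_mul, R_mul,
      mem_stab.1 (show tor ε ∈ stab v Ψ from ht ((mem_tUnits v).2 ⟨ε, hε, rfl⟩)), map_mul, R_mul,
      mem_stab.1 (hn (upMat_mem_nball v (x := (y - x) / ((π * π : Fˣ) : F)) ?_))]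
    rw [map_div₀, Units.val_mul, map_mul, hπ, ← WithZero.exp_add,
      div_le_iff₀ (zero_lt_iff.2 WithZero.exp_ne_zero), ← WithZero.exp_add]
    simpa using hxy
  rw [U2v_eq, ← Finset.sum_product']
  have hsum : ∀ p ∈ breps v (-1) 1 ×ˢ breps v (-1) 1,
      v.valuation F ((π : F) * p.1 + p.2) ≤ WithZero.exp ((-2 : ℤ) + (2 : ℕ)) := by
    intro p hp
    rw [Finset.mem_product] at hp
    rw [show ((-2 : ℤ) + (2 : ℕ)) = 0 by rfl, WithZero.exp_zero]
    refine ((v.valuation F).map_add _ _).trans (max_le ?_ (exp_add_one v hp.2))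
    rw [map_mul, hπ]
    exact mul_le_one' (exp_neg_nat_le_one 1) (exp_add_one v hp.1)
  -- pairs `(x, y)` give the representatives `π x + y` modulo `p²` bijectively
  choose ρ hρ hρu using fun p : ↥(breps v (-1) 1 ×ˢ breps v (-1) 1) =>
    breps_unique v (-2) 2 (hsum p.1 p.2)
  have hinj : ∀ p (hp : p ∈ breps v (-1) 1 ×ˢ breps v (-1) 1) q
      (hq : q ∈ breps v (-1) 1 ×ˢ breps v (-1) 1),
      ρ ⟨p, hp⟩ = ρ ⟨q, hq⟩ → p = q := by
    intro p hp q hq e
    have e1 := (hρ ⟨p, hp⟩).2
    have e2 : v.valuation F ((π : F) * q.1 + q.2 - ρ ⟨p, hp⟩) ≤ WithZero.exp (-2 : ℤ) :=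
      e ▸ (hρ ⟨q, hq⟩).2
    have h3 : v.valuation F ((π : F) * (p.1 - q.1) + (p.2 - q.2)) ≤ WithZero.exp (-2 : ℤ) := by
      rw [show (π : F) * (p.1 - q.1) + (p.2 - q.2)
        = ((π : F) * p.1 + p.2 - ρ ⟨p, hp⟩) - ((π : F) * q.1 + q.2 - ρ ⟨p, hp⟩) by ring]
      exact ((v.valuation F).map_sub _ _).trans (max_le e1 e2)
    rw [Finset.mem_product] at hp hq
    have h4 : v.valuation F (p.2 - q.2) ≤ WithZero.exp (-1 : ℤ) := by
      rw [show p.2 - q.2 = ((π : F) * (p.1 - q.1) + (p.2 - q.2)) - (π : F) * (p.1 - q.1) by ring]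
      refine ((v.valuation F).map_sub _ _).trans
        (max_le (h3.trans (WithZero.exp_le_exp.2 (by omega))) ?_)
      rw [map_mul, hπ]
      exact mul_le_of_le_one_right' (((v.valuation F).map_sub _ _).trans
        (max_le (exp_add_one v hp.1) (exp_add_one v hq.1)))
    have hsnd : p.2 = q.2 := by
      obtain ⟨x, -, hx⟩ := breps_unique v (-1) 1 (breps_le v hp.2)
      rw [hx p.2 ⟨hp.2, by simp⟩, hx q.2 ⟨hq.2, h4⟩]
    have hfst : p.1 = q.1 := by
      obtain ⟨x, -, hx⟩ := breps_unique v (-1) 1 (breps_le v hp.1)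
      rw [hx p.1 ⟨hp.1, by simp⟩, hx q.1 ⟨hq.1, ?_⟩]
      rw [hsnd, sub_self, add_zero, map_mul, hπ] at h3
      rwa [← mul_le_mul_iff_right₀ (zero_lt_iff.2 (WithZero.exp_ne_zero (a := (-1 : ℤ)))),
        ← WithZero.exp_add]
    exact Prod.ext hfst hsnd
  symm
  refine Finset.sum_bij (fun p hp => ρ ⟨p, hp⟩) (fun p hp => (hρ ⟨p, hp⟩).1) hinj (fun b hb => ?_)
    fun p hp => ?_
  · have hc : ((breps v (-1) 1 ×ˢ breps v (-1) 1).attach.image ρ) = breps v (-2) 2 := by
      refine Finset.eq_of_subset_of_card_le (fun x hx => ?_) (le_of_eq ?_)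
      · obtain ⟨p, -, rfl⟩ := Finset.mem_image.1 hx
        exact (hρ p).1
      · rw [Finset.card_image_of_injective _ fun p q e => Subtype.ext (hinj p.1 p.2 q.1 q.2 e),
          Finset.card_attach, Finset.card_product, card_breps, card_breps, pow_two, pow_one]
    rw [← hc] at hb
    obtain ⟨p, -, e⟩ := Finset.mem_image.1 hb
    exact ⟨p.1, p.2, e⟩
  · exact (hmod _ _ (by rw [Valuation.map_sub_swap]; exact (hρ ⟨p, hp⟩).2)).symm

/-- `U_v` undoes the inverse torus translation, up to the norm. -/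
lemma U1v_tor_inv {v : Place F} {Ψ : Fn F} (hn : nball v 0 ≤ stab v Ψ) :
    U1v v (R (sgl v (tor (unif v)⁻¹)) Ψ) = (pnorm v : ℂ) • Ψ := by
  rw [U1v_eq, Finset.sum_congr rfl fun r hr => show _ = Ψ from ?_, Finset.sum_const,
    card_breps, pow_one, ← Nat.cast_smul_eq_nsmul ℂ]
  rw [← R_mul, ← map_mul, tor_apply, upMat_mul, mul_inv_cancel, mul_zero, zero_add]
  exact mem_stab.1 (hn (upMat_mem_nball v (by simpa using breps_le v hr)))

variable [IsTotallyComplex F]

omit [IsTotallyComplex F] in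
/-- The double coset of `diag(u, 1)` decomposes by translations of the ball. -/
lemma exists_rep (w : Place F) {u : Fˣ} (hu : w.valuation F (u : F) = WithZero.exp (-2 : ℤ))
    {m : GL (Fin 2) F} (hm : m ∈ congU0 (w.valuation F) 1) :
    ∃ r ∈ breps w (-2) 2, ∃ Y ∈ congU0 (w.valuation F) 1, m * upMat u 0 = upMat u r * Y := by
  obtain ⟨hint, h10⟩ := hm
  set M := (m : Matrix (Fin 2) (Fin 2) F) with hM
  have hlt : w.valuation F (M 1 0) < 1 := lt_of_le_of_lt h10 (by
    rw [← WithZero.exp_zero, WithZero.exp_lt_exp]; omega)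
  have hdet : w.valuation F M.det = 1 := v_det_intGL hint
  have he : w.valuation F (M 1 1) = 1 := by
    refine le_antisymm (v_entry_le_one _ hint 1 1) (not_lt.1 fun h => ?_)
    rw [Matrix.det_fin_two] at hdet
    refine (lt_self_iff_false (1 : WithZero (Multiplicative ℤ))).1 ?_
    calc (1 : WithZero (Multiplicative ℤ)) = _ := hdet.symm
      _ < 1 := lt_of_le_of_lt ((w.valuation F).map_sub _ _) (max_lt
        (by rw [map_mul];
              exact lt_of_le_of_lt (mul_le_of_le_one_left' (v_entry_le_one _ hint 0 0)) h)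
        (by rw [map_mul];
              exact lt_of_le_of_lt (mul_le_of_le_one_left' (v_entry_le_one _ hint 0 1)) hlt))
  have hbe : w.valuation F (M 0 1 / M 1 1) ≤ WithZero.exp ((-2 : ℤ) + (2 : ℕ)) := by
    rw [map_div₀, he, div_one, show ((-2 : ℤ) + (2 : ℕ)) = 0 by rfl, WithZero.exp_zero]
    exact v_entry_le_one _ hint 0 1
  -- `r` reduces the upper entry
  obtain ⟨r, ⟨hr, hr2⟩, -⟩ := breps_unique w (-2) 2 hbe
  have hr1 : w.valuation F r ≤ 1 := by simpa using breps_le w hr
  have hne : M 1 1 ≠ 0 := fun h0 => by simp [h0] at he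
  refine ⟨r, hr, (tor u)⁻¹ * (upMat 1 (-r) * m) * tor u, ?_, ?_⟩
  · -- the cofactor lies in `congU0 1`
    have hX : ((upMat 1 (-r) * m : GL (Fin 2) F) : Matrix (Fin 2) (Fin 2) F)
        = !![M 0 0 - r * M 1 0, M 0 1 - r * M 1 1; M 1 0, M 1 1] := by
      rw [Units.val_mul, coe_upMat, ← hM]
      ext i j
      fin_cases i <;> fin_cases j <;> simp [Matrix.mul_apply, Fin.sum_univ_two, sub_eq_add_neg]
    have hY : (((tor u)⁻¹ * (upMat 1 (-r) * m) * tor u : GL (Fin 2) F) : Matrix (Fin 2) (Fin 2) F)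
        = !![M 0 0 - r * M 1 0, (M 0 1 - r * M 1 1) / u; M 1 0 * u, M 1 1] := by
      rw [conj_tor_entries, hX]
      simp
    have h00 : w.valuation F (M 0 0 - r * M 1 0) ≤ 1 := by
      refine ((w.valuation F).map_sub _ _).trans (max_le (v_entry_le_one _ hint 0 0) ?_)
      rw [map_mul]
      exact mul_le_one' hr1 hlt.le
    have h01 : w.valuation F ((M 0 1 - r * M 1 1) / u) ≤ 1 := by
      rw [show M 0 1 - r * M 1 1 = M 1 1 * (M 0 1 / M 1 1 - r) by field_simp, map_div₀, map_mul, he,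
        one_mul, hu, div_le_one₀ (zero_lt_iff.2 WithZero.exp_ne_zero)]
      exact hr2
    have h10' : w.valuation F (M 1 0 * u) ≤ WithZero.exp (-((1 : ℕ) : ℤ)) :=
      exp_mul_le w h10 hu.le (by omega)
    refine ⟨mem_intGL_of_det (v := w.valuation F) (fun i j => ?_) ?_, ?_⟩
    · rw [hY]
      fin_cases i <;> fin_cases j
      exacts [h00, h01, h10'.trans (exp_neg_nat_le_one 1), he.le]
    · rw [hY, Matrix.det_fin_two_of, show (M 0 0 - r * M 1 0) * M 1 1
          - (M 0 1 - r * M 1 1) / u * (M 1 0 * u) = M.det by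
            rw [Matrix.det_fin_two]; field_simp; ring]
      exact hdet
    · rw [hY]
      exact h10'
  · rw [show upMat u r = upMat 1 r * tor u by rw [tor_apply, upMat_mul]; simp, ← tor_apply]
    simp only [← mul_assoc, mul_inv_cancel_right]
    rw [upMat_mul]
    simp [upMat_one]

/-- The double coset on points. -/
theorem locAct_eq {S : Lev F} (w : Place F) {Ψ : Fn F} (hΨ : IsLevel S Ψ)
    (hU : U0N (w.valuation F) 1 ≤ stab w Ψ) (hd : 1 ≤ S.depth w) {u : Fˣ}
    (hu : w.valuation F (u : F) = WithZero.exp (-2 : ℤ)) (l : LKer S w)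
    (hl : ∀ a b : GL (Fin 2) F, l (a : Vert S w) (b : Vert S w) =
      if ∃ k₁ ∈ U0N (w.valuation F) 1, ∃ k₂ ∈ U0N (w.valuation F) 1,
        a⁻¹ * b = k₁ * upMat u 0 * k₂ then 1 else 0)
    {s : Finset (GL (Fin 2) F)}
    (hs : IsReps (U0N (w.valuation F) 1) (UN (w.valuation F) (S.depth w)) s) :
    locAct w l (desc S Ψ) = desc S ((s.card : ℂ) • U2v w u Ψ) := by
  funext p
  set g := sec p.1
  have hx : p.1.1 w = (g.1 w : Vert S w) := (QuotientGroup.out_eq' _).symm
  set G : F × GL (Fin 2) F → Vert S w :=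
    fun q => ((g.1 w * (upMat u q.1 * q.2) : GL (Fin 2) F) : Vert S w) with hG
  have hmem : ∀ q ∈ breps w (-2) 2 ×ˢ s, l (p.1.1 w) (G q) = 1 := by
    intro q hq
    rw [Finset.mem_product] at hq
    rw [hx, hG, hl, if_pos]
    refine ⟨upMat 1 q.1,
      nball_zero_le_U0N w 1 (upMat_mem_nball w (by simpa using breps_le w hq.1)), q.2,
      hs.1 _ hq.2, ?_⟩
    rw [inv_mul_cancel_left, upMat_mul]
    simp
  have hinj : Set.InjOn G (breps w (-2) 2 ×ˢ s : Finset (F × GL (Fin 2) F)) := by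
    rintro ⟨r, k⟩ hq ⟨r', k'⟩ hq' e
    rw [Finset.mem_coe, Finset.mem_product] at hq hq'
    simp only [hG, QuotientGroup.eq] at e
    have e2 : k⁻¹ * upMat 1 ((r' - r) / u) * k' ∈ UN (w.valuation F) (S.depth w) := by
      have h3 : upMat (1 : Fˣ) ((r' - r) / u) = (upMat u r)⁻¹ * upMat u r' := by
        rw [upMat_inv, upMat_mul, inv_mul_cancel]
        congr 1
        rw [Units.val_inv_eq_inv_val]
        field_simp
        ring
      rw [h3]
      simpa [mul_assoc, lev] using e
    have h4 : upMat (1 : Fˣ) ((r' - r) / u) ∈ U0N (w.valuation F) 1 := by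
      have := (U0N (w.valuation F) 1).mul_mem ((U0N (w.valuation F) 1).mul_mem (hs.1 k hq.2)
        (UN_le_U0N hd e2)) ((U0N (w.valuation F) 1).inv_mem (hs.1 k' hq'.2))
      simpa [mul_assoc] using this
    have h5 := (of_upMat_mem_U0 w (U0N_le_U0 _ 1 h4)).2
    rw [map_div₀, hu, div_le_one₀ (zero_lt_iff.2 WithZero.exp_ne_zero)] at h5
    have hr : r = r' := by
      obtain ⟨x, -, hxu⟩ := breps_unique w (-2) 2 (breps_le w hq.1)
      rw [hxu r ⟨hq.1, by simp⟩, hxu r' ⟨hq'.1, by rwa [Valuation.map_sub_swap]⟩]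
    subst hr
    rw [sub_self, zero_div, upMat_one, mul_one] at e2
    obtain ⟨x, -, hxu⟩ := hs.2 k (hs.1 k hq.2)
    rw [hxu k ⟨hq.2, by simp [(UN (w.valuation F) (S.depth w)).one_mem]⟩, hxu k' ⟨hq'.2, e2⟩]
  -- the row of the double coset: `upMat u r * k` for the representatives `r` and `k ∈ s`
  have hrow : l.row (p.1.1 w) = (breps w (-2) 2 ×ˢ s).image G := by
    ext y
    rw [LKer.mem_row]
    constructor
    · intro hy
      obtain ⟨h, rfl⟩ := QuotientGroup.mk_surjective y
      rw [hx, hl] at hy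
      split_ifs at hy with hd' <;> [skip; exact absurd rfl hy]
      obtain ⟨k₁, ⟨c, hc⟩, k₂, hk₂, e⟩ := hd'
      obtain ⟨r, hr, Y, hY, hrY⟩ := exists_rep w hu hc
      obtain ⟨k, ⟨hk, hk2⟩, -⟩ := hs.2 ((scal c)⁻¹ * Y * k₂) ((U0N _ 1).mul_mem ((U0N _ 1).mul_mem
        ((U0N _ 1).inv_mem (scal_mem_withScalars _ c)) (le_withScalars _ hY)) hk₂)
      refine Finset.mem_image.2 ⟨(r, k), Finset.mem_product.2 ⟨hr, hk⟩, ?_⟩
      rw [hG, QuotientGroup.eq]
      have e3 : (g.1 w)⁻¹ * h = upMat u r * ((scal c)⁻¹ * Y * k₂) := by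
        have hcomm := scal_comm c⁻¹ (upMat u r)
        rw [show scal c⁻¹ = (scal c)⁻¹ from map_inv _ _] at hcomm
        rw [e, show k₁ * upMat u 0 = (scal c)⁻¹ * (scal c * k₁ * upMat u 0) by
          rw [mul_assoc, inv_mul_cancel_left], hrY]
        simp only [← mul_assoc, hcomm]
      change (g.1 w * (upMat u r * k))⁻¹ * h ∈ lev S w
      rw [mul_inv_rev, mul_assoc, e3]
      have := (UN (w.valuation F) (S.depth w)).inv_mem hk2
      simpa [mul_assoc, lev] using this
    · intro hy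
      obtain ⟨q, hq, rfl⟩ := Finset.mem_image.1 hy
      rw [hmem q hq]
      exact one_ne_zero
  change ∑ y ∈ l.row (p.1.1 w), l (p.1.1 w) y * desc S Ψ (p.1.set w y, p.2)
    = ((s.card : ℂ) • U2v w u Ψ) g p.2
  rw [hrow, Finset.sum_image hinj]
  have hval : ∀ q ∈ breps w (-2) 2 ×ˢ s, l (p.1.1 w) (G q) * desc S Ψ (p.1.set w (G q), p.2)
      = Ψ (g * sgl w (upMat u q.1)) p.2 := by
    intro q hq
    rw [hmem q hq, one_mul]
    have e : p.1.set w (G q) = toPt S (g * sgl w (upMat u q.1 * q.2)) := by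
      rw [toPt_mul_sgl, toPt_sec]
    change Ψ (sec (p.1.set w (G q))) p.2 = _
    rw [e, hΨ.sec_toPt, map_mul, ← mul_assoc, stab_apply (hU (hs.1 _ (Finset.mem_product.1 hq).2))]
  rw [Finset.sum_congr rfl hval, Finset.sum_product]
  simp only [Finset.sum_const, nsmul_eq_mul, U2v_eq, Pi.smul_apply, Finset.sum_apply, smul_eq_mul,
    Finset.mul_sum, R_apply]

variable {T : Finset (Place F)} {lam : Place F → ℝ} {φ : Fn F}

/-- A local kernel as a linear map. -/
noncomputable def locL {S : Lev F} (w : Place F) (l : LKer S w) :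
    (Pt F S → ℂ) →ₗ[ℂ] (Pt F S → ℂ) where
  toFun Φ := locAct w l Φ
  map_add' a b := by funext p; simp [locAct, mul_add, Finset.sum_add_distrib]
  map_smul' c a := by
    funext p
    simp only [locAct, Pi.smul_apply, smul_eq_mul, RingHom.id_apply, Finset.mul_sum]
    exact Finset.sum_congr rfl fun y _ => by ring

/-- Exchange the two shells at a place of level one. -/
noncomputable def flipJ {n N : Place F → ℕ} (w : Place F) (hw : N w - n w = 1) (j : Box n N) :
    Box n N :=
  ⟨Function.update j.1 w (1 - j.1 w), fun v => by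
    by_cases h : v = w
    · subst h; rw [Function.update_self, hw]; omega
    · rw [Function.update_of_ne h]; exact j.2 v⟩

variable {Z : Set (Place F)} {S : Lev F} {N : Place F → ℕ}

/-- The double shift at a place of level one in terms of the two basis vectors at its exponents. -/
theorem U2v_bvec (h : IsAut T lam φ) (hU : ∀ v, U0N (v.valuation F) (nlev lam v) ≤ stab v φ)
    {w : Place F} (hwT : w ∉ T) (hn : ∀ v, nlev lam v ≤ N v) (hfin : {v | N v ≠ 0}.Finite)
    (hw0 : nlev lam w = 0) (hw1 : N w = 1) {u : Fˣ}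
    (hu : w.valuation F (u : F) = WithZero.exp (-2 : ℤ)) (j : Box (nlev lam) N) :
    U2v w u (bvec φ j.1)
      = (if j.1 w = 0 then (lam w : ℂ) ^ 2 - pnorm w else -(pnorm w : ℂ)) • bvec φ j.1
        + (if j.1 w = 0 then -(lam w : ℂ) else (pnorm w : ℂ) * lam w)
          • bvec φ (flipJ w (by omega) j).1 := by
  have hst := U0N_le_stab_bvec hU hfin hn (φ := φ) (lam := lam)
  rw [U2v_eq_sq w u hu _ ((nball_zero_le_U0N w _).trans (hst j w))
    ((tUnits_le_U0N w _).trans (hst j w))]
  -- `U2v` is `U1v` squared; only the vectors of level `0` and `1` at `w` occur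
  set j₀ : Place F → ℕ := Function.update j.1 w 0
  set j₁ : Place F → ℕ := Function.update j.1 w 1
  have hadj : ∀ x : ℕ, Adm fun v => -((Function.update j.1 w x v : ℕ) : ℤ) := fun x => by
    filter_upwards [adm_of_box hfin j, (Set.finite_singleton w).compl_mem_cofinite] with v hv hvw
    rw [Function.update_of_ne (by simpa using hvw), hv, neg_zero]
  -- the second is a translate of the first
  have hG1 : bvec φ j₁ = R (sgl w (tor (unif w)⁻¹)) (bvec φ j₀) := by
    rw [bvec, bvec, ← R_mul]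
    refine congrArg (fun k => R k φ) (GA.ext' fun v => ?_)
    rw [GA.mul_apply, shiftPt_apply (hadj 0), shiftPt_apply (hadj 1)]
    by_cases hv : v = w
    · subst hv; simp
    · simp [sgl_ne hv, Function.update_of_ne hv]
  have hj0 : (shiftPt fun v => -(j₀ v : ℤ)).1 w = 1 := by
    rw [shiftPt_apply (hadj 0)]
    simp
  -- `U1v` maps the first to `λ b₀ - b₁` and the second to `pnorm w * b₀`
  have hT0 : Tv w (bvec φ j₀) = (lam w : ℂ) • bvec φ j₀ := by
    rw [bvec, Tv_R hj0, h.hecke w hwT, map_smul]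
  have hU0 : nball w 0 ≤ stab w (bvec φ j₀) :=
    (nball_zero_le_U0N w _).trans ((hU w).trans (stab_le_R hj0))
  have e0 : U1v w (bvec φ j₀) = (lam w : ℂ) • bvec φ j₀ - bvec φ j₁ := by
    rw [← hT0, Tv_eq_U1v, hG1, add_sub_cancel_right]
  have e1 : U1v w (bvec φ j₁) = (pnorm w : ℂ) • bvec φ j₀ := by rw [hG1, U1v_tor_inv hU0]
  -- apply this twice in either case
  rcases (show j.1 w = 0 ∨ j.1 w = 1 by have := j.2 w; omega) with hj | hj
  · have a1 : j.1 = j₀ := by rw [← Function.update_eq_self w j.1, hj]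
    have a2 : (flipJ w (by omega) j).1 = j₁ := by
      change Function.update j.1 w (1 - j.1 w) = _
      rw [hj]
    rw [if_pos hj, if_pos hj, a2, a1, e0, map_sub, map_smul, e0, e1]
    simp only [smul_sub, smul_smul, sub_smul, neg_smul, pow_two]
    abel
  · have a1 : j.1 = j₁ := by rw [← Function.update_eq_self w j.1, hj]
    have a2 : (flipJ w (by omega) j).1 = j₀ := by
      change Function.update j.1 w (1 - j.1 w) = _
      rw [hj]
    rw [if_neg (by omega), if_neg (by omega), a2, a1, e1, map_smul, e0]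
    simp only [smul_sub, smul_smul, neg_smul]
    abel

/-- **The trace after `U ^ 2`.** An automorphism keeping almost all eigenvalues, followed by the
double shift at a fixed place of level one, still has nonzero trace on a basis of the eigenfunctions
of a level. -/
theorem trace_locAct (h : IsAut T lam φ) (hne : φ ≠ 0)
    (hU : ∀ v, U0N (v.valuation F) (nlev lam v) ≤ stab v φ) (hTZ : ∀ v, v ∉ Z → v ∉ T)
    (hZ : Z.Finite) (B : VecBasis S N Z lam) (τ : F ≃+* F) (hS : Stable τ S)
    (hbad : {v | lam (mapPlace τ v) ≠ lam v}.Finite) (hN : ∀ v, N (mapPlace τ v) = N v)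
    (hn : ∀ v, nlev lam v ≤ N v) (hNS : ∀ v, N v ≤ S.depth v) (w : Place F) (hwτ : mapPlace τ w = w)
    (hwZ : w ∉ Z) (hw0 : nlev lam w = 0) (hw1 : N w = 1) (hlam : (lam w) ^ 2 ≠ 2 * (pnorm w : ℝ))
    (u : Fˣ) (hu : w.valuation F (u : F) = WithZero.exp (-2 : ℤ)) (l : LKer S w)
    (hl : ∀ a b : GL (Fin 2) F, l (a : Vert S w) (b : Vert S w) =
      if ∃ k₁ ∈ U0N (w.valuation F) 1, ∃ k₂ ∈ U0N (w.valuation F) 1,
        a⁻¹ * b = k₁ * upMat u 0 * k₂ then 1 else 0) :
    B.TraceNe (fun Φ p => locAct w l Φ (Pt.amap hS p)) := by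
  have hfin : {v | N v ≠ 0}.Finite := S.finite'.subset fun v hv => by
    have := hNS v
    simp only [Set.mem_ofPred_eq] at hv ⊢
    omega
  have := finite_box (n := nlev lam) hfin
  let _ := Fintype.ofFinite (Box (nlev lam) N)
  obtain ⟨hmem, hind, hspan⟩ := bvec_basis h hne hU hTZ S N hn hNS
  obtain ⟨c, hc0, hc⟩ := exists_twist_const h hne hU τ hbad
  obtain ⟨s, hs⟩ := exists_isReps w (U0N_le_U0 _ 1) (S.depth w)
  have hs0 : (s.card : ℂ) ≠ 0 := by
    obtain ⟨k, ⟨hk, -⟩, -⟩ := hs.2 1 (one_mem _)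
    exact Nat.cast_ne_zero.2 (Finset.card_ne_zero.2 ⟨k, hk⟩)
  set σ := boxMap τ (nlev_mapPlace h hne τ hbad) hN
  have hNw : N w - nlev lam w = 1 := by omega
  -- on the box the operator maps `j` to `a j` times `σ j` plus `b j` times `σ (fl j)`
  set fl := flipJ (n := nlev lam) w hNw
  set a : Box (nlev lam) N → ℂ :=
    fun j => if j.1 w = 0 then (lam w : ℂ) ^ 2 - pnorm w else -(pnorm w : ℂ)
  set b : Box (nlev lam) N → ℂ :=
    fun j => if j.1 w = 0 then -(lam w : ℂ) else (pnorm w : ℂ) * lam w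
  have hflip : ∀ j, (fl j).1 w = 1 - j.1 w := fun j => by simp [fl, flipJ]
  have hne' : ∀ j, σ (fl j) ≠ j := fun j e => by
    have h1 := congrArg (fun k : Box (nlev lam) N => k.1 w) e
    simp only [σ, boxMap, hwτ, hflip] at h1
    have := j.2 w
    omega
  refine traceNe_of_basis hZ B hind (fun j => (hmem j).1) (fun Φ hΦ => hspan Z hZ Φ hΦ)
    ((amapL hS).comp (locL w l))
    (fun j k => (s.card : ℂ) * c * ((if σ j = k then a j else 0) + if σ (fl j) = k then b j else 0))
    (fun j => ?_) ?_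
  · change (fun p => locAct w l (desc S (bvec φ j.1)) (Pt.amap hS p)) = _
    have hst := U0N_le_stab_bvec hU hfin hn (φ := φ) j
    rw [locAct_eq w (hmem j).2 (by rw [← hw1]; exact hst w) (by have := hNS w; omega) hu l hl hs,
      U2v_bvec h hU (hTZ w hwZ) hn hfin hw0 hw1 hu j]
    have hlev : IsLevel S ((s.card : ℂ) • (a j • bvec φ j.1 + b j • bvec φ (fl j).1)) :=
      fun g k x hk => by simp [(hmem j).2 g k x hk, (hmem (fl j)).2 g k x hk]
    rw [← desc_Utw hS hlev, map_smul, map_add, map_smul, map_smul,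
      Utw_bvec h hU τ hc (adm_of_box hfin j), Utw_bvec h hU τ hc (adm_of_box hfin (fl j))]
    funext p
    simp only [desc, mul_add, mul_ite, mul_zero, add_mul, ite_mul, zero_mul,
      Finset.sum_add_distrib, Finset.sum_ite_eq, Finset.mem_univ, if_true,
        Pi.smul_apply, Pi.add_apply,
      smul_eq_mul]
    ring!
  · simp only [if_neg (hne' _), add_zero]
    rw [← Finset.mul_sum, ← Finset.sum_filter]
    refine mul_ne_zero (mul_ne_zero hs0 hc0) fun h0 => ?_
    -- pairing `j` with its flip gives `λ² - 2 q` for each fixed point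
    set P := Finset.univ.filter fun j : Box (nlev lam) N => σ j = j
    have hinv : ∑ j ∈ P, a (fl j) = ∑ j ∈ P, a j := by
      have hff : ∀ j, fl (fl j) = j := fun j => Subtype.ext (funext fun v => by
        have := j.2 w
        change Function.update (fl j).1 w (1 - (fl j).1 w) v = _
        by_cases hv : v = w
        · subst hv; rw [Function.update_self, hflip]; omega
        · rw [Function.update_of_ne hv]; exact Function.update_of_ne hv _ _)
      have hcomm : ∀ j, σ j = j → σ (fl j) = fl j := fun j hj => Subtype.ext (funext fun v => by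
        change (fl j).1 (mapPlace τ v) = (fl j).1 v
        have hjv : j.1 (mapPlace τ v) = j.1 v := congrFun (congrArg Subtype.val hj) v
        by_cases hv : v = w
        · subst hv; rw [hwτ]
        · have hv' : mapPlace τ v ≠ w := fun e => hv ((mapPlace τ).injective (e.trans hwτ.symm))
          change Function.update j.1 w _ (mapPlace τ v) = Function.update j.1 w _ v
          rw [Function.update_of_ne hv', Function.update_of_ne hv, hjv])
      refine Finset.sum_bij' (fun j _ => fl j) (fun j _ => fl j) (fun j hj => ?_) (fun j hj => ?_)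
        (fun j _ => hff j) (fun j _ => hff j) fun j _ => rfl
      all_goals
        simp only [P, Finset.mem_filter, Finset.mem_univ, true_and] at hj ⊢
        exact hcomm j hj
    have hsum : ∀ j, a j + a (fl j) = ((lam w ^ 2 - 2 * pnorm w : ℝ) : ℂ) := fun j => by
      have := j.2 w
      rcases (show j.1 w = 0 ∨ j.1 w = 1 by omega) with hj | hj <;>
        simp [a, hflip, hj] <;> ring
    have h2 : ∑ j ∈ P, (a j + a (fl j)) = 0 := by rw [Finset.sum_add_distrib, hinv, h0, add_zero]
    rw [Finset.sum_congr rfl fun j _ => hsum j, Finset.sum_const, nsmul_eq_mul, mul_eq_zero,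
      Nat.cast_eq_zero, Finset.card_eq_zero, Complex.ofReal_eq_zero] at h2
    rcases h2 with h2 | h2
    · have := Finset.filter_eq_empty_iff.1 h2 (x := ⟨fun _ => 0, fun _ => Nat.zero_le _⟩)
        (Finset.mem_univ _)
      exact this rfl
    · exact hlam (sub_eq_zero.1 h2)

end Fermat.LTG.Mult
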